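import Fermat.Agent.GalRep.JZ4_Rel
import Fermat.Agent.ModFun.Rep

/-!
# The analytic bridges
-/

set_option autoImplicit false

noncomputable section

open CongruenceSubgroup

namespace Fermat.Agent.GalRep

open Fermat.Agent.X0Emb Fermat.Agent.ModFun AlgebraicCurve ModularCurve

theorem bridge (ι : AlgebraicClosure ℚ →+* ℂ) (N : ℕ) [NeZero N] : Bridge ι N where
  conv F h1 h2 h3 G h4 := mem_modularFunctionFieldBar N ι h1 (fun γ hγ τ => h3 ⟨γ, hγ⟩ τ) h2 h4
  conv0 y := by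
    obtain ⟨u, v, U, V, hv, hy, hU, hV⟩ := exists_rep_frac_bar N ι y.2
    exact ⟨u, v, U, V, hv, hy, hU.mdiff, hV.mdiff, fun γ τ => hU.inv _ γ.2 τ,
      fun γ τ => hV.inv _ γ.2 τ, hU.lexp, hV.lexp⟩
  root n hn G h hG := exists_coeffMap_of_pow_eq ι hn hG

end Fermat.Agent.GalRep
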