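import Fermat.Prelude.Def_EllipticCurve_FrobeniusTrace
import Mathlib.RingTheory.RootsOfUnity.PrimitiveRoots
import Mathlib.RingTheory.RootsOfUnity.AlgebraicallyClosed
import Mathlib.Algebra.Ring.GeomSum

/-!
# Frobenius and inertia acting on roots of unity
-/

set_option autoImplicit false

noncomputable section

namespace Fermat.Agent.GalRep

open scoped Pointwise

variable {K L : Type*} [Field K] [Field L] [Algebra K L]

lemma natCast_mem_nonunits_of_dvd {A : ValuationSubring L} {ℓ : ℕ} (hA : A.LiesOverPrime ℓ) :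
    (ℓ : A) ∈ IsLocalRing.maximalIdeal A := by
  have h : (ℓ : L) ∈ A.nonunits := hA
  rw [ValuationSubring.mem_nonunits_iff_exists_mem_maximalIdeal] at h
  obtain ⟨h1, h2⟩ := h
  have : (⟨(ℓ : L), h1⟩ : A) = (ℓ : A) := Subtype.ext rfl
  rwa [this] at h2

/-- an integer prime to the residue characteristic is non-zero in the residue field. -/
lemma residue_natCast_ne_zero {A : ValuationSubring L} {ℓ M : ℕ} (hA : A.LiesOverPrime ℓ)
    (hM : Nat.Coprime ℓ M) : (M : IsLocalRing.ResidueField A) ≠ 0 := by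
  intro h
  have h0 : (ℓ : IsLocalRing.ResidueField A) = 0 := by
    have := (IsLocalRing.residue_eq_zero_iff (ℓ : A)).mpr (natCast_mem_nonunits_of_dvd hA)
    rwa [map_natCast] at this
  have hbez := Nat.gcd_eq_gcd_ab ℓ M
  rw [hM] at hbez
  have h1 : ((1 : ℤ) : IsLocalRing.ResidueField A) = 0 := by
    have : ((1 : ℤ)) = (ℓ : ℤ) * ℓ.gcdA M + (M : ℤ) * ℓ.gcdB M := by exact_mod_cast hbez
    rw [this]
    push_cast
    rw [h0, h]; ring
  simp at h1

lemma rootOfUnity_mem {A : ValuationSubring L} {M : ℕ} (hM : M ≠ 0) {ζ : L} (hζ : ζ ^ M = 1) :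
    ζ ∈ A := by
  have hv : A.valuation ζ = 1 := by
    have h : A.valuation ζ ^ M = 1 := by rw [← map_pow, hζ, map_one]
    exact (pow_eq_one_iff.mp h).resolve_right hM
  exact (A.valuation_le_one_iff ζ).mp hv.le

/-- a root of unity of order prime to the residue characteristic with residue `1` is `1`. -/
lemma eq_one_of_residue_eq_one {A : ValuationSubring L} {ℓ M : ℕ} (hA : A.LiesOverPrime ℓ)
    (hM : Nat.Coprime ℓ M) {ζ : A} (hζ : ζ ^ M = 1) (hres : IsLocalRing.residue A ζ = 1) :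
    ζ = 1 := by
  have h1 : (∑ i ∈ Finset.range M, ζ ^ i) * (ζ - 1) = 0 := by
    rw [geom_sum_mul, hζ, sub_self]
  rcases mul_eq_zero.mp h1 with h | h
  · exfalso
    have h2 : IsLocalRing.residue A (∑ i ∈ Finset.range M, ζ ^ i) = M := by
      rw [map_sum]
      simp [hres]
    rw [h, map_zero] at h2
    exact residue_natCast_ne_zero hA hM h2.symm
  · exact sub_eq_zero.mp h

/-- Elements of the inertia group at `ℓ` fix roots of unity of order prime to `ℓ`. -/
lemma inertia_fix_rootOfUnity {A : ValuationSubring L} {ℓ M : ℕ} (hA : A.LiesOverPrime ℓ)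
    (hM : Nat.Coprime ℓ M) (hM0 : M ≠ 0) {σ : L ≃ₐ[K] L} (hσ : σ ∈ A.inertiaSubgroupIn K) {ζ : L}
    (hζ : ζ ^ M = 1) : σ ζ = ζ := by
  obtain ⟨σ', hσ', rfl⟩ := hσ
  have hζA : ζ ∈ A := rootOfUnity_mem hM0 hζ
  have hζ0 : ζ ≠ 0 := by
    rintro rfl
    rw [zero_pow hM0] at hζ
    exact zero_ne_one hζ
  set z : A := ⟨ζ, hζA⟩ with hz
  have hzM : z ^ M = 1 := Subtype.ext hζ
  have hzu : IsUnit z := IsUnit.of_pow_eq_one hzM hM0
  obtain ⟨u, hu⟩ := hzu
  have hker : ∀ x : IsLocalRing.ResidueField A, σ' • x = x := by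
    intro x
    have h := MonoidHom.mem_ker.mp hσ'
    exact congrArg (fun f : RingAut (IsLocalRing.ResidueField A) => f x) h
  have h1 : IsLocalRing.residue A (σ' • z) = IsLocalRing.residue A z := by
    have := hker (IsLocalRing.residue A z)
    rw [← this]
    rfl
  -- the quotient
  set w : A := (σ' • z) * ((u⁻¹ : Aˣ) : A) with hw
  have hwM : w ^ M = 1 := by
    rw [hw, mul_pow, ← smul_pow', hzM, smul_one, one_mul, ← Units.val_pow_eq_pow_val, inv_pow]
    have : u ^ M = 1 := Units.ext (by rw [Units.val_pow_eq_pow_val, hu, hzM]; rfl)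
    rw [this, inv_one, Units.val_one]
  have hwres : IsLocalRing.residue A w = 1 := by
    rw [hw, map_mul, h1, ← hu, ← map_mul, Units.mul_inv, map_one]
  have hw1 := eq_one_of_residue_eq_one hA hM hwM hwres
  have h2 : σ' • z = z := by
    have : (σ' • z) * ((u⁻¹ : Aˣ) : A) * z = z := by rw [← hw, hw1, one_mul]
    rwa [mul_assoc, ← hu, Units.inv_mul, mul_one, hu] at this
  exact congrArg Subtype.val h2

/-- A Frobenius element at `ℓ` raises roots of unity of order prime to `ℓ` to the power `ℓ`. -/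
lemma frobenius_rootOfUnity {A : ValuationSubring L} {ℓ M : ℕ} (hA : A.LiesOverPrime ℓ)
    (hM : Nat.Coprime ℓ M) (hM0 : M ≠ 0) {σ : L ≃ₐ[K] L} (hσ : A.IsFrobeniusAt σ ℓ) {ζ : L}
    (hζ : ζ ^ M = 1) : σ ζ = ζ ^ ℓ := by
  obtain ⟨hσd, hσf⟩ := hσ
  have hζA : ζ ∈ A := rootOfUnity_mem hM0 hζ
  set σ' : A.decompositionSubgroup K := ⟨σ, hσd⟩ with hσ'
  set z : A := ⟨ζ, hζA⟩ with hz
  have hzM : z ^ M = 1 := Subtype.ext hζ
  have hzu : IsUnit (z ^ ℓ) := (IsUnit.of_pow_eq_one hzM hM0).pow ℓ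
  obtain ⟨u, hu⟩ := hzu
  have h1 : IsLocalRing.residue A (σ' • z) = IsLocalRing.residue A (z ^ ℓ) := by
    have := hσf (IsLocalRing.residue A z)
    rw [map_pow, ← this]
    rfl
  set w : A := (σ' • z) * ((u⁻¹ : Aˣ) : A) with hw
  have hwM : w ^ M = 1 := by
    rw [hw, mul_pow, ← smul_pow', hzM, smul_one, one_mul, ← Units.val_pow_eq_pow_val, inv_pow]
    have : u ^ M = 1 := Units.ext (by
      rw [Units.val_pow_eq_pow_val, hu, ← pow_mul, mul_comm ℓ M, pow_mul, hzM, one_pow]; rfl)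
    rw [this, inv_one, Units.val_one]
  have hwres : IsLocalRing.residue A w = 1 := by
    rw [hw, map_mul, h1, ← hu, ← map_mul, Units.mul_inv, map_one]
  have hw1 := eq_one_of_residue_eq_one hA hM hwM hwres
  have h2 : σ' • z = z ^ ℓ := by
    have : (σ' • z) * ((u⁻¹ : Aˣ) : A) * (z ^ ℓ) = z ^ ℓ := by rw [← hw, hw1, one_mul]
    rwa [mul_assoc, ← hu, Units.inv_mul, mul_one, hu] at this
  exact congrArg Subtype.val h2

end Fermat.Agent.GalRep

end
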