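import Fermat.Prelude.Def_CuspForm_HeckeGaloisRepDatum
import Fermat.Prelude.Def_HeckeGalois_EichlerShimura

/-!
# Abstract Eichler--Shimura input for Galois representations

`ESInput N p S J`: `J` is a module over the polynomial Hecke algebra with a commuting action of the
absolute Galois group of `ℚ`, the `p`-power torsion of `J` is unramified outside `N p`, satisfies
the quadratic Frobenius relation, each `J[p^n]` is acted on through a finite level, and the Hecke
algebra of cusp forms acts "faithfully" on `J[p^∞]`.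
-/

set_option autoImplicit false

noncomputable section

open CuspForm ModularCurve

namespace Fermat.Agent.GalRep

/-- The algebraic closure of `ℚ`. -/
abbrev Qbar : Type := AlgebraicClosure ℚ

/-- The absolute Galois group of `ℚ`. -/
abbrev GQ : Type := AlgebraicClosure ℚ ≃ₐ[ℚ] AlgebraicClosure ℚ

/-- The polynomial Hecke algebra on the primes outside `S`. -/
abbrev HeckeAlgS (S : Set ℕ) : Type := MvPolynomial {ℓ : Nat.Primes // (ℓ : ℕ) ∉ S} ℤ

/-- The inclusion of the polynomial Hecke algebra away from `S`. -/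
def inclS (S : Set ℕ) : HeckeAlgS S →ₐ[ℤ] HeckeAlg :=
  MvPolynomial.rename Subtype.val

open Classical in
/-- The generator of the Hecke algebra at a prime `ℓ ∉ S` : `T_ℓ` or `U_ℓ`. -/
def genS (N : ℕ) [NeZero N] (S : Set ℕ) (ℓ : {ℓ : Nat.Primes // (ℓ : ℕ) ∉ S}) :
    heckeAlgebra N 2 S :=
  if h : (ℓ.1 : ℕ) ∣ N then heckeAlgebra.U ℓ.1.2 h ℓ.2 else heckeAlgebra.T ℓ.1.2 h ℓ.2

/-- Evaluation of a Hecke polynomial in the Hecke algebra of weight-two cusp forms. -/
def evS (N : ℕ) [NeZero N] (S : Set ℕ) : HeckeAlgS S →ₐ[ℤ] heckeAlgebra N 2 S :=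
  MvPolynomial.aeval (genS N S)

lemma evS_X_of_not_dvd (N : ℕ) [NeZero N] (S : Set ℕ) (ℓ : {ℓ : Nat.Primes // (ℓ : ℕ) ∉ S})
    (h : ¬ (ℓ.1 : ℕ) ∣ N) :
    evS N S (MvPolynomial.X ℓ) = heckeAlgebra.T ℓ.1.2 h ℓ.2 := by
  rw [evS, MvPolynomial.aeval_X, genS, dif_neg h]

/-- The Eichler--Shimura input. -/
structure ESInput (N p : ℕ) [NeZero N] (S : Set ℕ) (J : Type*) [AddCommGroup J]
    [Module HeckeAlg J] [DistribMulAction GQ J] [SMulCommClass GQ HeckeAlg J] : Prop where
  /-- the `p`-power torsion is unramified outside `N p` -/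
  unramified : UnramifiedOutside (K := ℚ) (L := AlgebraicClosure ℚ) N p J
  /-- the Eichler--Shimura relation -/
  frobenius : FrobeniusQuadratic (K := ℚ) (L := AlgebraicClosure ℚ) N p J
  /-- the Galois group acts on `J[p^n]` through a finite quotient -/
  finiteLevel : ∀ n : ℕ, ∃ L : IntermediateField ℚ (AlgebraicClosure ℚ), FiniteDimensional ℚ L ∧
    ∀ σ : GQ, (∀ x ∈ L, σ x = x) → ∀ x : J, p ^ n • x = 0 → σ • x = x
  /-- faithfulness of the Hecke action on the `p`-power torsion -/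
  faithful : ∀ n : ℕ, ∃ m : ℕ, ∀ t : HeckeAlgS S,
    (∀ x : J, p ^ m • x = 0 → inclS S t • x = 0) →
      evS N S t ∈ Ideal.span {((p : heckeAlgebra N 2 S)) ^ n}

/-- Frobenius density theorem (existence form). -/
def FrobeniusDensity : Prop :=
  ∀ (L : IntermediateField ℚ (AlgebraicClosure ℚ)), FiniteDimensional ℚ L →
    ∀ (σ : GQ) (S : Finset ℕ),
      ∃ ℓ : ℕ, ℓ.Prime ∧ ℓ ∉ S ∧ ∃ A : ValuationSubring (AlgebraicClosure ℚ), A.LiesOverPrime ℓ ∧
        ∃ φ : GQ, A.IsFrobeniusAt φ ℓ ∧ ∃ k : ℕ, ∀ x ∈ L, (φ ^ k) x = σ x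

end Fermat.Agent.GalRep

end
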