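import Fermat.Agent.GalRep.Transfer
import Fermat.Agent.Frob.Density

/-!
# The Frobenius density theorem in the form used by the Galois representation library
-/

set_option autoImplicit false

noncomputable section

open CuspForm ModularCurve Polynomial

namespace Fermat.Agent.GalRep

/-- The Frobenius density theorem. -/
theorem frobeniusDensity : FrobeniusDensity := by
  intro L hL σ S
  haveI := hL
  obtain ⟨ℓ, hℓ, hℓS, A, hA, φ, hφ, -, k', -, hk'⟩ :=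
    Fermat.Agent.FrobDensity.exists_frobenius_on L σ (↑S : Set ℕ) S.finite_toSet
  exact ⟨ℓ, hℓ, by simpa using hℓS, A, hA, φ, hφ, k', fun x hx => (hk' x hx).symm⟩

/-- **S31** from the Eichler--Shimura input only. -/
theorem stmt31_of_ESInput {p : ℕ} {N : ℕ} [NeZero N] {S : Finset ℕ}
    {𝒪 : Type} [CommRing 𝒪] [IsDomain 𝒪] [IsDiscreteValuationRing 𝒪]
    [IsAdicComplete (IsLocalRing.maximalIdeal 𝒪) 𝒪]
    {θ : CuspForm.heckeAlgebra N 2 (↑S : Set ℕ) →+* IsLocalRing.ResidueField 𝒪}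
    {T : Type} [CommRing T] [IsLocalRing T] [IsNoetherianRing T]
    [IsAdicComplete (IsLocalRing.maximalIdeal T) T] [Algebra 𝒪 T] [IsLocalHom (algebraMap 𝒪 T)]
    [Module.Finite 𝒪 T] [Module.Free 𝒪 T]
    {J : Type*} [AddCommGroup J] [Module HeckeAlg J] [DistribMulAction GQ J]
    [SMulCommClass GQ HeckeAlg J] (hJ : ESInput N p (↑S : Set ℕ) J) (hp : p.Prime)
    (hp𝒪 : (p : 𝒪) ∈ IsLocalRing.maximalIdeal 𝒪) (hpS : p ∈ S)
    (hNS : ∀ q : ℕ, q.Prime → q ∣ N → q ∈ S)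
    (H : CuspForm.HeckeGaloisRepDatum N (↑S : Set ℕ) 𝒪 θ T)
    (q : ℕ) (hq : q.Prime) (hqS : q ∉ S) :
    H.ρ.IsUnramifiedAt q :=
  isUnramifiedAt_of_ESInput frobeniusDensity hJ hp hp𝒪 hpS hNS H q hq hqS

/-- The transfer principle for a `HeckeGaloisRepDatum`. -/
theorem transfer_datum {p : ℕ} {N : ℕ} [NeZero N] {S : Finset ℕ}
    {𝒪 : Type} [CommRing 𝒪] [IsDomain 𝒪] [IsDiscreteValuationRing 𝒪]
    [IsAdicComplete (IsLocalRing.maximalIdeal 𝒪) 𝒪]
    {θ : CuspForm.heckeAlgebra N 2 (↑S : Set ℕ) →+* IsLocalRing.ResidueField 𝒪}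
    {T : Type} [CommRing T] [IsLocalRing T] [IsNoetherianRing T]
    [IsAdicComplete (IsLocalRing.maximalIdeal T) T] [Algebra 𝒪 T] [IsLocalHom (algebraMap 𝒪 T)]
    [Module.Finite 𝒪 T] [Module.Free 𝒪 T]
    {J : Type*} [AddCommGroup J] [Module HeckeAlg J] [DistribMulAction GQ J]
    [SMulCommClass GQ HeckeAlg J] (hJ : ESInput N p (↑S : Set ℕ) J) (hp : p.Prime) (hpS : p ∈ S)
    (hNS : ∀ q : ℕ, q.Prime → q ∣ N → q ∈ S)
    (H : CuspForm.HeckeGaloisRepDatum N (↑S : Set ℕ) 𝒪 θ T) (n : ℕ) :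
    ∃ m : ℕ, ∀ y : GQ →₀ ℤ,
      (∀ x : J, p ^ m • x = 0 → (y.sum fun g c => c • (g • x)) = 0) →
      ∀ v : H.ρ.V, (y.sum fun g c => c • H.ρ.ρ g v) ∈
        (Ideal.span {(p : T) ^ n}) • (⊤ : Submodule T H.ρ.V) :=
  transfer frobeniusDensity hJ hp hpS hNS (π := H.π) H.charpoly_frob H.residual_absIrr n

end Fermat.Agent.GalRep

end
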