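import Fermat.Agent.GalRep.JZ6_Exists
import Fermat.Agent.HeckePar.Input

/-!
# Characters of `Γ₀(N)` attached to integral parabolic homomorphisms
-/

set_option autoImplicit false

open UpperHalfPlane Function ModularForm CongruenceSubgroup
open Matrix.SpecialLinearGroup
open scoped Manifold MatrixGroups

noncomputable section

namespace Fermat.Agent.GalRep

open Fermat.Agent.X0Emb Fermat.Agent.ModFun AlgebraicCurve ModularCurve ModularCurve.Period
open Fermat.Agent.HeckePar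

local notation "K" => AlgebraicClosure ℚ

variable {N : ℕ}

/-- the standard primitive `n`-th root of unity. -/
def zetaC (n : ℕ) : ℂˣ := Units.mk0 (Complex.exp (2 * Real.pi * Complex.I / n)) (Complex.exp_ne_zero _)

theorem isPrimitiveRoot_zetaC {n : ℕ} (hn : n ≠ 0) : IsPrimitiveRoot (zetaC n) n :=
  IsPrimitiveRoot.coe_units_iff.mp (Complex.isPrimitiveRoot_exp n hn)

/-- The character `γ ↦ exp(2πi φ(γ)/n)`. -/
def charOf (n : ℕ) (φ : Additive (Gamma0 N) →+ ℤ) : Gamma0 N →* ℂˣ where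
  toFun γ := zetaC n ^ (φ (Additive.ofMul γ))
  map_one' := by simp
  map_mul' γ γ' := by
    rw [ofMul_mul, map_add, zpow_add]

theorem charOf_apply (n : ℕ) (φ : Additive (Gamma0 N) →+ ℤ) (γ : Gamma0 N) :
    charOf n φ γ = zetaC n ^ (φ (Additive.ofMul γ)) := rfl

theorem charOf_add (n : ℕ) (φ ψ : Additive (Gamma0 N) →+ ℤ) :
    charOf n (φ + ψ) = charOf n φ * charOf n ψ := by
  refine MonoidHom.ext fun γ => ?_
  simp only [charOf_apply, MonoidHom.mul_apply, AddMonoidHom.add_apply, zpow_add]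

theorem charOf_zero (n : ℕ) : charOf n (0 : Additive (Gamma0 N) →+ ℤ) = 1 := by
  refine MonoidHom.ext fun γ => ?_
  simp only [charOf_apply, AddMonoidHom.zero_apply, zpow_zero, MonoidHom.one_apply]

theorem charOf_pow {n : ℕ} (hn : n ≠ 0) (φ : Additive (Gamma0 N) →+ ℤ) : charOf n φ ^ n = 1 := by
  refine MonoidHom.ext fun γ => ?_
  rw [MonoidHom.pow_apply, charOf_apply, MonoidHom.one_apply, ← zpow_natCast, ← zpow_mul, mul_comm,
    zpow_mul, zpow_natCast, (isPrimitiveRoot_zetaC hn).pow_eq_one, one_zpow]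

theorem charOf_apply_eq_one_iff {n : ℕ} (hn : n ≠ 0) (φ : Additive (Gamma0 N) →+ ℤ)
    (γ : Gamma0 N) : charOf n φ γ = 1 ↔ (n : ℤ) ∣ φ (Additive.ofMul γ) := by
  rw [charOf_apply, (isPrimitiveRoot_zetaC hn).zpow_eq_one_iff_dvd]

theorem charOf_of_eq_zero (n : ℕ) (φ : Additive (Gamma0 N) →+ ℤ) {γ : Gamma0 N}
    (h : φ (Additive.ofMul γ) = 0) : charOf n φ γ = 1 := by
  rw [charOf_apply, h, zpow_zero]

theorem charOf_parabolic (n : ℕ) {φ : Additive (Gamma0 N) →+ ℤ}
    (hφ : IsParabolicHom (Gamma0 N) φ) (γ : Gamma0 N)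
    (hγ : ((γ : SL(2, ℤ)) : Matrix (Fin 2) (Fin 2) ℤ).trace ^ 2 = 4) : charOf n φ γ = 1 :=
  charOf_of_eq_zero n φ (hφ γ hγ)

theorem charOf_of_pow (n : ℕ) (φ : Additive (Gamma0 N) →+ ℤ) {γ : Gamma0 N} {m : ℕ} (hm : m ≠ 0)
    (h0 : φ (Additive.ofMul (γ ^ m)) = 0) :
    charOf n φ γ = 1 := by
  refine charOf_of_eq_zero n φ ?_
  rw [ofMul_pow, map_nsmul, nsmul_eq_mul] at h0
  exact (mul_eq_zero.mp h0).resolve_left (by exact_mod_cast hm)

theorem charOf_transfer (n : ℕ) {p : ℕ} [Fact p.Prime] (φ : Additive (Gamma0 N) →+ ℤ) :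
    charOf n ((heckeSys N p).addTransfer φ) = (heckeSys N p).transfer (charOf n φ) := by
  refine MonoidHom.ext fun γ => ?_
  rw [charOf_apply, CosetSys.addTransfer_apply, CosetSys.transfer_apply]
  simp only [charOf_apply, toMul_ofMul]
  have h := map_prod (zpowersHom ℂˣ (zetaC n))
    (fun x => Multiplicative.ofAdd (φ (Additive.ofMul ((heckeSys N p).coc γ x)))) Finset.univ
  rw [← ofAdd_sum] at h
  simpa only [zpowersHom_apply, toAdd_ofAdd] using h

/-- A holomorphic function with the given character, whose `n`-th power is in the modular function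
field. -/
theorem exists_hasChar [NeZero N] (ι : K →+* ℂ) {n : ℕ} (hn : n ≠ 0)
    {φ : Additive (Gamma0 N) →+ ℤ} (hφ : IsParabolicHom (Gamma0 N) φ) :
    ∃ (h : modularFunctionFieldBar N) (g : ℍ → ℂ), h ≠ 0 ∧ HasChar N (charOf n φ) g ∧
      LExp 1 (g ^ n) (coeffMap ι (h : LaurentSeries K)) := by
  have hT : charOf n φ (TG N) = 1 := charOf_parabolic n hφ _ (by
    simp [TG, ModularGroup.T, Matrix.trace_fin_two])
  have hneg : ∀ h : (-1 : SL(2, ℤ)) ∈ Gamma0 N, charOf n φ ⟨-1, h⟩ = 1 := fun h =>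
    charOf_parabolic n hφ _ (by
      rw [Matrix.SpecialLinearGroup.coe_neg, Matrix.SpecialLinearGroup.coe_one,
        Matrix.trace_fin_two]
      simp)
  obtain ⟨f, hf0, hf, halg⟩ := Fermat.Agent.EisChar.exists_algebraic_charForm N hn (charOf n φ)
    (charOf_pow hn φ) (fun h => hT) hneg 12 (by norm_num) ⟨6, by norm_num⟩
  have hg := hasChar_of_charForm hf
  obtain ⟨G0, hG0⟩ := exists_lexp_div ι hf hT halg
  have hgn : HasChar N 1 ((fun τ => f τ / discriminant τ) ^ n) := by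
    rw [← charOf_pow hn φ]
    exact hg.pow n
  have h1 : LExp 1 ((fun τ => f τ / discriminant τ) ^ n) (coeffMap ι (G0 ^ n)) := by
    rw [map_pow]
    exact hG0.pow n
  have h2 := (bridge ι N).conv _ hgn.mdiff hgn.growth (fun γ τ => by rw [hgn.smul]; simp) _ h1
  refine ⟨⟨G0 ^ n, h2⟩, _, ?_, hg, h1⟩
  intro h0
  have h3 : G0 ^ n = 0 := congrArg Subtype.val h0
  rw [h3, map_zero] at h1
  have h4 := h1.funext (LExp.zero 1)
  apply hf0
  funext τ
  have h5 := congrFun h4 τ
  simp only [Pi.pow_apply, Pi.zero_apply] at h5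
  have h6 := pow_eq_zero_iff hn |>.mp h5
  exact (div_eq_zero_iff.mp h6).resolve_right (discriminant_ne_zero τ)

end Fermat.Agent.GalRep
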