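import Fermat.Agent.GalRep.JZ5_Hecke
import Fermat.Agent.GalRep.JZ4_Bridge
import Fermat.Agent.TEll.Basic

/-!
# Hecke equivariance of the relation between torsion classes and characters
-/

set_option autoImplicit false

open UpperHalfPlane Function Filter Topology ModularForm CongruenceSubgroup Asymptotics
open Matrix.SpecialLinearGroup
open scoped Manifold MatrixGroups

noncomputable section

namespace Fermat.Agent.GalRep

open Fermat.Agent.X0Emb Fermat.Agent.ModFun AlgebraicCurve ModularCurve Fermat.Agent.HeckePar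

local notation "K" => AlgebraicClosure ℚ

variable {N : ℕ}

/-- inputs at a prime `ℓ` -/
structure HeckeBridge (ι : K →+* ℂ) (N : ℕ) [NeZero N] (ℓ : ℕ) [hℓ : Fact ℓ.Prime] : Prop where
  inputs : haveI : NeZero ℓ := ⟨hℓ.out.ne_zero⟩; HeckeInputsAlong K N ℓ
  norm : haveI : NeZero ℓ := ⟨hℓ.out.ne_zero⟩; ∀ (y : modularFunctionFieldBar N) (F : ℍ → ℂ),
    MDiff F → ModGrowth F → LExp 1 F (coeffMap ι (y : LaurentSeries K)) →
    LExp 1 ((heckeSys N ℓ).mulOp F)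
      (coeffMap ι ((TEll.TEll K N ℓ y : modularFunctionFieldBar N) : LaurentSeries K))

theorem mulOp_pow [NeZero N] {p : ℕ} [hp : Fact p.Prime] (g : ℍ → ℂ) (n : ℕ) :
    (heckeSys N p).mulOp (g ^ n) = ((heckeSys N p).mulOp g) ^ n := by
  funext τ
  simp only [CosetSys.mulOp, Pi.pow_apply, Finset.prod_pow]

/-- Kummer functions and the Hecke operators. -/
theorem IsKummer.hecke [NeZero N] (ℓ : Nat.Primes)
    (hin : haveI : NeZero (ℓ : ℕ) := ⟨ℓ.2.ne_zero⟩; HeckeInputsAlong K N ℓ) {n : ℕ}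
    {x : JZero N} {h : modularFunctionFieldBar N} (hx : IsKummer n x h) :
    haveI : NeZero (ℓ : ℕ) := ⟨ℓ.2.ne_zero⟩
    IsKummer n (heckeOperatorBar N ℓ x) (TEll.TEll K N ℓ h) := by
  haveI : NeZero (ℓ : ℕ) := ⟨ℓ.2.ne_zero⟩
  obtain ⟨hα, hβ, hP, hfin, hFI, hN⟩ := hin
  rw [heckeOperatorBar_apply, heckeOperatorAlong_eq hα hβ hFI hfin hN]
  refine IsKummer.correspondence _ _ hβ hα hFI hfin hN hx (TEll.TEll_ne_zero K N ℓ hfin hx.ne_zero) ?_
  intro D hD v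
  exact TEll.heckeDivBar_eq_ord_TEll hα hβ hfin hN hx.ne_zero hD v

/-- **Hecke equivariance of the relation.** -/
theorem Rel.hecke [NeZero N] {ι : K →+* ℂ} {n : ℕ} (ℓ : Nat.Primes)
    (B : haveI : Fact (ℓ : ℕ).Prime := ⟨ℓ.2⟩; HeckeBridge ι N ℓ) {x : JZero N}
    {χ : Gamma0 N →* ℂˣ} (hx : Rel ι N n x χ) :
    haveI : Fact (ℓ : ℕ).Prime := ⟨ℓ.2⟩
    Rel ι N n (heckeOperatorBar N ℓ x) ((heckeSys N ℓ).transfer χ) := by
  haveI : Fact (ℓ : ℕ).Prime := ⟨ℓ.2⟩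
  haveI : NeZero (ℓ : ℕ) := ⟨ℓ.2.ne_zero⟩
  obtain ⟨h, g, h1, h2, h3⟩ := hx
  refine ⟨TEll.TEll K N ℓ h, (heckeSys N ℓ).mulOp g, h1.hecke ℓ B.inputs, h2.mulOp, ?_⟩
  rw [← mulOp_pow]
  have h4 : HasChar N (χ ^ n) (g ^ n) := h2.pow n
  exact B.norm h _ h4.mdiff h4.growth h3

end Fermat.Agent.GalRep
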