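import Fermat.Agent.GalRep.JZ8_Div
import Fermat.Agent.GalRep.JZ5_RelHecke
import Fermat.Agent.HeckePar.Input
import Fermat.Agent.ModFun.NormH
import Fermat.Agent.TEll.Inputs

/-!
# Integral parabolic homomorphisms and torsion points of `J₀(N)`
-/

set_option autoImplicit false

open UpperHalfPlane Function ModularForm CongruenceSubgroup
open scoped Manifold MatrixGroups

noncomputable section

namespace Fermat.Agent.GalRep

open Fermat.Agent.X0Emb Fermat.Agent.ModFun AlgebraicCurve ModularCurve ModularCurve.Period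
open Fermat.Agent.HeckePar

local notation "K" => AlgebraicClosure ℚ

variable {N : ℕ} [NeZero N]

theorem exists_rel {n : ℕ} (hn : n ≠ 0) {φ : Additive (Gamma0 N) →+ ℤ}
    (hφ : IsParabolicHom (Gamma0 N) φ) : ∃ x : JZero N, Rel iota N n x (charOf n φ) := by
  obtain ⟨h, g, h0, hg, hgn⟩ := exists_hasChar iota hn hφ
  obtain ⟨x, hx⟩ := exists_isKummer_of_dvd hn h0 fun v =>
    dvd_ord_of_hasChar (g := ⟨g, hg.mdiff⟩) hg (parChar_charOf n hφ) h0 hgn v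
  exact ⟨x, h, g, hx, hg, hgn⟩

/-- the underlying function of `jMap` -/
def jTor (n : ℕ) (hn : n ≠ 0) (φ : parabolicHoms ℤ (Gamma0 N) ℤ) : JZero N :=
  (exists_rel hn φ.2).choose

theorem jTor_rel {n : ℕ} (hn : n ≠ 0) (φ : parabolicHoms ℤ (Gamma0 N) ℤ) :
    Rel iota N n (jTor n hn φ) (charOf n φ) :=
  (exists_rel hn φ.2).choose_spec

theorem jTor_eq_of_rel {n : ℕ} (hn : n ≠ 0) {φ : parabolicHoms ℤ (Gamma0 N) ℤ} {x : JZero N}
    (hx : Rel iota N n x (charOf n φ)) : jTor n hn φ = x :=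
  Rel.unique (bridge iota N) hn (charOf_pow hn _) (jTor_rel hn φ) hx

variable (N) in
/-- The map from integral parabolic homomorphisms to the `n`-torsion of `J₀(N)`. -/
def jMap (n : ℕ) (hn : n ≠ 0) : parabolicHoms ℤ (Gamma0 N) ℤ →+ JZero N where
  toFun φ := jTor n hn φ
  map_zero' := by
    refine jTor_eq_of_rel hn ?_
    have h : ((0 : parabolicHoms ℤ (Gamma0 N) ℤ) : Additive (Gamma0 N) →+ ℤ) = 0 := rfl
    rw [h, charOf_zero]
    exact Rel.one iota N n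
  map_add' φ ψ := by
    refine jTor_eq_of_rel hn ?_
    have h : ((φ + ψ : parabolicHoms ℤ (Gamma0 N) ℤ) : Additive (Gamma0 N) →+ ℤ) = φ + ψ := rfl
    rw [h, charOf_add]
    exact (jTor_rel hn φ).mul (jTor_rel hn ψ)

variable {n : ℕ} (hn : n ≠ 0)

theorem jMap_rel (φ : parabolicHoms ℤ (Gamma0 N) ℤ) : Rel iota N n (jMap N n hn φ) (charOf n φ) :=
  jTor_rel hn φ

theorem jMap_eq_of_rel {φ : parabolicHoms ℤ (Gamma0 N) ℤ} {x : JZero N}
    (hx : Rel iota N n x (charOf n φ)) : jMap N n hn φ = x :=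
  Rel.unique (bridge iota N) hn (charOf_pow hn _) (jMap_rel hn φ) hx

theorem nsmul_jMap (φ : parabolicHoms ℤ (Gamma0 N) ℤ) : n • jMap N n hn φ = 0 :=
  (jMap_rel hn φ).nsmul_eq_zero

/-- The kernel of `jMap` consists of the multiples of `n`. -/
theorem exists_of_jMap_eq_zero {φ : parabolicHoms ℤ (Gamma0 N) ℤ} (h : jMap N n hn φ = 0) :
    ∃ ψ : Additive (Gamma0 N) →+ ℤ, (φ : Additive (Gamma0 N) →+ ℤ) = (n : ℤ) • ψ := by
  have h1 := jMap_rel hn φ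
  rw [h] at h1
  have h2 := h1.char_eq_one (bridge iota N) hn
  have hn' : (n : ℤ) ≠ 0 := by exact_mod_cast hn
  have h3 : ∀ γ : Additive (Gamma0 N), (n : ℤ) ∣ (φ : Additive (Gamma0 N) →+ ℤ) γ := by
    intro γ
    have h4 := (charOf_apply_eq_one_iff hn (φ : Additive (Gamma0 N) →+ ℤ) γ.toMul).mp
      (by rw [h2]; rfl)
    exact h4
  choose ψ hψ using h3
  refine ⟨{ toFun := ψ, map_zero' := ?_, map_add' := fun a b => ?_ }, ?_⟩
  · apply mul_left_cancel₀ hn'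
    rw [← hψ, map_zero, mul_zero]
  · apply mul_left_cancel₀ hn'
    rw [mul_add, ← hψ, ← hψ, ← hψ, map_add]
  · ext γ
    exact hψ γ

theorem exists_parabolic_of_jMap_eq_zero {φ : parabolicHoms ℤ (Gamma0 N) ℤ}
    (h : jMap N n hn φ = 0) : ∃ ψ : parabolicHoms ℤ (Gamma0 N) ℤ, φ = (n : ℤ) • ψ := by
  obtain ⟨ψ, hψ⟩ := exists_of_jMap_eq_zero hn h
  refine ⟨⟨ψ, fun γ hγ => ?_⟩, Subtype.ext hψ⟩
  have h1 := φ.2 γ hγ
  rw [hψ] at h1
  have hn' : (n : ℤ) ≠ 0 := by exact_mod_cast hn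
  exact (smul_eq_zero.mp (show (n : ℤ) • ψ (Additive.ofMul γ) = 0 from h1)).resolve_left hn'

theorem jMap_eq_zero_iff {φ : parabolicHoms ℤ (Gamma0 N) ℤ} :
    jMap N n hn φ = 0 ↔ ∃ ψ : parabolicHoms ℤ (Gamma0 N) ℤ, φ = (n : ℤ) • ψ := by
  refine ⟨exists_parabolic_of_jMap_eq_zero hn, ?_⟩
  rintro ⟨ψ, rfl⟩
  rw [map_zsmul, natCast_zsmul, nsmul_jMap]

/-- Compatibility of the maps `jMap`. -/
theorem nsmul_jMap_mul {m : ℕ} (hm : m ≠ 0) (φ : parabolicHoms ℤ (Gamma0 N) ℤ) :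
    m • jMap N (n * m) (mul_ne_zero hn hm) φ = jMap N n hn φ := by
  symm
  refine jMap_eq_of_rel hn ?_
  obtain ⟨h, g, h1, h2, h3⟩ := jMap_rel (mul_ne_zero hn hm) φ
  refine ⟨h, g ^ m, ?_, ?_, ?_⟩
  · obtain ⟨D, hD, h0, hDv⟩ := h1
    refine ⟨m • D, ?_, h0, fun v => ?_⟩
    · rw [← hD]
      exact QuotientAddGroup.mk_nsmul _ D m
    · rw [← hDv v]
      simp only [AddSubgroup.coe_nsmul, Finsupp.smul_apply, nsmul_eq_mul]
      push_cast
      ring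
  · have h4 : charOf n (φ : Additive (Gamma0 N) →+ ℤ) = charOf (n * m) (φ : Additive (Gamma0 N) →+ ℤ) ^ m := by
      refine MonoidHom.ext fun γ => ?_
      rw [MonoidHom.pow_apply, charOf_apply, charOf_apply, ← zpow_natCast, ← zpow_mul, mul_comm _ (m : ℤ),
        zpow_mul]
      congr 1
      ext
      rw [zpow_natCast, Units.val_pow_eq_pow_val, zetaC, zetaC, Units.val_mk0, Units.val_mk0,
        ← Complex.exp_nat_mul]
      congr 1
      have hm' : (m : ℂ) ≠ 0 := by exact_mod_cast hm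
      have hn' : (n : ℂ) ≠ 0 := by exact_mod_cast hn
      push_cast
      field_simp
    rw [h4]
    exact h2.pow m
  · rw [← pow_mul, mul_comm m n]
    exact h3

/-- The inputs at primes not dividing the level. -/
theorem heckeBridge (ℓ : ℕ) [hℓ : Fact ℓ.Prime] (hN : ¬ ℓ ∣ N) : HeckeBridge iota N ℓ := by
  haveI : NeZero ℓ := ⟨hℓ.out.ne_zero⟩
  refine ⟨Fermat.Agent.TEll.heckeInputsAlong N ℓ, fun y F _ _ hy => ?_⟩
  exact lexp_TEll hN
    (Fermat.Agent.TEll.hasSwap_bar N ℓ ((Nat.Prime.coprime_iff_not_dvd hℓ.out).mpr hN))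
    (Fermat.Agent.TEll.finrankAlong_alpha N ℓ hℓ.out hN) iota hy

/-- The Hecke operators on the lattice of parabolic homomorphisms. -/
def opPar (N : ℕ) (ℓ : Nat.Primes) :
    parabolicHoms ℤ (Gamma0 N) ℤ →+ parabolicHoms ℤ (Gamma0 N) ℤ :=
  (opLat N ∅ ⟨ℓ, by simp⟩).toAddMonoidHom

omit [NeZero N] in
theorem coe_opPar (ℓ : Nat.Primes) (φ : parabolicHoms ℤ (Gamma0 N) ℤ) :
    (opPar N ℓ φ : Additive (Gamma0 N) →+ ℤ) =
      (haveI : Fact (ℓ : ℕ).Prime := ⟨ℓ.2⟩; (heckeSys N (ℓ : ℕ)).addTransfer φ) := rfl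

/-- **Hecke equivariance.** -/
theorem heckeOperatorBar_jMap (ℓ : Nat.Primes) (hN : ¬ (ℓ : ℕ) ∣ N)
    (φ : parabolicHoms ℤ (Gamma0 N) ℤ) :
    heckeOperatorBar N ℓ (jMap N n hn φ) = jMap N n hn (opPar N ℓ φ) := by
  haveI : Fact (ℓ : ℕ).Prime := ⟨ℓ.2⟩
  symm
  refine jMap_eq_of_rel hn ?_
  rw [coe_opPar, charOf_transfer]
  exact (jMap_rel hn φ).hecke ℓ (heckeBridge (ℓ : ℕ) hN)

end Fermat.Agent.GalRep
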