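import Fermat.Agent.GalRep.Unramified

/-!
# The transfer principle

If `ρ : GaloisRepAdic T` is residually absolutely irreducible with Frobenius characteristic
polynomials `X² - π(T_ℓ) X + ℓ`, and `J` is an Eichler--Shimura module (`ESInput`), then any
`y ∈ ℤ[G_ℚ]` killing `J[p^m]` (`m` large) satisfies `ρ(y) V ⊆ p^n V`.
-/

set_option autoImplicit false

noncomputable section

open CuspForm ModularCurve Polynomial

namespace Fermat.Agent.GalRep

/-! ### The cyclotomic exponent -/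

section CycExp

variable (p : ℕ)

lemma exists_cycExp (hp : p.Prime) (m : ℕ) {ζ : AlgebraicClosure ℚ}
    (hζ : IsPrimitiveRoot ζ (p ^ m)) (g : GQ) : ∃ i : ℕ, g ζ = ζ ^ i := by
  haveI : NeZero (p ^ m) := ⟨pow_ne_zero _ hp.ne_zero⟩
  obtain ⟨i, -, hi⟩ := hζ.eq_pow_of_pow_eq_one (ξ := g ζ)
    (by rw [← map_pow, hζ.pow_eq_one, map_one])
  exact ⟨i, hi.symm⟩

/-- a natural number `χ(g)` with `g ζ = ζ ^ χ(g)`. -/
def cycExp (hp : p.Prime) (m : ℕ) {ζ : AlgebraicClosure ℚ}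
    (hζ : IsPrimitiveRoot ζ (p ^ m)) (g : GQ) : ℕ :=
  (exists_cycExp p hp m hζ g).choose

lemma cycExp_spec (hp : p.Prime) (m : ℕ) {ζ : AlgebraicClosure ℚ}
    (hζ : IsPrimitiveRoot ζ (p ^ m)) (g : GQ) : g ζ = ζ ^ cycExp p hp m hζ g :=
  (exists_cycExp p hp m hζ g).choose_spec

lemma natCast_eq_of_pow_eq (hp : p.Prime) (m : ℕ) {ζ : AlgebraicClosure ℚ}
    (hζ : IsPrimitiveRoot ζ (p ^ m)) {a b : ℕ} (h : ζ ^ a = ζ ^ b) :
    (a : ZMod (p ^ m)) = b := by
  have hpm0 : p ^ m ≠ 0 := pow_ne_zero _ hp.ne_zero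
  have hζ1 : ζ ^ (p ^ m) = 1 := hζ.pow_eq_one
  have hmod : ∀ c : ℕ, ζ ^ c = ζ ^ (c % p ^ m) := by
    intro c
    conv_lhs => rw [← Nat.mod_add_div c (p ^ m)]
    rw [pow_add, pow_mul, hζ1, one_pow, mul_one]
  rw [hmod a, hmod b] at h
  have hpos : 0 < p ^ m := Nat.pos_of_ne_zero hpm0
  exact (ZMod.natCast_eq_natCast_iff' _ _ _).mpr
    (hζ.pow_inj (Nat.mod_lt _ hpos) (Nat.mod_lt _ hpos) h)

lemma cycExp_mul (hp : p.Prime) (m : ℕ) {ζ : AlgebraicClosure ℚ}
    (hζ : IsPrimitiveRoot ζ (p ^ m)) (g h : GQ) :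
    ((cycExp p hp m hζ (g * h) : ℕ) : ZMod (p ^ m)) =
      ((cycExp p hp m hζ h * cycExp p hp m hζ g : ℕ) : ZMod (p ^ m)) := by
  refine natCast_eq_of_pow_eq p hp m hζ ?_
  rw [← cycExp_spec, AlgEquiv.mul_apply, cycExp_spec p hp m hζ h, map_pow, cycExp_spec p hp m hζ g,
    ← pow_mul, mul_comm]

lemma frobenius_pow_zeta (hp : p.Prime) (m : ℕ) {ζ : AlgebraicClosure ℚ}
    (hζ : IsPrimitiveRoot ζ (p ^ m)) {ℓ : ℕ} (hℓ : ℓ.Prime) (hne : ℓ ≠ p)
    {B : ValuationSubring (AlgebraicClosure ℚ)} (hB : B.LiesOverPrime ℓ) {φ : GQ}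
    (hφ : B.IsFrobeniusAt φ ℓ) (k : ℕ) : (φ ^ k) ζ = ζ ^ (ℓ ^ k) := by
  have hpm0 : p ^ m ≠ 0 := pow_ne_zero _ hp.ne_zero
  have hcop : Nat.Coprime ℓ (p ^ m) := ((Nat.coprime_primes hℓ hp).mpr hne).pow_right m
  induction k with
  | zero => simp
  | succ k ih =>
    rw [pow_succ', AlgEquiv.mul_apply, ih, map_pow,
      frobenius_rootOfUnity hB hcop hpm0 hφ hζ.pow_eq_one, ← pow_mul, pow_succ']

end CycExp

/-! ### The abstract star computation -/

section Star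

variable {P E G : Type*} [CommRing P] [Ring E] [Algebra P E] [Group G]

omit [Group G] in
lemma scalar_of_quadratic (x y D : E) (t : P) (h : x * x = t • x - D) (hxy : x * y = 1) :
    x + D * y = algebraMap P E t := by
  have h1 : x * x * y = (t • x - D) * y := by rw [h]
  rw [mul_assoc, hxy, mul_one, sub_mul, smul_mul_assoc, hxy] at h1
  rw [Algebra.algebraMap_eq_smul_one]
  conv_lhs => rw [h1]
  abel

/-- Abstract form of the star argument: `a : G →* E`, `s : G → E` anti-multiplicative,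
`a g + s g = t g` scalar. If `∑ c_i a(g_i) = 0` then `τ(y) τ(c) = 0` for `c = g₀(g₁g₂ - g₂g₁)`. -/
lemma star_key (a : G →* E) (s : G → E) (t : G → P)
    (hs : ∀ g h, s (g * h) = s h * s g)
    (hat : ∀ g, a g + s g = algebraMap P E (t g))
    {ι : Type*} (I : Finset ι) (c : ι → ℤ) (g : ι → G) (h0 : ∑ i ∈ I, c i • a (g i) = 0)
    (g₀ g₁ g₂ : G) :
    algebraMap P E ((∑ i ∈ I, c i • t (g i)) * (t (g₀ * (g₁ * g₂)) - t (g₀ * (g₂ * g₁)))) = 0 := by
  obtain ⟨T, hT⟩ : ∃ T : P, T = ∑ i ∈ I, c i • t (g i) := ⟨_, rfl⟩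
  obtain ⟨Y, hY⟩ : ∃ Y : E, Y = ∑ i ∈ I, c i • s (g i) := ⟨_, rfl⟩
  rw [← hT]
  have hYT : Y = algebraMap P E T := by
    have h1 : algebraMap P E T = ∑ i ∈ I, c i • a (g i) + ∑ i ∈ I, c i • s (g i) := by
      rw [hT, map_sum, ← Finset.sum_add_distrib]
      refine Finset.sum_congr rfl fun i _ => ?_
      rw [map_zsmul, ← hat, smul_add]
    rw [h1, h0, zero_add, hY]
  -- `T * s z` is a scalar
  have hscal : ∀ z : G, algebraMap P E T * s z =
      algebraMap P E (∑ i ∈ I, c i • t (z * g i)) := by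
    intro z
    rw [map_sum]
    have h1 : ∀ i ∈ I, algebraMap P E (c i • t (z * g i)) =
        a z * (c i • a (g i)) + (c i • s (g i)) * s z := by
      intro i _
      rw [map_zsmul, ← hat, map_mul, hs, smul_add, mul_smul_comm, smul_mul_assoc]
    rw [Finset.sum_congr rfl h1, Finset.sum_add_distrib, ← Finset.mul_sum, h0, mul_zero, zero_add,
      ← Finset.sum_mul, ← hY, hYT]
  have hcomm : ∀ z w : G, algebraMap P E T * (s z * s w) = algebraMap P E T * (s w * s z) := by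
    intro z w
    rw [← mul_assoc, hscal z, Algebra.commutes, ← hscal z, ← mul_assoc,
      ← Algebra.commutes T (s w), mul_assoc]
  -- the two halves
  have h1 : algebraMap P E T * (s (g₀ * (g₁ * g₂)) - s (g₀ * (g₂ * g₁))) = 0 := by
    rw [hs g₀, hs g₀, hs g₁, hs g₂, ← sub_mul, ← mul_assoc, mul_sub, hcomm g₂ g₁, sub_self,
      zero_mul]
  have hacomm : a g₁ * a g₂ - a g₂ * a g₁ = s g₁ * s g₂ - s g₂ * s g₁ := by
    have e1 : a g₁ = algebraMap P E (t g₁) - s g₁ := by rw [← hat]; abel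
    have e2 : a g₂ = algebraMap P E (t g₂) - s g₂ := by rw [← hat]; abel
    rw [e1, e2, sub_mul, sub_mul, mul_sub, mul_sub, mul_sub, mul_sub,
      Algebra.commutes (t g₁) (s g₂), Algebra.commutes (t g₂) (s g₁), ← map_mul, ← map_mul,
      mul_comm (t g₁) (t g₂)]
    abel
  have h2 : algebraMap P E T * (a (g₀ * (g₁ * g₂)) - a (g₀ * (g₂ * g₁))) = 0 := by
    rw [map_mul, map_mul, map_mul, map_mul, ← mul_sub, hacomm, ← mul_assoc, Algebra.commutes,
      mul_assoc, mul_sub, hcomm g₁ g₂, sub_self, mul_zero]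
  rw [map_mul, map_sub, ← hat, ← hat]
  have h3 : (a (g₀ * (g₁ * g₂)) + s (g₀ * (g₁ * g₂)) - (a (g₀ * (g₂ * g₁)) + s (g₀ * (g₂ * g₁)))) =
      (a (g₀ * (g₁ * g₂)) - a (g₀ * (g₂ * g₁))) + (s (g₀ * (g₁ * g₂)) - s (g₀ * (g₂ * g₁))) := by
    abel
  rw [h3, mul_add, h1, h2, add_zero]

end Star

/-! ### Existence of a commutator with unit trace -/

section Comm

variable {T : Type} [CommRing T] [IsLocalRing T]

lemma exists_isUnit_trace_commutator (ρ : GaloisRepAdic T)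
    (h : ρ.residual.IsAbsolutelyIrreducible) :
    ∃ g₀ g₁ g₂ : GQ, IsUnit (LinearMap.trace T ρ.V (ρ.ρ (g₀ * (g₁ * g₂))) -
      LinearMap.trace T ρ.V (ρ.ρ (g₀ * (g₂ * g₁)))) := by
  classical
  by_contra hcon
  push Not at hcon
  have hspan := span_range_eq_top ρ h
  have h1 : ∀ g₀ g₁ g₂ : GQ, LinearMap.trace T ρ.V (ρ.ρ g₀ * (ρ.ρ g₁ * ρ.ρ g₂)) -
      LinearMap.trace T ρ.V (ρ.ρ g₀ * (ρ.ρ g₂ * ρ.ρ g₁)) ∈ IsLocalRing.maximalIdeal T := by
    intro g₀ g₁ g₂
    have := hcon g₀ g₁ g₂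
    simp only [map_mul] at this
    exact (IsLocalRing.mem_maximalIdeal _).mpr this
  -- extend linearly
  have h2 : ∀ (X : Module.End T ρ.V) (g₁ g₂ : GQ), LinearMap.trace T ρ.V (X * (ρ.ρ g₁ * ρ.ρ g₂)) -
      LinearMap.trace T ρ.V (X * (ρ.ρ g₂ * ρ.ρ g₁)) ∈ IsLocalRing.maximalIdeal T := by
    intro X g₁ g₂
    have hX : X ∈ Submodule.span T (Set.range ρ.ρ) := by rw [hspan]; trivial
    induction hX using Submodule.span_induction with
    | mem x hx => obtain ⟨g, rfl⟩ := hx; exact h1 g g₁ g₂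
    | zero => simp
    | add x y _ _ hx hy =>
      rw [add_mul, add_mul, map_add, map_add, add_sub_add_comm]
      exact Ideal.add_mem _ hx hy
    | smul c x _ hx =>
      rw [smul_mul_assoc, smul_mul_assoc, map_smul, map_smul, ← smul_sub, smul_eq_mul]
      exact Ideal.mul_mem_left _ _ hx
  have h3 : ∀ (X Y : Module.End T ρ.V) (g₂ : GQ), LinearMap.trace T ρ.V (X * (Y * ρ.ρ g₂)) -
      LinearMap.trace T ρ.V (X * (ρ.ρ g₂ * Y)) ∈ IsLocalRing.maximalIdeal T := by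
    intro X Y g₂
    have hY : Y ∈ Submodule.span T (Set.range ρ.ρ) := by rw [hspan]; trivial
    induction hY using Submodule.span_induction with
    | mem x hx => obtain ⟨g, rfl⟩ := hx; exact h2 X g g₂
    | zero => simp
    | add x y _ _ hx hy =>
      rw [add_mul, mul_add, mul_add, mul_add, map_add, map_add, add_sub_add_comm]
      exact Ideal.add_mem _ hx hy
    | smul c x _ hx =>
      rw [smul_mul_assoc, mul_smul_comm, mul_smul_comm, mul_smul_comm, map_smul, map_smul,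
        ← smul_sub, smul_eq_mul]
      exact Ideal.mul_mem_left _ _ hx
  have h4 : ∀ (X Y Z : Module.End T ρ.V), LinearMap.trace T ρ.V (X * (Y * Z)) -
      LinearMap.trace T ρ.V (X * (Z * Y)) ∈ IsLocalRing.maximalIdeal T := by
    intro X Y Z
    have hZ : Z ∈ Submodule.span T (Set.range ρ.ρ) := by rw [hspan]; trivial
    induction hZ using Submodule.span_induction with
    | mem x hx => obtain ⟨g, rfl⟩ := hx; exact h3 X Y g
    | zero => simp
    | add x y _ _ hx hy =>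
      rw [add_mul, mul_add, mul_add, mul_add, map_add, map_add, add_sub_add_comm]
      exact Ideal.add_mem _ hx hy
    | smul c x _ hx =>
      rw [smul_mul_assoc, mul_smul_comm, mul_smul_comm, mul_smul_comm, map_smul, map_smul,
        ← smul_sub, smul_eq_mul]
      exact Ideal.mul_mem_left _ _ hx
  -- contradiction with matrix units
  let b : Module.Basis (Fin 2) T ρ.V := Module.finBasisOfFinrankEq T ρ.V ρ.finrank_eq
  have h5 := h4 (Matrix.toLin b b !![1, 0; 0, 0]) (Matrix.toLin b b !![0, 1; 0, 0])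
    (Matrix.toLin b b !![0, 0; 1, 0])
  rw [LinearMap.trace_eq_matrix_trace T b, LinearMap.trace_eq_matrix_trace T b,
    LinearMap.toMatrix_mul, LinearMap.toMatrix_mul, LinearMap.toMatrix_mul, LinearMap.toMatrix_mul,
    LinearMap.toMatrix_toLin, LinearMap.toMatrix_toLin, LinearMap.toMatrix_toLin] at h5
  simp [Matrix.trace_fin_two] at h5

end Comm

/-! ### Topological closedness of ideals -/

section Closed

variable {T : Type*} [CommRing T] [IsLocalRing T] [IsNoetherianRing T]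

lemma mem_of_forall_mem_sup_pow (I : Ideal T) (x : T)
    (h : ∀ n : ℕ, x ∈ I ⊔ IsLocalRing.maximalIdeal T ^ n) : x ∈ I := by
  have h1 := Ideal.iInf_pow_smul_eq_bot_of_isLocalRing (M := T ⧸ I) (IsLocalRing.maximalIdeal T)
    (Ideal.IsPrime.ne_top inferInstance)
  have h2 : (Ideal.Quotient.mk I x) ∈
      (⨅ i : ℕ, IsLocalRing.maximalIdeal T ^ i • ⊤ : Submodule T (T ⧸ I)) := by
    rw [Submodule.mem_iInf]
    intro n
    obtain ⟨a, ha, b, hb, rfl⟩ := Submodule.mem_sup.mp (h n)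
    have h3 : Ideal.Quotient.mk I (a + b) = b • (1 : T ⧸ I) := by
      rw [map_add, Ideal.Quotient.eq_zero_iff_mem.mpr ha, zero_add, Algebra.smul_def, mul_one]
      rfl
    rw [h3]
    exact Submodule.smul_mem_smul hb trivial
  rw [h1] at h2
  exact Ideal.Quotient.eq_zero_iff_mem.mp h2

lemma mem_smul_top_of_trace {V : Type*} [AddCommGroup V] [Module T V] [Module.Free T V]
    [Module.Finite T V] (I : Ideal T) (F : Module.End T V)
    (h : ∀ X : Module.End T V, LinearMap.trace T V (F * X) ∈ I) (v : V) :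
    F v ∈ I • (⊤ : Submodule T V) := by
  classical
  set b := Module.Free.chooseBasis T V with hb
  have h1 : ∀ i j, LinearMap.toMatrix b b F i j ∈ I := by
    intro i j
    have h2 := h (Matrix.toLin b b (Matrix.single j i (1 : T)))
    rw [LinearMap.trace_eq_matrix_trace T b, LinearMap.toMatrix_mul, LinearMap.toMatrix_toLin,
      Matrix.trace_mul_single] at h2
    simpa using h2
  have h3 : F v = ∑ j, b.repr v j • ∑ i, LinearMap.toMatrix b b F i j • b i := by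
    conv_lhs => rw [← b.sum_repr v]
    rw [map_sum]
    refine Finset.sum_congr rfl fun j _ => ?_
    rw [map_smul]
    congr 1
    conv_lhs => rw [← b.sum_repr (F (b j))]
    refine Finset.sum_congr rfl fun i _ => ?_
    rw [LinearMap.toMatrix_apply]
  rw [h3]
  exact Submodule.sum_mem _ fun j _ => Submodule.smul_mem _ _ (Submodule.sum_mem _ fun i _ =>
    Submodule.smul_mem_smul (h1 i j) trivial)

end Closed

/-! ### The transfer theorem -/

section TransferMain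

variable {N p : ℕ} [NeZero N] {S : Finset ℕ}
  {J : Type*} [AddCommGroup J] [Module HeckeAlg J] [DistribMulAction GQ J]
  [SMulCommClass GQ HeckeAlg J]
  {T : Type} [CommRing T] [IsLocalRing T] [IsNoetherianRing T]

/-- The Frobenius characteristic polynomials of `ρ` are given by the Hecke operators. -/
def HasFrobCharpoly (π : heckeAlgebra N 2 (↑S : Set ℕ) →+* T) (ρ : GaloisRepAdic T) : Prop :=
  ∀ (ℓ : ℕ) (hℓ : ℓ.Prime) (hℓN : ¬ ℓ ∣ N) (hℓS : ℓ ∉ (↑S : Set ℕ)),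
    ∀ A : ValuationSubring (AlgebraicClosure ℚ), A.LiesOverPrime ℓ →
      ∀ σ : AlgebraicClosure ℚ ≃ₐ[ℚ] AlgebraicClosure ℚ, A.IsFrobeniusAt σ ℓ →
        LinearMap.charpoly (ρ.ρ σ) = X ^ 2 - C (π (heckeAlgebra.T hℓ hℓN hℓS)) * X + C ((ℓ : T))

lemma trace_frobenius_pow {π : heckeAlgebra N 2 (↑S : Set ℕ) →+* T} {ρ : GaloisRepAdic T}
    (hfrob : HasFrobCharpoly π ρ) (hNS : ∀ q : ℕ, q.Prime → q ∣ N → q ∈ S)
    {ℓ : ℕ} (hℓ : ℓ.Prime) (hℓS : ℓ ∉ S) {B : ValuationSubring (AlgebraicClosure ℚ)}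
    (hB : B.LiesOverPrime ℓ) {φ : GQ} (hφ : B.IsFrobeniusAt φ ℓ) (k : ℕ) :
    LinearMap.trace T ρ.V (ρ.ρ (φ ^ k)) = π (evS N (↑S : Set ℕ) (tracePoly S ℓ hℓ hℓS k)) := by
  have hℓN : ¬ ℓ ∣ N := fun h => hℓS (hNS ℓ hℓ h)
  rw [evS_tracePoly ℓ hℓ hℓS hℓN, map_tk, map_natCast, map_pow]
  exact trace_pow_of_charpoly ρ.finrank_eq _ _ _ (hfrob ℓ hℓ hℓN hℓS B hB φ hφ) k

/-- The star argument for traces. -/
theorem star_trace (hdens : FrobeniusDensity) (hJ : ESInput N p (↑S : Set ℕ) J) (hp : p.Prime)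
    (hpS : p ∈ S) (hNS : ∀ q : ℕ, q.Prime → q ∣ N → q ∈ S)
    {π : heckeAlgebra N 2 (↑S : Set ℕ) →+* T} {ρ : GaloisRepAdic T}
    (hfrob : HasFrobCharpoly π ρ) {m n : ℕ}
    (hm : ∀ t : HeckeAlgS (↑S : Set ℕ), (∀ x : J, p ^ m • x = 0 → inclS (↑S : Set ℕ) t • x = 0) →
      evS N (↑S : Set ℕ) t ∈ Ideal.span {((p : heckeAlgebra N 2 (↑S : Set ℕ))) ^ n})
    {ι : Type*} (I : Finset ι) (c : ι → ℤ) (g : ι → GQ)
    (h0 : ∑ i ∈ I, c i • actTors J p m (g i) = 0) (g₀ g₁ g₂ : GQ) (n' : ℕ) :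
    (∑ i ∈ I, c i • LinearMap.trace T ρ.V (ρ.ρ (g i))) *
      (LinearMap.trace T ρ.V (ρ.ρ (g₀ * (g₁ * g₂))) -
        LinearMap.trace T ρ.V (ρ.ρ (g₀ * (g₂ * g₁)))) ∈
      Ideal.span {(p : T) ^ n} ⊔ IsLocalRing.maximalIdeal T ^ n' := by
  classical
  have hpm0 : p ^ m ≠ 0 := pow_ne_zero _ hp.ne_zero
  haveI : NeZero (p ^ m) := ⟨hpm0⟩
  obtain ⟨ζ, hζ⟩ := HasEnoughRootsOfUnity.exists_primitiveRoot (AlgebraicClosure ℚ) (p ^ m)
  obtain ⟨L₁, hL₁fin, hL₁⟩ := ρ.isAdicContinuous n'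
  obtain ⟨L₂, hL₂fin, hL₂⟩ := hJ.finiteLevel m
  set L₃ : IntermediateField ℚ (AlgebraicClosure ℚ) := IntermediateField.adjoin ℚ {ζ} with hL₃
  haveI hL₃fin : FiniteDimensional ℚ L₃ :=
    IntermediateField.adjoin.finiteDimensional ((Algebra.IsAlgebraic.isAlgebraic ζ).isIntegral)
  set L : IntermediateField ℚ (AlgebraicClosure ℚ) := L₁ ⊔ L₂ ⊔ L₃ with hLdef
  have hle₁ : L₁ ≤ L := le_sup_left.trans le_sup_left
  have hle₂ : L₂ ≤ L := le_sup_right.trans le_sup_left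
  have hle₃ : L₃ ≤ L := le_sup_right
  have hζL : ζ ∈ L := hle₃ (IntermediateField.mem_adjoin_simple_self ℚ ζ)
  choose ℓ hℓ hℓS A hA φ hφ k hk using fun h : GQ => hdens L inferInstance h S
  have hnd : ∀ {ℓ : ℕ}, ℓ.Prime → ℓ ∉ S → ¬ ℓ ∣ N * p := by
    intro ℓ hℓ hℓS hdvd
    rcases (Nat.Prime.dvd_mul hℓ).mp hdvd with h | h
    · exact hℓS (hNS ℓ hℓ h)
    · exact hℓS (((Nat.prime_dvd_prime_iff_eq hℓ hp).mp h) ▸ hpS)
  have hne : ∀ {ℓ : ℕ}, ℓ ∉ S → ℓ ≠ p := fun h h' => h (h' ▸ hpS)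
  set t' : GQ → HeckeAlgS (↑S : Set ℕ) := fun h => tracePoly S (ℓ h) (hℓ h) (hℓS h) (k h) with ht'
  set a : GQ →* Module.End HeckeAlg (torsSub J p m) := actTors J p m with ha
  set s : GQ → Module.End HeckeAlg (torsSub J p m) := fun h =>
    algebraMap HeckeAlg (Module.End HeckeAlg (torsSub J p m)) (cycExp p hp m hζ h : HeckeAlg) *
      a h⁻¹ with hs
  have hsmul : ∀ g h, s (g * h) = s h * s g := by
    intro g h
    have h1 := algebraMap_eq_of_congr (J := J) (p := p) m (cycExp_mul p hp m hζ g h)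
    rw [Nat.cast_mul, map_mul] at h1
    simp only [hs]
    rw [h1, mul_inv_rev, map_mul]
    rw [mul_assoc, mul_assoc, ← mul_assoc (a h⁻¹), ← Algebra.commutes _ (a h⁻¹), mul_assoc]
  have hat : ∀ h, a h + s h = algebraMap HeckeAlg (Module.End HeckeAlg (torsSub J p m))
      (inclS (↑S : Set ℕ) (t' h)) := by
    intro h
    have hg : actTors J p m ((φ h) ^ (k h)) = a h :=
      actTors_eq_of_agree hL₂ fun x hx => hk h x (hle₂ hx)
    have e := actTors_quadratic (N := N) (J := J) hJ.frobenius m (hℓ h) (hnd (hℓ h) (hℓS h))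
      (hA h) (hφ h) (k h)
    rw [hg] at e
    have hz : ζ ^ (ℓ h ^ k h) = ζ ^ (cycExp p hp m hζ h) := by
      rw [← frobenius_pow_zeta p hp m hζ (hℓ h) (hne (hℓS h)) (hA h) (hφ h), hk h ζ hζL,
        ← cycExp_spec]
    have hz' := algebraMap_eq_of_congr (J := J) (p := p) m (natCast_eq_of_pow_eq p hp m hζ hz)
    rw [Nat.cast_pow] at hz'
    rw [hz'] at e
    have e3 : inclS (↑S : Set ℕ) (t' h) = tk (heckeGen ⟨ℓ h, hℓ h⟩) ((ℓ h : ℕ) : HeckeAlg) (k h) :=
      inclS_tracePoly _ _ _ _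
    rw [← e3] at e
    have e4 : a h * a h⁻¹ = 1 := by rw [← map_mul, mul_inv_cancel, map_one]
    exact scalar_of_quadratic (P := HeckeAlg) (E := Module.End HeckeAlg (torsSub J p m))
      (a h) (a h⁻¹) _ _ e e4
  have hkey := star_key a s (fun h => inclS (↑S : Set ℕ) (t' h)) hsmul hat I c g h0 g₀ g₁ g₂
  have hx : inclS (↑S : Set ℕ) ((∑ i ∈ I, c i • t' (g i)) *
      (t' (g₀ * (g₁ * g₂)) - t' (g₀ * (g₂ * g₁)))) = ((∑ i ∈ I, c i • inclS (↑S : Set ℕ) (t' (g i))) *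
      (inclS (↑S : Set ℕ) (t' (g₀ * (g₁ * g₂))) - inclS (↑S : Set ℕ) (t' (g₀ * (g₂ * g₁))))) := by
    rw [map_mul, map_sub, map_sum]
    congr 1
    refine Finset.sum_congr rfl fun i _ => ?_
    rw [map_zsmul]
  have hmem := hm _ (fun x hx' => by
    have h1 := congrArg (fun f : Module.End HeckeAlg (torsSub J p m) =>
      ((f (⟨x, hx'⟩ : torsSub J p m) : torsSub J p m) : J)) hkey
    rw [← hx] at h1
    exact h1)
  have hpi : π (evS N (↑S : Set ℕ) ((∑ i ∈ I, c i • t' (g i)) *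
      (t' (g₀ * (g₁ * g₂)) - t' (g₀ * (g₂ * g₁))))) ∈ Ideal.span {(p : T) ^ n} := by
    obtain ⟨d, hd⟩ := Ideal.mem_span_singleton'.mp hmem
    rw [← hd, map_mul, map_pow, map_natCast]
    exact Ideal.mul_mem_left _ _ (Ideal.mem_span_singleton_self _)
  have htr : ∀ h : GQ, Ideal.Quotient.mk (IsLocalRing.maximalIdeal T ^ n')
      (LinearMap.trace T ρ.V (ρ.ρ h)) =
      Ideal.Quotient.mk (IsLocalRing.maximalIdeal T ^ n') (π (evS N (↑S : Set ℕ) (t' h))) := by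
    intro h
    have d := trace_sub_mem ρ hL₁ (σ := (φ h) ^ (k h)) (σ' := h)
      fun x hx => hk h x (hle₁ hx)
    rw [trace_frobenius_pow hfrob hNS (hℓ h) (hℓS h) (hA h) (hφ h)] at d
    exact ((Ideal.Quotient.eq).mpr d).symm
  have hdiff : (∑ i ∈ I, c i • LinearMap.trace T ρ.V (ρ.ρ (g i))) *
      (LinearMap.trace T ρ.V (ρ.ρ (g₀ * (g₁ * g₂))) -
        LinearMap.trace T ρ.V (ρ.ρ (g₀ * (g₂ * g₁)))) -
      π (evS N (↑S : Set ℕ) ((∑ i ∈ I, c i • t' (g i)) *
      (t' (g₀ * (g₁ * g₂)) - t' (g₀ * (g₂ * g₁))))) ∈ IsLocalRing.maximalIdeal T ^ n' := by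
    rw [← Ideal.Quotient.eq]
    rw [map_mul, map_sub, map_sum, htr, htr, map_mul, map_mul, map_mul, map_sub, map_sub, map_sub,
      map_sum, map_sum, map_sum]
    congr 1
    refine Finset.sum_congr rfl fun i _ => ?_
    rw [map_zsmul, map_zsmul, map_zsmul, map_zsmul, htr]
  have hfin := Submodule.add_mem_sup hpi hdiff
  rwa [add_sub_cancel] at hfin

/-- **Transfer principle.** -/
theorem transfer (hdens : FrobeniusDensity) (hJ : ESInput N p (↑S : Set ℕ) J) (hp : p.Prime)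
    (hpS : p ∈ S) (hNS : ∀ q : ℕ, q.Prime → q ∣ N → q ∈ S)
    {π : heckeAlgebra N 2 (↑S : Set ℕ) →+* T} {ρ : GaloisRepAdic T}
    (hfrob : HasFrobCharpoly π ρ) (habs : ρ.residual.IsAbsolutelyIrreducible) (n : ℕ) :
    ∃ m : ℕ, ∀ y : GQ →₀ ℤ,
      (∀ x : J, p ^ m • x = 0 → (y.sum fun g c => c • (g • x)) = 0) →
      ∀ v : ρ.V, (y.sum fun g c => c • ρ.ρ g v) ∈
        (Ideal.span {(p : T) ^ n}) • (⊤ : Submodule T ρ.V) := by
  classical
  obtain ⟨m, hm⟩ := hJ.faithful n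
  refine ⟨m, fun y hy => ?_⟩
  obtain ⟨g₀, g₁, g₂, hu⟩ := exists_isUnit_trace_commutator ρ habs
  set F : Module.End T ρ.V := ∑ g ∈ y.support, y g • ρ.ρ g with hF
  have htrh : ∀ h : GQ, LinearMap.trace T ρ.V (F * ρ.ρ h) ∈ Ideal.span {(p : T) ^ n} := by
    intro h
    have h0 : ∑ g ∈ y.support, y g • actTors J p m (g * h) = 0 := by
      refine LinearMap.ext fun x => Subtype.ext ?_
      have hx : p ^ m • (h • (x : J)) = 0 := by
        rw [smul_comm, x.2, smul_zero]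
      have := hy (h • (x : J)) hx
      rw [Finsupp.sum] at this
      rw [LinearMap.sum_apply, LinearMap.zero_apply, Submodule.coe_zero, ← this,
        ← Submodule.subtype_apply, map_sum]
      refine Finset.sum_congr rfl fun g _ => ?_
      rw [LinearMap.smul_apply, Submodule.subtype_apply, ← mul_smul]
      rfl
    have hst := fun n' => star_trace hdens hJ hp hpS hNS hfrob hm y.support (fun g => y g)
      (fun g => g * h) h0 g₀ g₁ g₂ n'
    have h1 := mem_of_forall_mem_sup_pow _ _ hst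
    have h2 := (Ideal.mul_unit_mem_iff_mem _ hu).mp h1
    have h3 : LinearMap.trace T ρ.V (F * ρ.ρ h) =
        ∑ g ∈ y.support, y g • LinearMap.trace T ρ.V (ρ.ρ (g * h)) := by
      rw [hF, Finset.sum_mul, map_sum]
      refine Finset.sum_congr rfl fun g _ => ?_
      rw [smul_mul_assoc, map_zsmul, map_mul ρ.ρ]
    rw [h3]
    exact h2
  have htrX : ∀ X : Module.End T ρ.V, LinearMap.trace T ρ.V (F * X) ∈ Ideal.span {(p : T) ^ n} := by
    intro X
    have hX : X ∈ Submodule.span T (Set.range ρ.ρ) := by rw [span_range_eq_top ρ habs]; trivial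
    induction hX using Submodule.span_induction with
    | mem x hx => obtain ⟨g, rfl⟩ := hx; exact htrh g
    | zero => simp
    | add x y _ _ hx hy => rw [mul_add, map_add]; exact Ideal.add_mem _ hx hy
    | smul c x _ hx =>
      rw [mul_smul_comm, map_smul, smul_eq_mul]
      exact Ideal.mul_mem_left _ _ hx
  intro v
  have h4 := mem_smul_top_of_trace _ F htrX v
  have h5 : F v = y.sum fun g c => c • ρ.ρ g v := by
    rw [hF, Finsupp.sum, LinearMap.sum_apply]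
    refine Finset.sum_congr rfl fun g _ => ?_
    rw [LinearMap.smul_apply]
  rwa [h5] at h4

end TransferMain

end Fermat.Agent.GalRep

end
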