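import Fermat.Agent.X0Emb.JExp
import Fermat.Agent.X0Emb.Hol

/-!
# Laurent expansions of periodic holomorphic functions of moderate growth
-/

set_option autoImplicit false

open UpperHalfPlane Complex Function Filter Topology ModularForm
open scoped Manifold MatrixGroups

noncomputable section

namespace Fermat.Agent.GalRep

open Fermat.Agent.X0Emb

local notation "𝕢" => Periodic.qParam

lemma norm_qParam_eq (h : ℝ) (τ : ℍ) :
    ‖𝕢 h (τ : ℂ)‖ = Real.exp (-2 * Real.pi * τ.im / h) := by
  rw [Periodic.norm_qParam]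
  rfl

/-- A periodic holomorphic function of moderate growth at `i∞` has a Laurent expansion. -/
theorem exists_lexp {h : ℝ} (hh : 0 < h) {f : ℍ → ℂ} (hper : Function.Periodic (f ∘ ofComplex) h)
    (hf : MDiff f) {m : ℕ} (hg : f =O[atImInfty] fun τ => Real.exp (m * τ.im)) :
    ∃ G : LaurentSeries ℂ, LExp h f G := by
  obtain ⟨M, hM⟩ := exists_nat_ge (m * h / (2 * Real.pi))
  set u : ℍ → ℂ := fun τ => f τ * 𝕢 h (τ : ℂ) ^ M with hu
  have hq : Function.Periodic (fun z : ℂ => 𝕢 h z) h := fun z => by
    simp only [Periodic.qParam]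
    rw [mul_add, add_div, Complex.exp_add]
    have : (2 : ℂ) * Real.pi * Complex.I * h / h = 2 * Real.pi * Complex.I := by
      have : (h : ℂ) ≠ 0 := by exact_mod_cast hh.ne'
      field_simp
    rw [this, Complex.exp_two_pi_mul_I, mul_one]
  have huper : Function.Periodic (u ∘ ofComplex) h := by
    intro w
    by_cases hw : 0 < w.im
    · have hw' : 0 < (w + h).im := by simpa using hw
      have h1 := hper w
      simp only [comp_apply, ofComplex_apply_of_im_pos hw', ofComplex_apply_of_im_pos hw] at h1 ⊢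
      simp only [hu, h1]
      congr 2
      exact hq w
    · have hw' : ¬ 0 < (w + h).im := by simpa using hw
      rw [not_lt] at hw hw'
      simp only [comp_apply, ofComplex_apply_of_im_nonpos hw', ofComplex_apply_of_im_nonpos hw]
  have hqd : MDiff (fun τ : ℍ => 𝕢 h (τ : ℂ) ^ M) := by
    rw [UpperHalfPlane.mdifferentiable_iff]
    have : DifferentiableOn ℂ (fun z : ℂ ↦ 𝕢 h z ^ M) upperHalfPlaneSet := by
      unfold Periodic.qParam; fun_prop
    refine this.congr fun z hz ↦ ?_
    simp [ofComplex_apply_of_im_pos hz]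
  have hud : MDiff u := hf.mul hqd
  have hub : IsBoundedAtImInfty u := by
    have h1 : u =O[atImInfty] fun τ => Real.exp (m * τ.im) * ‖𝕢 h (τ : ℂ) ^ M‖ :=
      hg.mul (Asymptotics.isBigO_refl _ _).norm_right
    refine h1.trans ?_
    refine Asymptotics.IsBigO.of_bound 1 (Filter.Eventually.of_forall fun τ => ?_)
    rw [norm_pow, norm_qParam_eq, ← Real.exp_nat_mul, ← Real.exp_add, Real.norm_eq_abs,
      abs_of_pos (Real.exp_pos _)]
    simp only [Pi.one_apply, norm_one, mul_one]
    rw [Real.exp_le_one_iff]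
    have him := τ.im_pos
    have h2 : (m : ℝ) ≤ M * (2 * Real.pi) / h := by
      rw [le_div_iff₀ hh]
      rw [div_le_iff₀ (by positivity)] at hM
      linarith
    have h3 : (m : ℝ) * τ.im ≤ M * (2 * Real.pi) / h * τ.im :=
      mul_le_mul_of_nonneg_right h2 him.le
    have h4 : (M : ℝ) * (-2 * Real.pi * τ.im / h) = -(M * (2 * Real.pi) / h * τ.im) := by
      field_simp
    linarith
  have h1 : LExp h u (HahnSeries.ofPowerSeries ℤ ℂ (qExpansion h u)) := by
    refine LExp.of_hasSum fun τ ↦ ?_
    have := UpperHalfPlane.hasSum_qExpansion hh huper hud hub τ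
    simpa using this
  refine ⟨HahnSeries.single (-(M : ℤ)) 1 * HahnSeries.ofPowerSeries ℤ ℂ (qExpansion h u), ?_⟩
  have h2 := (LExp.single h (-(M : ℤ)) 1).mul h1
  convert h2 using 1
  funext τ
  have hq0 := qParam_ne h (τ : ℂ)
  simp only [Pi.mul_apply, one_mul, zpow_neg, zpow_natCast, hu]
  field_simp

end Fermat.Agent.GalRep
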