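import Fermat.Agent.GalRep.JZ9_Map
import Fermat.Agent.GalRep.Input
import Fermat.Prelude.Def_ModularCurve_HeckeModule

/-!
# The Eichler--Shimura input for `J₀(N)`
-/

set_option autoImplicit false

noncomputable section

open CuspForm ModularCurve ModularCurve.Period CongruenceSubgroup

namespace Fermat.Agent.GalRep

section Spec

variable {N p : ℕ} {J : Type*} [AddCommGroup J] [Module HeckeAlg J]
  [DistribMulAction GQ J] [SMulCommClass GQ HeckeAlg J]

omit [SMulCommClass GQ HeckeAlg J] [Module HeckeAlg J] in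
theorem nsmul_gsmul (σ : GQ) (k : ℕ) (y : J) : k • (σ • y) = σ • (k • y) :=
  (map_nsmul (DistribSMul.toAddMonoidHom J σ) k y).symm

/-- Specializations imply unramifiedness. -/
theorem unramifiedOutside_of_specializationExists
    (h : SpecializationExists (K := ℚ) (L := AlgebraicClosure ℚ) N p J) :
    UnramifiedOutside (K := ℚ) (L := AlgebraicClosure ℚ) N p J := by
  intro ℓ hℓ hN A hA σ hσ x hx
  obtain ⟨J', _, _, sp, F, hs, -⟩ := h ℓ hℓ hN A hA
  obtain ⟨n, hn⟩ := hx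
  have h1 : sp (σ • x - x) = 0 := by rw [map_sub, hs.inertia_comm σ hσ x, sub_self]
  have h2 : p ^ n • (σ • x - x) = 0 := by
    rw [smul_sub, nsmul_gsmul, hn, smul_zero, sub_zero]
  exact sub_eq_zero.mp (hs.injective_torsion _ ⟨n, h2⟩ h1)

/-- Specializations imply the quadratic Frobenius relation. -/
theorem frobeniusQuadratic_of_specializationExists
    (h : SpecializationExists (K := ℚ) (L := AlgebraicClosure ℚ) N p J) :
    FrobeniusQuadratic (K := ℚ) (L := AlgebraicClosure ℚ) N p J := by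
  intro ℓ hℓ hN A hA σ hσ x hx
  obtain ⟨J', _, _, sp, F, hs, hF⟩ := h ℓ hℓ hN A hA
  obtain ⟨n, hn⟩ := hx
  have hcomm : ∀ (τ : GQ) (y : J), p ^ n • y = 0 → p ^ n • (τ • y) = 0 := by
    intro τ y hy
    rw [nsmul_gsmul, hy, smul_zero]
  refine hs.injective_torsion _ ⟨n, ?_⟩ ?_
  · have h1 := hcomm σ x hn
    have h2 := hcomm σ _ h1
    have h3 : p ^ n • (heckeGen ⟨ℓ, hℓ⟩ • σ • x) = 0 := by
      rw [smul_comm, h1, smul_zero]
    rw [smul_add, smul_sub, h2, h3, sub_zero, zero_add, smul_comm, hn, smul_zero]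
  · rw [map_add, map_sub, hs.hecke_comm, map_nsmul, hs.frobenius_comm σ hσ,
      hs.frobenius_comm σ hσ]
    exact hF (sp x)

end Spec

variable (N p : ℕ) [NeZero N]

/-- **Faithfulness of the Hecke action on `J₀(N)[p^∞]`.** -/
theorem faithful_JZero (hp : p.Prime) (S : Set ℕ) (hcomm : HeckeOperatorsCommuteBar N)
    (hNS : ∀ ℓ : ℕ, ℓ.Prime → ℓ ∣ N → ℓ ∈ S) :
    letI := heckeModuleBar N
    ∀ n : ℕ, ∃ m : ℕ, ∀ t : HeckeAlgS S,
      (∀ x : JZero N, p ^ m • x = 0 → inclS S t • x = 0) →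
        evS N S t ∈ Ideal.span {((p : heckeAlgebra N 2 S)) ^ n} := by
  letI := heckeModuleBar N
  refine Fermat.Agent.HeckePar.faithful_of_embedding N p hp S (JZero N) fun m => ?_
  have hpm : p ^ m ≠ 0 := pow_ne_zero m hp.ne_zero
  refine ⟨jMap N (p ^ m) hpm, fun φ => nsmul_jMap hpm φ, fun φ hφ => ?_, fun ℓ φ => ?_⟩
  · obtain ⟨ψ, hψ⟩ := exists_of_jMap_eq_zero hpm hφ
    refine ⟨ψ, ?_⟩
    rw [hψ]
    push_cast
    rfl
  · have h1 := heckeModuleBar_heckeGen_smul hcomm ℓ.1 (jMap N (p ^ m) hpm φ)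
    refine h1.trans ?_
    have hN : ¬ (ℓ.1 : ℕ) ∣ N := fun h => ℓ.2 (hNS _ ℓ.1.2 h)
    exact heckeOperatorBar_jMap hpm ℓ.1 hN φ

/-- **The Eichler--Shimura input for `J₀(N)`** from its ingredients. -/
theorem esInput_of (hp : p.Prime) (S : Set ℕ) (hcomm : HeckeOperatorsCommuteBar N)
    (hNS : ∀ ℓ : ℕ, ℓ.Prime → ℓ ∣ N → ℓ ∈ S) :
    letI := heckeModuleBar N
    ∀ [SMulCommClass GQ HeckeAlg (JZero N)],
      SpecializationExists (K := ℚ) (L := AlgebraicClosure ℚ) N p (JZero N) →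
      (∀ n : ℕ, ∃ L : IntermediateField ℚ (AlgebraicClosure ℚ), FiniteDimensional ℚ L ∧
        ∀ σ : GQ, (∀ x ∈ L, σ x = x) → ∀ x : JZero N, p ^ n • x = 0 → σ • x = x) →
      ESInput N p S (JZero N) := by
  letI := heckeModuleBar N
  intro _ hs hfin
  exact ⟨unramifiedOutside_of_specializationExists hs, frobeniusQuadratic_of_specializationExists hs,
    hfin, faithful_JZero N p hp S hcomm hNS⟩

end Fermat.Agent.GalRep

end
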