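import Fermat.Prelude.Def_ModularCurve_HeckeModule
import Fermat.Agent.FF.Degree

/-!
# Kummer functions of torsion divisor classes

`IsKummer n x h`: the class `x` of degree zero is represented by a divisor `D` with `n D = div h`.
-/

set_option autoImplicit false

noncomputable section

open AlgebraicCurve

namespace Fermat.Agent.GalRep

section General

variable {K F : Type*} [Field K] [Field F] [Algebra K F]

/-- The class `x` is represented by a divisor `D` with `n D = div h`. -/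
def IsKummer (n : ℕ) (x : Pic0 K F) (h : F) : Prop :=
  ∃ D : Divisor.degZero (K := K) (F := F), Pic0.mk D = x ∧ h ≠ 0 ∧
    ∀ v : Place K F, (n : ℤ) * (D : Divisor K F) v = v.ord h

lemma Pic0_mk_eq_zero_iff (D : Divisor.degZero (K := K) (F := F)) :
    Pic0.mk D = 0 ↔ Divisor.IsPrincipal (D : Divisor K F) := by
  rw [Pic0.mk, QuotientAddGroup.eq_zero_iff, AddSubgroup.mem_addSubgroupOf]
  exact Iff.rfl

lemma Pic0_mk_eq_mk_iff (D E : Divisor.degZero (K := K) (F := F)) :
    Pic0.mk D = Pic0.mk E ↔ Divisor.IsPrincipal ((D : Divisor K F) - (E : Divisor K F)) := by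
  rw [← sub_eq_zero]
  exact Pic0_mk_eq_zero_iff (D - E)

namespace IsKummer

variable {n : ℕ} {x y : Pic0 K F} {h k : F}

lemma ne_zero (hx : IsKummer n x h) : h ≠ 0 := hx.choose_spec.2.1

lemma dvd (hx : IsKummer n x h) (v : Place K F) : (n : ℤ) ∣ v.ord h := by
  obtain ⟨D, -, -, hD⟩ := hx
  exact ⟨_, (hD v).symm⟩

lemma nsmul_eq_zero (hx : IsKummer n x h) : n • x = 0 := by
  obtain ⟨D, rfl, h0, hD⟩ := hx
  have : n • Pic0.mk D = Pic0.mk (n • D) := rfl
  rw [this, Pic0_mk_eq_zero_iff]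
  refine ⟨h, h0, fun v => ?_⟩
  rw [← hD v]
  simp

lemma zero (n : ℕ) : IsKummer n (0 : Pic0 K F) 1 :=
  ⟨0, rfl, one_ne_zero, fun v => by simp⟩

lemma mul (hx : IsKummer n x h) (hy : IsKummer n y k) : IsKummer n (x + y) (h * k) := by
  obtain ⟨D, rfl, h0, hD⟩ := hx
  obtain ⟨E, rfl, k0, hE⟩ := hy
  refine ⟨D + E, rfl, mul_ne_zero h0 k0, fun v => ?_⟩
  rw [v.ord_mul h0 k0, ← hD v, ← hE v]
  simp [mul_add]

lemma inv (hx : IsKummer n x h) : IsKummer n (-x) h⁻¹ := by
  obtain ⟨D, rfl, h0, hD⟩ := hx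
  refine ⟨-D, rfl, inv_ne_zero h0, fun v => ?_⟩
  rw [v.ord_inv, ← hD v]
  simp

lemma div (hx : IsKummer n x h) (hy : IsKummer n y k) : IsKummer n (x - y) (h / k) := by
  rw [sub_eq_add_neg, div_eq_mul_inv]
  exact hx.mul hy.inv

lemma pow (hx : IsKummer n x h) (m : ℕ) : IsKummer n (m • x) (h ^ m) := by
  induction m with
  | zero => simpa using! zero (K := K) (F := F) n
  | succ m ih => rw [succ_nsmul, pow_succ]; exact ih.mul hx

/-- Multiplying the Kummer function by an `n`-th power does not change the class. -/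
lemma mul_pow [HasPrincipalDivisors K F] (hx : IsKummer n x h) {u : F} (hu : u ≠ 0) :
    IsKummer n x (h * u ^ n) := by
  obtain ⟨D, rfl, h0, hD⟩ := hx
  obtain ⟨E, hE, hE0⟩ := HasPrincipalDivisors.exists_divisor (K := K) u hu
  have hEz : Pic0.mk (⟨E, hE0⟩ : Divisor.degZero (K := K) (F := F)) = 0 :=
    (Pic0_mk_eq_zero_iff _).mpr ⟨u, hu, hE⟩
  refine ⟨D + ⟨E, hE0⟩, ?_, mul_ne_zero h0 (pow_ne_zero _ hu), fun v => ?_⟩
  · rw [Pic0.mk_add, hEz, add_zero]
  · rw [v.ord_mul h0 (pow_ne_zero _ hu), ← hD v, ← zpow_natCast, v.ord_zpow, ← hE v]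
    simp [mul_add]

/-- Multiplying the Kummer function by a constant does not change the class. -/
lemma mul_of_ord_eq_zero (hx : IsKummer n x h) {c : F} (hc : c ≠ 0)
    (hc0 : ∀ v : Place K F, v.ord c = 0) : IsKummer n x (h * c) := by
  obtain ⟨D, rfl, h0, hD⟩ := hx
  refine ⟨D, rfl, mul_ne_zero h0 hc, fun v => ?_⟩
  rw [v.ord_mul h0 hc, hc0, add_zero, hD]

lemma mul_algebraMap (hx : IsKummer n x h) {c : K} (hc : c ≠ 0) :
    IsKummer n x (h * algebraMap K F c) := by
  have hc' : algebraMap K F c ≠ 0 := by simpa using hc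
  refine hx.mul_of_ord_eq_zero hc' fun v => ?_
  by_contra hne
  exact Fermat.Agent.FF.transcendental_of_ord_ne_zero v hne (isAlgebraic_algebraMap c)

/-- A class whose Kummer function is an `n`-th power is zero. -/
lemma eq_zero_of_pow (hn : n ≠ 0) {u : F} (hx : IsKummer n x (u ^ n)) : x = 0 := by
  obtain ⟨D, rfl, h0, hD⟩ := hx
  rw [Pic0_mk_eq_zero_iff]
  have hu : u ≠ 0 := by
    rintro rfl
    exact h0 (zero_pow hn)
  refine ⟨u, hu, fun v => ?_⟩
  have h1 := hD v
  rw [← zpow_natCast, v.ord_zpow] at h1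
  exact mul_left_cancel₀ (by exact_mod_cast hn) h1

/-- The divisor of a Kummer function of the zero class is `n` times a principal divisor. -/
lemma exists_of_zero (h0x : IsKummer n (0 : Pic0 K F) h) :
    ∃ u : F, u ≠ 0 ∧ ∀ v : Place K F, v.ord h = v.ord (u ^ n) := by
  obtain ⟨D, hD0, h0, hD⟩ := h0x
  rw [Pic0_mk_eq_zero_iff] at hD0
  obtain ⟨u, hu, huD⟩ := hD0
  refine ⟨u, hu, fun v => ?_⟩
  rw [← hD v, ← zpow_natCast, v.ord_zpow, huD v]

lemma eq_of_same (hn : n ≠ 0) (hx : IsKummer n x h) (hy : IsKummer n y h) : x = y := by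
  have h1 := hx.div hy
  rw [div_self hx.ne_zero] at h1
  rw [← sub_eq_zero]
  refine eq_zero_of_pow hn (u := 1) ?_
  rwa [one_pow]

end IsKummer

/-- Every torsion class has a Kummer function. -/
lemma exists_isKummer {n : ℕ} {x : Pic0 K F} (hx : n • x = 0) : ∃ h : F, IsKummer n x h := by
  obtain ⟨D, rfl⟩ := Pic0.mk_surjective x
  have h1 : n • Pic0.mk D = Pic0.mk (n • D) := rfl
  rw [h1, Pic0_mk_eq_zero_iff] at hx
  obtain ⟨h, h0, hD⟩ := hx
  refine ⟨h, D, rfl, h0, fun v => ?_⟩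
  rw [← hD v]
  simp

/-- A function all of whose orders are divisible by `n` is a Kummer function. -/
lemma exists_isKummer_of_dvd [HasPrincipalDivisors K F] {n : ℕ} (hn : n ≠ 0) {h : F} (h0 : h ≠ 0)
    (hdvd : ∀ v : Place K F, (n : ℤ) ∣ v.ord h) : ∃ x : Pic0 K F, IsKummer n x h := by
  obtain ⟨E, hE, hE0⟩ := HasPrincipalDivisors.exists_divisor (K := K) h h0
  have hn' : (n : ℤ) ≠ 0 := by exact_mod_cast hn
  let D : Divisor K F := E.mapRange (fun m => m / (n : ℤ)) (by simp)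
  have hD : (n : ℤ) • D = E := by
    ext v
    simp only [D, Finsupp.smul_apply, Finsupp.mapRange_apply, smul_eq_mul]
    rw [Int.mul_ediv_cancel' (by rw [hE v]; exact hdvd v)]
  have hD0 : Divisor.degree D = 0 := by
    have h1 : (n : ℤ) • Divisor.degree D = 0 := by rw [← map_zsmul, hD, hE0]
    exact (smul_eq_zero.mp h1).resolve_left hn'
  refine ⟨Pic0.mk ⟨D, hD0⟩, ⟨D, hD0⟩, rfl, h0, fun v => ?_⟩
  rw [← hE v, ← hD]
  rfl

/-- In a function field over an algebraically closed field, functions without zeros and poles are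
constants. -/
lemma exists_algebraMap_of_ord_eq [IsAlgClosed K] [Fermat.Agent.FF.IsFF K F] {h k : F}
    (h0 : h ≠ 0) (k0 : k ≠ 0) (hk : ∀ v : Place K F, v.ord h = v.ord k) :
    ∃ c : K, c ≠ 0 ∧ h = algebraMap K F c * k := by
  have h1 : IsAlgebraic K (h / k) := by
    refine Fermat.Agent.FF.isAlgebraic_of_forall_ord_nonneg fun v => ?_
    rw [div_eq_mul_inv, v.ord_mul h0 (inv_ne_zero k0), v.ord_inv, hk v]
    simp
  obtain ⟨c, hc⟩ := minpoly.mem_range_of_degree_eq_one K (h / k)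
    (IsAlgClosed.degree_eq_one_of_irreducible K (minpoly.irreducible h1.isIntegral))
  refine ⟨c, ?_, ?_⟩
  · rintro rfl
    rw [map_zero] at hc
    exact div_ne_zero h0 k0 hc.symm
  · rw [hc, div_mul_cancel₀ _ k0]

/-- A Kummer function of zero is a constant times an `n`-th power; over an algebraically closed
field it is an `n`-th power. -/
lemma IsKummer.exists_pow_of_zero [IsAlgClosed K] [Fermat.Agent.FF.IsFF K F] {n : ℕ} (hn : n ≠ 0)
    {h : F} (hx : IsKummer n (0 : Pic0 K F) h) : ∃ u : F, u ≠ 0 ∧ h = u ^ n := by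
  obtain ⟨u, hu, huv⟩ := hx.exists_of_zero
  obtain ⟨c, hc, hcu⟩ := exists_algebraMap_of_ord_eq hx.ne_zero (pow_ne_zero n hu) huv
  obtain ⟨d, hd⟩ := IsAlgClosed.exists_pow_nat_eq c (Nat.pos_of_ne_zero hn)
  refine ⟨algebraMap K F d * u, ?_, ?_⟩
  · refine mul_ne_zero ?_ hu
    have : d ≠ 0 := by
      rintro rfl
      rw [zero_pow hn] at hd
      exact hc hd.symm
    simpa using this
  · rw [hcu, ← hd, map_pow, _root_.mul_pow]

section Galois

variable (g : SemilinearAut K F)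

lemma IsKummer.smul {n : ℕ} {x : Pic0 K F} {h : F} (hx : IsKummer n x h) :
    IsKummer n (g • x) (g • h) := by
  obtain ⟨D, rfl, h0, hD⟩ := hx
  refine ⟨SemilinearAut.degZeroSMulHom g D, (SemilinearAut.pic0_smul_mk g D).symm, ?_,
    fun v => ?_⟩
  · rw [SemilinearAut.smul_def]
    simpa using h0
  · rw [SemilinearAut.coe_degZeroSMulHom, SemilinearAut.divisor_smul_apply, hD]
    have := SemilinearAut.ord_smul g (g⁻¹ • v) h
    rw [smul_inv_smul] at this
    exact this.symm

end Galois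

section Correspondence

variable {F' : Type*} [Field F'] [Algebra K F'] [HasPrincipalDivisors K F']
variable (φ ψ : F →ₐ[K] F') (hφ : φ.toRingHom.IsIntegral) (hψ : ψ.toRingHom.IsIntegral)
variable (hFI : FundamentalIdentityAlong K φ hφ)
variable (hfin : FiniteAlong K ψ) (hN : NormFormulaAlong K ψ hfin)

/-- Kummer functions and correspondences. -/
lemma IsKummer.correspondence {n : ℕ} {x : Pic0 K F} {h h' : F} (hx : IsKummer n x h)
    (h0' : h' ≠ 0)
    (hh : ∀ D : Divisor K F, (∀ v, D v = v.ord h) →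
      ∀ v, Divisor.correspondence φ ψ hφ hψ D v = v.ord h') :
    IsKummer n (Pic0.correspondence φ ψ hφ hψ hFI hfin hN x) h' := by
  obtain ⟨D, rfl, h0, hD⟩ := hx
  refine ⟨Pic0.degZeroCorrespondence φ ψ hφ hψ hFI D, rfl, h0', fun v => ?_⟩
  rw [Pic0.coe_degZeroCorrespondence, ← hh ((n : ℤ) • (D : Divisor K F)) (fun v => hD v),
    map_zsmul]
  rfl

end Correspondence

end General

end Fermat.Agent.GalRep
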