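import Fermat.Agent.GalRep.JZ1_Kummer
import Fermat.Agent.GalRep.JZ3_Periodic
import Fermat.Agent.ModFun.Basic
import Fermat.Agent.HeckePar.Cosets
import Fermat.Agent.EisChar.Sigma

/-!
# The relation between torsion classes of `J₀(N)` and characters of `Γ₀(N)`
-/

set_option autoImplicit false

open UpperHalfPlane Function Filter Topology ModularForm CongruenceSubgroup
open scoped Manifold MatrixGroups

noncomputable section

namespace Fermat.Agent.GalRep

open Fermat.Agent.X0Emb Fermat.Agent.ModFun AlgebraicCurve ModularCurve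

local notation "𝕢" => Periodic.qParam
local notation "K" => AlgebraicClosure ℚ

variable {N : ℕ}

/-- Holomorphic functions of moderate growth with a character on `Γ₀(N)`. -/
structure HasChar (N : ℕ) (χ : Gamma0 N →* ℂˣ) (g : ℍ → ℂ) : Prop where
  mdiff : MDiff g
  growth : ModGrowth g
  smul : ∀ (γ : Gamma0 N) (τ : ℍ), g ((γ : SL(2, ℤ)) • τ) = (χ γ : ℂ) * g τ

theorem char_pow_succ (χ : Gamma0 N →* ℂˣ) (m : ℕ) : χ ^ (m + 1) = χ ^ m * χ := by
  ext γ
  simp [pow_succ]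

theorem char_pow_succ' (χ : Gamma0 N →* ℂˣ) (m : ℕ) : χ ^ (m + 1) = χ * χ ^ m := by
  ext γ
  simp [pow_succ']

theorem char_pow_zero (χ : Gamma0 N →* ℂˣ) : χ ^ 0 = 1 := by
  ext γ
  simp

namespace HasChar

variable {χ ψ : Gamma0 N →* ℂˣ} {f g : ℍ → ℂ}

theorem one : HasChar N 1 (1 : ℍ → ℂ) where
  mdiff := mdifferentiable_const
  growth := ModGrowth.one
  smul γ τ := by simp

theorem mul (hf : HasChar N χ f) (hg : HasChar N ψ g) : HasChar N (χ * ψ) (f * g) where
  mdiff := hf.mdiff.mul hg.mdiff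
  growth := hf.growth.mul hg.growth
  smul γ τ := by
    simp only [Pi.mul_apply, hf.smul, hg.smul, MonoidHom.mul_apply, Units.val_mul]
    ring

theorem pow (hf : HasChar N χ f) (m : ℕ) : HasChar N (χ ^ m) (f ^ m) := by
  induction m with
  | zero => rw [char_pow_zero, pow_zero]; exact one
  | succ m ih => rw [char_pow_succ, pow_succ]; exact ih.mul hf

end HasChar

/-- The function `g` has character `χ` and `g ^ n` is a Kummer function of `x`. -/
def Rel (ι : K →+* ℂ) (N n : ℕ) (x : JZero N) (χ : Gamma0 N →* ℂˣ) : Prop :=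
  ∃ (h : modularFunctionFieldBar N) (g : ℍ → ℂ), IsKummer n x h ∧ HasChar N χ g ∧
    LExp 1 (g ^ n) (coeffMap ι (h : LaurentSeries K))

variable {ι : K →+* ℂ} {n : ℕ}

namespace Rel

variable {x y : JZero N} {χ ψ : Gamma0 N →* ℂˣ}

theorem one (ι : K →+* ℂ) (N n : ℕ) : Rel ι N n 0 1 :=
  ⟨1, 1, IsKummer.zero n, HasChar.one, by
    rw [one_pow, OneMemClass.coe_one, map_one]
    exact LExp.one 1⟩

theorem mul (hx : Rel ι N n x χ) (hy : Rel ι N n y ψ) : Rel ι N n (x + y) (χ * ψ) := by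
  obtain ⟨h, g, h1, h2, h3⟩ := hx
  obtain ⟨h', g', h1', h2', h3'⟩ := hy
  refine ⟨h * h', g * g', h1.mul h1', h2.mul h2', ?_⟩
  rw [mul_pow, MulMemClass.coe_mul, map_mul]
  exact h3.mul h3'

theorem pow (hx : Rel ι N n x χ) (m : ℕ) : Rel ι N n (m • x) (χ ^ m) := by
  induction m with
  | zero => rw [char_pow_zero, zero_nsmul]; exact one ι N n
  | succ m ih => rw [succ_nsmul, char_pow_succ]; exact ih.mul hx

theorem nsmul_eq_zero (hx : Rel ι N n x χ) : n • x = 0 := by
  obtain ⟨h, g, h1, -, -⟩ := hx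
  exact h1.nsmul_eq_zero

end Rel

/-- The analytic bridges (proved elsewhere). -/
structure Bridge (ι : K →+* ℂ) (N : ℕ) : Prop where
  /-- a `Γ₀(N)`-invariant holomorphic function of moderate growth with algebraic `q`-coefficients is
  in the modular function field -/
  conv : ∀ (F : ℍ → ℂ), MDiff F → ModGrowth F →
    (∀ (γ : Gamma0 N) (τ : ℍ), F ((γ : SL(2, ℤ)) • τ) = F τ) →
    ∀ G : LaurentSeries K, LExp 1 F (coeffMap ι G) → G ∈ modularFunctionFieldBar N
  /-- elements of the modular function field are quotients of holomorphic functions -/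
  conv0 : ∀ y : modularFunctionFieldBar N, ∃ (u v : LaurentSeries K) (U V : ℍ → ℂ),
    v ≠ 0 ∧ (y : LaurentSeries K) * v = u ∧ MDiff U ∧ MDiff V ∧
    (∀ (γ : Gamma0 N) (τ : ℍ), U ((γ : SL(2, ℤ)) • τ) = U τ) ∧
    (∀ (γ : Gamma0 N) (τ : ℍ), V ((γ : SL(2, ℤ)) • τ) = V τ) ∧
    LExp 1 U (coeffMap ι u) ∧ LExp 1 V (coeffMap ι v)
  /-- roots of Laurent series with algebraic coefficients are algebraic -/
  root : ∀ (n : ℕ), n ≠ 0 → ∀ (G : LaurentSeries ℂ) (h : LaurentSeries K),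
    G ^ n = coeffMap ι h → ∃ G0 : LaurentSeries K, G = coeffMap ι G0

theorem coeffMap_injective {R S : Type*} [CommRing R] [CommRing S] {φ : R →+* S}
    (hφ : Function.Injective φ) : Function.Injective (coeffMap φ) := by
  intro a b hab
  ext k
  have := congrArg (fun G => HahnSeries.coeff G k) hab
  simp only [coeffMap_coeff] at this
  exact hφ this

theorem HasChar.exists_lexp {χ : Gamma0 N →* ℂˣ} {g : ℍ → ℂ} (hg : HasChar N χ g)
    (hT : ∀ τ : ℍ, g ((1 : ℝ) +ᵥ τ) = g τ) : ∃ G : LaurentSeries ℂ, LExp 1 g G := by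
  obtain ⟨m, hm⟩ := hg.growth.growthInf
  refine GalRep.exists_lexp one_pos ?_ hg.mdiff hm
  intro w
  by_cases hw : 0 < w.im
  · have hw' : 0 < (w + (1 : ℝ)).im := by simpa using hw
    simp only [comp_apply, ofComplex_apply_of_im_pos hw', ofComplex_apply_of_im_pos hw]
    have h1 : (⟨w + (1 : ℝ), hw'⟩ : ℍ) = (1 : ℝ) +ᵥ (⟨w, hw⟩ : ℍ) := by
      ext1
      simp [add_comm]
    rw [h1, hT]
  · have hw' : ¬ 0 < (w + (1 : ℝ)).im := by simpa using hw
    rw [not_lt] at hw hw'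
    simp only [comp_apply, ofComplex_apply_of_im_nonpos hw', ofComplex_apply_of_im_nonpos hw]

/-- The translation in `Γ₀(N)`. -/
def TG (N : ℕ) : Gamma0 N := ⟨ModularGroup.T, by simp [ModularGroup.T, Gamma0_mem]⟩

theorem TG_smul (N : ℕ) (τ : ℍ) : ((TG N : Gamma0 N) : SL(2, ℤ)) • τ = (1 : ℝ) +ᵥ τ :=
  UpperHalfPlane.modular_T_smul τ

/-- A class related to the trivial character is zero. -/
theorem Rel.eq_zero (B : Bridge ι N) (hn : n ≠ 0) {x : JZero N} (hx : Rel ι N n x 1) : x = 0 := by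
  obtain ⟨h, g, h1, h2, h3⟩ := hx
  have hinv : ∀ (γ : Gamma0 N) (τ : ℍ), g ((γ : SL(2, ℤ)) • τ) = g τ := by
    intro γ τ
    rw [h2.smul]
    simp
  obtain ⟨G, hG⟩ := h2.exists_lexp (fun τ => by rw [← TG_smul N τ, hinv])
  have h4 : G ^ n = coeffMap ι (h : LaurentSeries K) := (hG.pow n).unique one_pos h3
  obtain ⟨G0, rfl⟩ := B.root n hn G _ h4
  have h5 := B.conv g h2.mdiff h2.growth hinv G0 hG
  have h6 : (⟨G0, h5⟩ : modularFunctionFieldBar N) ^ n = h := by
    apply Subtype.ext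
    rw [← map_pow] at h4
    exact coeffMap_injective ι.injective h4
  rw [← h6] at h1
  exact h1.eq_zero_of_pow hn

theorem Rel.unique (B : Bridge ι N) (hn : n ≠ 0) {x y : JZero N} {χ : Gamma0 N →* ℂˣ}
    (hχ : χ ^ n = 1) (hx : Rel ι N n x χ) (hy : Rel ι N n y χ) : x = y := by
  obtain ⟨m, rfl⟩ := Nat.exists_eq_succ_of_ne_zero hn
  have h1 := hx.mul (hy.pow m)
  rw [← char_pow_succ', ← Nat.succ_eq_add_one, hχ] at h1
  have h2 := h1.eq_zero B hn
  have h3 := hy.nsmul_eq_zero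
  rw [Nat.succ_eq_add_one, succ_nsmul'] at h3
  exact add_right_cancel (h2.trans h3.symm)

open Fermat.Agent.X0Emb in
/-- The zero class is only related to the trivial character. -/
theorem Rel.char_eq_one (B : Bridge ι N) (hn : n ≠ 0) [Fermat.Agent.FF.IsFF K (modularFunctionFieldBar N)]
    {χ : Gamma0 N →* ℂˣ} (hx : Rel ι N n (0 : JZero N) χ) : χ = 1 := by
  obtain ⟨h, g, h1, h2, h3⟩ := hx
  have h0 := h1.ne_zero
  obtain ⟨y, hy, hyn⟩ := h1.exists_pow_of_zero hn
  obtain ⟨u, v, U, V, hv, hyv, hU, hV, hUi, hVi, hUe, hVe⟩ := B.conv0 y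
  -- `(g V)^n = U^n`
  have hgV : (g * V) ^ n = U ^ n := by
    have h4 : LExp 1 ((g * V) ^ n) (coeffMap ι (u ^ n)) := by
      rw [mul_pow]
      have h5 : coeffMap ι (u ^ n) = coeffMap ι (h : LaurentSeries K) * (coeffMap ι v) ^ n := by
        rw [← map_pow, ← map_mul, hyn, ← hyv, mul_pow]
        rfl
      rw [h5]
      exact h3.mul (hVe.pow n)
    rw [map_pow] at h4
    exact h4.funext (hUe.pow n)
  have hu : u ≠ 0 := by
    rw [← hyv]
    refine mul_ne_zero (fun h => hy ?_) hv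
    exact Subtype.ext h
  have hU0 : U ≠ 0 := by
    rintro rfl
    have := (LExp.eq_zero one_pos hUe)
    exact hu (coeffMap_injective ι.injective (this.trans (map_zero _).symm))
  -- `g V = c U`
  obtain ⟨c, hc1, hc⟩ := Fermat.Agent.EisChar.exists_smul_eq_of_pow_eq (h2.mdiff.mul hV) hU hn hgV
  have hc0 : c ≠ 0 := by
    rintro rfl
    rw [zero_pow hn] at hc1
    exact zero_ne_one hc1
  obtain ⟨τ, hτ⟩ : ∃ τ : ℍ, (g * V) τ ≠ 0 := by
    by_contra hcon
    push Not at hcon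
    apply hU0
    funext τ
    have h6 := hcon τ
    rw [hc] at h6
    simpa [hc0] using h6
  ext γ
  have h8 : (g * V) ((γ : SL(2, ℤ)) • τ) = (g * V) τ := by
    rw [hc]
    simp only [Pi.smul_apply, hUi]
  have h9 : (g * V) ((γ : SL(2, ℤ)) • τ) = (χ γ : ℂ) * (g * V) τ := by
    show g _ * V _ = _ * (g τ * V τ)
    rw [h2.smul, hVi]
    ring
  rw [h8] at h9
  have h10 : ((χ γ : ℂ) - 1) * (g * V) τ = 0 := by
    rw [sub_mul, one_mul, ← h9, sub_self]
  have h11 := (mul_eq_zero.mp h10).resolve_right hτ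
  rw [sub_eq_zero] at h11
  simpa using h11

end Fermat.Agent.GalRep
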