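import Mathlib.LinearAlgebra.Charpoly.Basic
import Mathlib.LinearAlgebra.Charpoly.ToMatrix
import Mathlib.LinearAlgebra.Trace
import Mathlib.LinearAlgebra.Matrix.Charpoly.Coeff
import Mathlib.LinearAlgebra.Matrix.Charpoly.LinearMap

/-!
# Trace polynomials of powers

`tk t d k` is the polynomial expression in `t, d` giving `α^k + β^k` when `α + β = t`, `αβ = d`.
-/

set_option autoImplicit false

noncomputable section

open Polynomial

namespace Fermat.Agent.GalRep

/-- `tk t d k = α^k + β^k` with `α + β = t`, `α β = d`. -/
def tk {R : Type*} [CommRing R] (t d : R) : ℕ → R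
  | 0 => 2
  | 1 => t
  | (k + 2) => t * tk t d (k + 1) - d * tk t d k

@[simp] lemma tk_zero {R : Type*} [CommRing R] (t d : R) : tk t d 0 = 2 := by simp [tk]

@[simp] lemma tk_one {R : Type*} [CommRing R] (t d : R) : tk t d 1 = t := by simp [tk]

lemma tk_add_two {R : Type*} [CommRing R] (t d : R) (k : ℕ) :
    tk t d (k + 2) = t * tk t d (k + 1) - d * tk t d k := by simp [tk]

lemma map_tk {R R' : Type*} [CommRing R] [CommRing R'] (f : R →+* R') (t d : R) (k : ℕ) :
    f (tk t d k) = tk (f t) (f d) k := by
  induction k using Nat.strong_induction_on with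
  | _ k ih =>
    match k with
    | 0 => rw [tk_zero, tk_zero, map_ofNat]
    | 1 => simp
    | (k + 2) =>
      rw [tk_add_two, tk_add_two, map_sub, map_mul, map_mul, ih (k + 1) (by omega),
        ih k (by omega)]

/-- In an `R`-algebra `E`, an element `F` with `F^2 = t F - d` satisfies
`F^(2k) = t_k F^k - d^k`. -/
lemma pow_quadratic {R E : Type*} [CommRing R] [Ring E] [Algebra R E] (t d : R) (F : E)
    (hF : F * F = t • F - algebraMap R E d) (k : ℕ) :
    F ^ k * F ^ k = tk t d k • F ^ k - algebraMap R E (d ^ k) := by
  set G : E := algebraMap R E t - F with hG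
  have hFG : F * G = algebraMap R E d := by
    rw [hG, mul_sub, hF, ← Algebra.commutes, ← Algebra.smul_def]; abel
  have hGF : G * F = algebraMap R E d := by
    rw [hG, sub_mul, hF, ← Algebra.smul_def]; abel
  have hcomm : Commute F G := by rw [Commute, SemiconjBy, hFG, hGF]
  have hsum : F + G = algebraMap R E t := by rw [hG]; abel
  have key : ∀ k, algebraMap R E (tk t d k) = F ^ k + G ^ k := by
    intro k
    induction k using Nat.strong_induction_on with
    | _ k ih =>
      match k with
      | 0 =>
        rw [tk_zero, pow_zero, pow_zero, map_ofNat]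
        exact one_add_one_eq_two.symm
      | 1 => rw [tk_one, pow_one, pow_one, hsum]
      | (k + 2) =>
        rw [tk_add_two, map_sub, map_mul, map_mul, ih (k + 1) (by omega), ih k (by omega), ← hsum,
          ← hFG]
        have h1 : F * G ^ (k + 1) = F * G * G ^ k := by rw [pow_succ', mul_assoc]
        have h2 : G * F ^ (k + 1) = F * G * F ^ k := by
          rw [pow_succ', ← mul_assoc, hcomm.eq]
        have h3 : F * F ^ (k + 1) = F ^ (k + 2) := (pow_succ' F (k + 1)).symm
        have h4 : G * G ^ (k + 1) = G ^ (k + 2) := (pow_succ' G (k + 1)).symm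
        rw [add_mul, mul_add, mul_add, h1, h2, h3, h4, mul_add]
        abel
  have hk : F ^ k * G ^ k = algebraMap R E (d ^ k) := by
    rw [← hcomm.mul_pow, hFG, map_pow]
  rw [Algebra.smul_def, key, ← hk, add_mul, ← (hcomm.pow_pow k k).eq]
  abel

/-- The trace of the `k`-th power of an endomorphism of a rank two module with characteristic
polynomial `X^2 - t X + d`. -/
lemma trace_pow_of_charpoly {R V : Type*} [CommRing R] [Nontrivial R] [AddCommGroup V] [Module R V]
    [Module.Free R V] [Module.Finite R V] (hV : Module.finrank R V = 2) (f : V →ₗ[R] V) (t d : R)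
    (hf : f.charpoly = X ^ 2 - C t * X + C d) (k : ℕ) :
    LinearMap.trace R V (f ^ k) = tk t d k := by
  have htr : LinearMap.trace R V f = t := by
    rw [← LinearMap.charpoly_toMatrix f (Module.Free.chooseBasis R V)] at hf
    rw [LinearMap.trace_eq_matrix_trace R (Module.Free.chooseBasis R V)]
    have hcard : Fintype.card (Module.Free.ChooseBasisIndex R V) = 2 := by
      rw [← hV, Module.finrank_eq_card_chooseBasisIndex]
    haveI : Nonempty (Module.Free.ChooseBasisIndex R V) := by
      rw [← Fintype.card_pos_iff, hcard]; norm_num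
    rw [Matrix.trace_eq_neg_charpoly_coeff, hf, hcard]
    simp [coeff_X, coeff_C]
  have hCH : f * f = t • f - algebraMap R (Module.End R V) d := by
    have h := LinearMap.aeval_self_charpoly f
    rw [hf] at h
    simp only [map_add, map_sub, map_mul, aeval_X, aeval_C, map_pow] at h
    rw [← Algebra.smul_def, pow_two] at h
    have : f * f - (t • f - algebraMap R (Module.End R V) d) = 0 := by rw [← h]; abel
    exact sub_eq_zero.mp this
  induction k using Nat.strong_induction_on with
  | _ k ih =>
    match k with
    | 0 =>
      rw [tk_zero, pow_zero]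
      rw [LinearMap.trace_one, hV]; norm_num
    | 1 => rw [tk_one, pow_one, htr]
    | (k + 2) =>
      have h2 : f ^ (k + 2) = t • f ^ (k + 1) - d • f ^ k := by
        calc f ^ (k + 2) = (f * f) * f ^ k := by rw [← pow_two, ← pow_add, add_comm]
          _ = _ := by
            rw [hCH, sub_mul, smul_mul_assoc, ← pow_succ', ← Algebra.smul_def]
      rw [tk_add_two, h2, map_sub, map_smul, map_smul, smul_eq_mul, smul_eq_mul,
        ih (k + 1) (by omega), ih k (by omega)]

end Fermat.Agent.GalRep

end
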