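import Fermat.Prelude.Def_GaloisRep_Adic
import Mathlib.RepresentationTheory.AlgebraRepresentation.Basic
import Mathlib.RingTheory.SimpleModule.Basic
import Mathlib.RingTheory.Nakayama
import Mathlib.LinearAlgebra.TensorProduct.Tower
import Mathlib.RingTheory.TensorProduct.Finite
import Mathlib.LinearAlgebra.Trace
import Mathlib.RingTheory.TensorProduct.Free
import Mathlib.RingTheory.LocalRing.ResidueField.Basic

/-!
# Burnside's theorem for residually absolutely irreducible representations

If `ρ : GaloisRepAdic T` is residually absolutely irreducible then the `T`-span of the image of `ρ`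
is the full endomorphism ring.
-/

set_option autoImplicit false

noncomputable section

open scoped TensorProduct

namespace Fermat.Agent.GalRep

section AlgClosed

variable {k : Type*} [Field k] [IsAlgClosed k] {V : Type*} [AddCommGroup V] [Module k V]
  [FiniteDimensional k V] [Nontrivial V] {G : Type*} [Monoid G] (ρ : G →* Module.End k V)

/-- Burnside's theorem over an algebraically closed field. -/
theorem adjoin_range_eq_top_of_irreducible
    (hirr : ∀ W : Submodule k V, (∀ g, ∀ x ∈ W, ρ g x ∈ W) → W = ⊥ ∨ W = ⊤) :
    Algebra.adjoin k (Set.range ρ) = ⊤ := by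
  set A : Subalgebra k (Module.End k V) := Algebra.adjoin k (Set.range ρ) with hA
  have hsimple : IsSimpleModule A V :=
    { eq_bot_or_eq_top := fun W => by
        have hW := hirr (W.restrictScalars k) (fun g x hx => by
          have h := W.smul_mem (⟨ρ g, Algebra.subset_adjoin ⟨g, rfl⟩⟩ : A) hx
          exact h)
        rcases hW with h | h
        · left
          refine (Submodule.eq_bot_iff _).mpr fun x hx => ?_
          have hx' : x ∈ W.restrictScalars k := hx
          rw [h] at hx'
          exact (Submodule.mem_bot k).mp hx'
        · right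
          refine (Submodule.eq_top_iff').mpr fun x => ?_
          have hx' : x ∈ W.restrictScalars k := by rw [h]; trivial
          exact hx' }
  have hbij := IsSimpleModule.algebraMap_end_bijective_of_isAlgClosed k (A := A) (V := V)
  rw [Algebra.eq_top_iff]
  intro f
  -- `f` is linear over `End_A V = k`
  let f' : Module.End (Module.End A V) V :=
    { toFun := f
      map_add' := f.map_add
      map_smul' := fun c v => by
        obtain ⟨a, rfl⟩ := hbij.2 c
        have h1 : (algebraMap k (Module.End A V) a) • v = a • v := rfl
        have h2 : (algebraMap k (Module.End A V) a) • f v = a • f v := rfl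
        rw [RingHom.id_apply, h1, h2, map_smul] }
  obtain ⟨s, hs⟩ := Module.Finite.fg_top (R := k) (M := V)
  obtain ⟨r, hr⟩ := jacobson_density (R := A) (M := V) f' s
  have : f = (r : Module.End k V) := by
    refine LinearMap.ext fun v => ?_
    have hv : v ∈ Submodule.span k (s : Set V) := by rw [hs]; trivial
    induction hv using Submodule.span_induction with
    | mem m hm => exact hr m hm
    | zero => rw [map_zero, map_zero]
    | add x y _ _ hx hy => rw [map_add, map_add, hx, hy]
    | smul c x _ hx => rw [map_smul, map_smul, hx]
  rw [this]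
  exact r.2

/-- Burnside's theorem over an algebraically closed field, linear span version. -/
theorem span_range_eq_top_of_irreducible
    (hirr : ∀ W : Submodule k V, (∀ g, ∀ x ∈ W, ρ g x ∈ W) → W = ⊥ ∨ W = ⊤) :
    Submodule.span k (Set.range ρ) = ⊤ := by
  have h := adjoin_range_eq_top_of_irreducible ρ hirr
  have h2 : (Submonoid.closure (Set.range ρ) : Set (Module.End k V)) = Set.range ρ := by
    have : Set.range ρ = (MonoidHom.mrange ρ : Set (Module.End k V)) := (MonoidHom.coe_mrange ρ).symm
    rw [this, Submonoid.closure_eq]
  have h3 := Algebra.adjoin_eq_span (R := k) (s := Set.range ρ)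
  rw [h2, h] at h3
  rw [← h3]
  exact Algebra.top_toSubmodule

end AlgClosed

section Descent

variable {k : Type*} [Field k] {k' : Type*} [Field k'] [Algebra k k'] {V : Type*} [AddCommGroup V]
  [Module k V] [FiniteDimensional k V]

/-- Descent of spanning for endomorphisms along a field extension. -/
theorem span_eq_top_of_baseChange (s : Set (Module.End k V))
    (h : Submodule.span k' ((fun f : Module.End k V => f.baseChange k') '' s) = ⊤) :
    Submodule.span k s = ⊤ := by
  obtain ⟨b, hbs, hbspan, hbli⟩ := exists_linearIndependent k'
    ((fun f : Module.End k V => f.baseChange k') '' s)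
  rw [h] at hbspan
  have hfin : Finite b := hbli.finite
  have := Fintype.ofFinite b
  have hcard : Fintype.card b = Module.finrank k' (Module.End k' (k' ⊗[k] V)) := by
    have hb := Module.Basis.mk hbli (by rw [Subtype.range_coe, hbspan])
    exact (Module.finrank_eq_card_basis hb).symm
  have hfr : Module.finrank k' (Module.End k' (k' ⊗[k] V)) = Module.finrank k (Module.End k V) := by
    rw [Module.finrank_linearMap, Module.finrank_linearMap, Module.finrank_baseChange]
  choose g hgs hg using fun x : b => hbs x.2
  have hli : LinearIndependent k g := by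
    have hbli' := Fintype.linearIndependent_iff.mp hbli
    rw [Fintype.linearIndependent_iff]
    intro c hc i
    have h0 : ∑ i, (algebraMap k k' (c i)) • (i : Module.End k' (k' ⊗[k] V)) = 0 := by
      have h1 : (∑ i, c i • g i).baseChange k' = 0 := by rw [hc, LinearMap.baseChange_zero]
      rw [← h1]
      have h2 : (∑ i, c i • g i).baseChange k' = ∑ i, (c i • g i).baseChange k' :=
        map_sum (LinearMap.baseChangeHom k k' V V) _ _
      rw [h2]
      refine Finset.sum_congr rfl fun i _ => ?_
      rw [LinearMap.baseChange_smul, ← algebraMap_smul k' (c i)]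
      congr 1
      exact (hg i).symm
    have h3 := hbli' _ h0 i
    exact (map_eq_zero _).mp h3
  have htop : Submodule.span k (Set.range g) = ⊤ := by
    refine hli.span_eq_top_of_card_eq_finrank' ?_
    rw [hcard, hfr]
  rw [eq_top_iff, ← htop]
  refine Submodule.span_mono ?_
  rintro _ ⟨i, rfl⟩
  exact hgs i

end Descent

section Local

variable {T : Type} [CommRing T] [IsLocalRing T]

/-- An endomorphism of a finite free module over a local ring vanishing residually lies in
`𝔪 • End`. -/
lemma mem_smul_top_of_baseChange_eq_zero {V : Type} [AddCommGroup V] [Module T V]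
    [Module.Free T V] [Module.Finite T V] (h : V →ₗ[T] V)
    (h0 : h.baseChange (IsLocalRing.ResidueField T) = 0) :
    h ∈ (IsLocalRing.maximalIdeal T) • (⊤ : Submodule T (Module.End T V)) := by
  classical
  set b := Module.Free.chooseBasis T V with hb
  have h1 : (LinearMap.toMatrix b b h).map (algebraMap T (IsLocalRing.ResidueField T)) = 0 := by
    rw [← LinearMap.toMatrix_baseChange, h0, map_zero]
  have h2 : ∀ i j, LinearMap.toMatrix b b h i j ∈ IsLocalRing.maximalIdeal T := by
    intro i j
    have := congrFun (congrFun h1 i) j
    exact (IsLocalRing.residue_eq_zero_iff _).mp this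
  have h3 : h = ∑ i, ∑ j, LinearMap.toMatrix b b h i j •
      (Matrix.toLin b b (Matrix.single i j (1 : T))) := by
    have h4 := Matrix.matrix_eq_sum_single (LinearMap.toMatrix b b h)
    calc h = Matrix.toLin b b (LinearMap.toMatrix b b h) := (Matrix.toLin_toMatrix b b h).symm
      _ = Matrix.toLin b b (∑ i, ∑ j, Matrix.single i j (LinearMap.toMatrix b b h i j)) := by
        rw [← h4]
      _ = _ := by
        rw [map_sum]
        refine Finset.sum_congr rfl fun i _ => ?_
        rw [map_sum]
        refine Finset.sum_congr rfl fun j _ => ?_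
        rw [← map_smul, Matrix.smul_single, smul_eq_mul, mul_one]
  rw [h3]
  exact Submodule.sum_mem _ fun i _ => Submodule.sum_mem _ fun j _ =>
    Submodule.smul_mem_smul (h2 i j) trivial

/-- **Burnside + Nakayama**: the image of a residually absolutely irreducible representation spans
the full endomorphism ring. -/
theorem span_range_eq_top (ρ : GaloisRepAdic T) (h : ρ.residual.IsAbsolutelyIrreducible) :
    Submodule.span T (Set.range ρ.ρ) = ⊤ := by
  set k := IsLocalRing.ResidueField T with hk
  -- over the algebraic closure
  have hfr : Module.finrank (AlgebraicClosure k) (ρ.residual.baseChange (AlgebraicClosure k)).V = 2 :=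
    (ρ.residual.baseChange (AlgebraicClosure k)).finrank_eq
  have hnt : Nontrivial (ρ.residual.baseChange (AlgebraicClosure k)).V :=
    Module.nontrivial_of_finrank_pos (R := AlgebraicClosure k) (by rw [hfr]; norm_num)
  have h1 := span_range_eq_top_of_irreducible (ρ.residual.baseChange (AlgebraicClosure k)).ρ h
  -- over `k`
  have h2 : Submodule.span k (Set.range ρ.residual.ρ) = ⊤ := by
    refine span_eq_top_of_baseChange (k' := AlgebraicClosure k) _ ?_
    rw [← h1]
    congr 1
    ext f
    constructor
    · rintro ⟨_, ⟨g, rfl⟩, rfl⟩
      exact ⟨g, rfl⟩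
    · rintro ⟨g, rfl⟩
      exact ⟨_, ⟨g, rfl⟩, rfl⟩
  -- over `T`
  have hle : (⊤ : Submodule T (Module.End T ρ.V)) ≤ Submodule.span T (Set.range ρ.ρ) ⊔
      (IsLocalRing.maximalIdeal T) • ⊤ := by
    intro f _
    have hf : f.baseChange k ∈ Submodule.span k (Set.range ρ.residual.ρ) := by rw [h2]; trivial
    have key : ∀ F : Module.End k (k ⊗[T] ρ.V), F ∈ Submodule.span k (Set.range ρ.residual.ρ) →
        ∃ f' ∈ Submodule.span T (Set.range ρ.ρ), f'.baseChange k = F := by
      intro F hF
      induction hF using Submodule.span_induction with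
      | mem x hx =>
        obtain ⟨g, rfl⟩ := hx
        exact ⟨ρ.ρ g, Submodule.subset_span ⟨g, rfl⟩, rfl⟩
      | zero => exact ⟨0, Submodule.zero_mem _, LinearMap.baseChange_zero⟩
      | add x y _ _ hx hy =>
        obtain ⟨x', hx', rfl⟩ := hx
        obtain ⟨y', hy', rfl⟩ := hy
        exact ⟨x' + y', Submodule.add_mem _ hx' hy', LinearMap.baseChange_add _ _⟩
      | smul c x _ hx =>
        obtain ⟨x', hx', rfl⟩ := hx
        obtain ⟨c', rfl⟩ := IsLocalRing.residue_surjective c
        refine ⟨c' • x', Submodule.smul_mem _ _ hx', ?_⟩
        rw [LinearMap.baseChange_smul, ← algebraMap_smul k c']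
        rfl
    obtain ⟨f', hf', hff'⟩ := key _ hf
    have h3 : (f - f').baseChange k = 0 := by
      have e1 : f.baseChange k = f'.baseChange k + (f - f').baseChange k := by
        rw [← LinearMap.baseChange_add]; congr 1; abel
      rw [hff'] at e1
      refine LinearMap.ext fun x => ?_
      have e2 := LinearMap.congr_fun e1 x
      rw [LinearMap.add_apply] at e2
      rw [LinearMap.zero_apply]
      exact left_eq_add.mp e2
    have h4 := mem_smul_top_of_baseChange_eq_zero (f - f') h3
    have h5 : f = f' + (f - f') := by abel
    rw [h5]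
    exact Submodule.add_mem_sup hf' h4
  refine top_le_iff.mp (Submodule.le_of_le_smul_of_le_jacobson_bot (Module.Finite.fg_top) ?_ hle)
  rw [IsLocalRing.jacobson_eq_maximalIdeal _ bot_ne_top]

/-- the trace pairing is nondegenerate. -/
lemma eq_zero_of_trace_mul_eq_zero {R V : Type*} [CommRing R] [AddCommGroup V] [Module R V]
    [Module.Free R V] [Module.Finite R V] (N : Module.End R V)
    (h : ∀ X : Module.End R V, LinearMap.trace R V (X * N) = 0) : N = 0 := by
  classical
  rcases subsingleton_or_nontrivial R with hR | hR
  · have := Module.subsingleton R V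
    exact Subsingleton.elim _ _
  set b := Module.Free.chooseBasis R V with hb
  have h0 : LinearMap.toMatrix b b N = 0 := by
    ext i j
    have h1 := h (Matrix.toLin b b (Matrix.single j i (1 : R)))
    rw [LinearMap.trace_eq_matrix_trace R b, LinearMap.toMatrix_mul, LinearMap.toMatrix_toLin,
      Matrix.trace_single_mul] at h1
    simpa using h1
  exact (LinearMap.toMatrix b b).map_eq_zero_iff.mp h0

/-- If `tr ρ(gτ) = tr ρ(g)` for all `g` then `ρ(τ) = 1`, for residually absolutely irreducible
`ρ`. -/
theorem eq_one_of_trace_mul (ρ : GaloisRepAdic T) (h : ρ.residual.IsAbsolutelyIrreducible)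
    (τ : AlgebraicClosure ℚ ≃ₐ[ℚ] AlgebraicClosure ℚ)
    (hτ : ∀ g, LinearMap.trace T ρ.V (ρ.ρ (g * τ)) = LinearMap.trace T ρ.V (ρ.ρ g)) :
    ρ.ρ τ = 1 := by
  have h1 : ∀ X : Module.End T ρ.V, LinearMap.trace T ρ.V (X * (ρ.ρ τ - 1)) = 0 := by
    intro X
    have hX : X ∈ Submodule.span T (Set.range ρ.ρ) := by rw [span_range_eq_top ρ h]; trivial
    induction hX using Submodule.span_induction with
    | mem x hx =>
      obtain ⟨g, rfl⟩ := hx
      rw [mul_sub, mul_one, ← map_mul, map_sub, hτ, sub_self]
    | zero => rw [zero_mul, map_zero]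
    | add x y _ _ hx hy => rw [add_mul, map_add, hx, hy, add_zero]
    | smul c x _ hx => rw [smul_mul_assoc, map_smul, hx, smul_zero]
  exact sub_eq_zero.mp (eq_zero_of_trace_mul_eq_zero _ h1)

end Local

end Fermat.Agent.GalRep

end
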