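import Fermat.Agent.GalRep.Density
import Fermat.Agent.Cofaith.ES

/-!
# S31 from S37
-/

set_option autoImplicit false

noncomputable section

open CuspForm ModularCurve

namespace Fermat.Agent.GalRep

/-- The statement S31 from the existence of specializations (S37). -/
theorem stmt31_of_specialization
    (h37 : ∀ (N p : ℕ) [NeZero N], HeckeOperatorsCommuteBar N → letI := heckeModuleBar N;
      ∀ (_ : SMulCommClass (AlgebraicClosure ℚ ≃ₐ[ℚ] AlgebraicClosure ℚ) HeckeAlg (JZero N)),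
        SpecializationExists (K := ℚ) (L := AlgebraicClosure ℚ) N p (JZero N))
    {p : ℕ} {N : ℕ} [NeZero N] {S : Finset ℕ}
    {𝒪 : Type} [CommRing 𝒪] [IsDomain 𝒪] [IsDiscreteValuationRing 𝒪]
    [IsAdicComplete (IsLocalRing.maximalIdeal 𝒪) 𝒪]
    {θ : CuspForm.heckeAlgebra N 2 (↑S : Set ℕ) →+* IsLocalRing.ResidueField 𝒪}
    {T : Type} [CommRing T] [IsLocalRing T] [IsNoetherianRing T]
    [IsAdicComplete (IsLocalRing.maximalIdeal T) T] [Algebra 𝒪 T] [IsLocalHom (algebraMap 𝒪 T)]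
    [Module.Finite 𝒪 T] [Module.Free 𝒪 T]
    (hp : p.Prime)
    (hp𝒪 : (p : 𝒪) ∈ IsLocalRing.maximalIdeal 𝒪) (hpS : p ∈ S)
    (hNS : ∀ q : ℕ, q.Prime → q ∣ N → q ∈ S)
    (H : CuspForm.HeckeGaloisRepDatum N (↑S : Set ℕ) 𝒪 θ T)
    (q : ℕ) (hq : q.Prime) (hqS : q ∉ S) :
    H.ρ.IsUnramifiedAt q := by
  letI := heckeModuleBar N
  haveI := Fermat.Agent.Cofaith.smulCommClass_JZero N
  have hJ := Fermat.Agent.Cofaith.esInput_JZero N hp (↑S : Set ℕ)
    (fun ℓ hℓ h => Finset.mem_coe.mpr (hNS ℓ hℓ h))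
    (h37 N p (Fermat.Agent.HeckeComm.heckeOperatorsCommuteBar N) inferInstance)
  exact stmt31_of_ESInput hJ hp hp𝒪 hpS hNS H q hq hqS

end Fermat.Agent.GalRep

end
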