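import Fermat.Agent.S24.Assembly

/-!
# Orders at places and embeddings: the strong form of the orbit count
-/

set_option autoImplicit false

noncomputable section

open AlgebraicCurve IsLocalRing WithZero
open scoped IntermediateField Polynomial

namespace Fermat.Agent.GalRep

open Fermat.Agent.FFOrb Fermat.Agent.FF Fermat.Agent.S24aux

variable {K F : Type*} [Field K] [Field F] [Algebra K F]

open IntermediateField.algebraAdjoinAdjoin

/-- Every place over `y = 0` comes from an embedding, with known multiplicity. -/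
theorem OrbitDatum_exists [IsAlgClosed K] [CharZero K] [IsFF K F] {y : F}
    (hy : Transcendental K y) {X : Type*} [Finite X]
    (hcard : Nat.card X = Module.finrank K⟮y⟯ F) {π : Equiv.Perm X} {L : Type*} [Field L]
    (d : OrbitDatum K y π L) (v : Place K F) (hv : 0 < v.ord y) :
    ∃ (x : X) (r : ℕ), 0 < r ∧ (π ^ r) x = x ∧
      ∀ f : F, f ≠ 0 → (r : ℤ) * d.o (d.Ψ x f) = d.o (d.Ψ x y) * v.ord f := by
  classical
  have := IsFF.finite_adjoin y hy
  obtain ⟨Ψ, hinj, hΨK, hΨy, o, o_mul, o_add, oK, oy, hπ, hdvd⟩ := d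
  have hsum := FFHur.sum_ord (K := K) (F := F) hy
  have := Fintype.ofFinite X
  have hy0 : y ≠ 0 := by
    rintro rfl
    exact hy isAlgebraic_zero
  set W := valOfOrd o o_mul o_add with hW
  have hWap : ∀ f : L, f ≠ 0 → W f = exp (-(o f)) := fun f hf => valOfOrd_apply o o_mul o_add hf
  have hne : ∀ x (f : F), f ≠ 0 → Ψ x f ≠ 0 := fun x f hf => by simpa using hf
  have hWK : ∀ x (c : K), W (Ψ x (algebraMap K F c)) ≤ 1 := by
    intro x c
    rcases eq_or_ne c 0 with rfl | hc
    · simp
    · rw [hWap _ (hne x _ (by simpa using hc)), oK x c hc]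
      simp
  have hWy : ∀ x, W (Ψ x y) < 1 := by
    intro x
    rw [hWap _ (hne x y hy0), ← exp_zero, exp_lt_exp]
    have := oy x
    omega
  -- the places attached to the embeddings
  let w : X → Valuation F ℤᵐ⁰ := fun x => W.comap (Ψ x)
  have hwK : ∀ x (a : K), w x (algebraMap K F a) ≤ 1 := fun x a => hWK x a
  have hwnt : ∀ x, ∃ f : F, f ≠ 0 ∧ w x f < 1 := fun x => ⟨y, hy0, hWy x⟩
  let pl : X → Place K F := fun x => FFOrb.placeOf (w x) (hwK x) (hwnt x)
  have hmult : ∀ x, ∃ m : ℤ, 0 < m ∧ ∀ f : F, f ≠ 0 → o (Ψ x f) = m * (pl x).ord f := by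
    intro x
    obtain ⟨m, hm, hmf⟩ := exists_mult (w x) (hwK x) (hwnt x)
    refine ⟨m, hm, fun f hf => ?_⟩
    have h1 := hmf f hf
    have h2 : w x f = exp (-(o (Ψ x f))) := hWap _ (hne x f hf)
    rw [h2, exp_inj] at h1
    have : (pl x).ord f = (FFOrb.placeOf (w x) (hwK x) (hwnt x)).ord f := rfl
    rw [this]
    omega
  have hplpos : ∀ x, 0 < (pl x).ord y := by
    intro x
    obtain ⟨m, hm, hmf⟩ := hmult x
    have h1 := oy x
    rw [hmf y hy0] at h1
    exact (mul_pos_iff_of_pos_left hm).mp h1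
  have hplπ : ∀ x, pl (π x) = pl x := by
    intro x
    have h1 : w (π x) = w x := by
      refine Valuation.ext fun f => ?_
      rcases eq_or_ne f 0 with rfl | hf
      · simp
      · show W (Ψ (π x) f) = W (Ψ x f)
        rw [hWap _ (hne _ f hf), hWap _ (hne _ f hf), hπ x f hf]
    apply Place.ext
    show (w (π x)).valuationSubring = (w x).valuationSubring
    rw [h1]
  -- surjectivity onto the places over `y = 0`
  have hX : Nonempty X := by
    by_contra hcon
    rw [not_nonempty_iff] at hcon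
    rw [Nat.card_of_isEmpty] at hcard
    exact absurd hcard.symm (Module.finrank_pos (R := K⟮y⟯) (M := F)).ne'
  obtain ⟨x0⟩ := hX
  have hagree : ∀ x (e : K⟮y⟯), Ψ x (e : F) = Ψ x0 (e : F) := by
    rintro x ⟨e, he⟩
    show Ψ x e = Ψ x0 e
    induction he using IntermediateField.adjoin_induction with
    | mem z hz => rw [Set.mem_singleton_iff.mp hz]; exact hΨy _ _
    | algebraMap c => exact hΨK _ _ _
    | add a b _ _ ha hb => rw [map_add, map_add, ha, hb]
    | inv a _ ha => rw [map_inv₀, map_inv₀, ha]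
    | mul a b _ _ ha hb => rw [map_mul, map_mul, ha, hb]
  let : Algebra K⟮y⟯ L := ((Ψ x0).comp (algebraMap K⟮y⟯ F)).toAlgebra
  let Ψ' : X → (F →ₐ[K⟮y⟯] L) := fun x =>
    { Ψ x with commutes' := fun e => hagree x e }
  have hinj' : Function.Injective Ψ' := by
    intro x x' h
    apply hinj
    ext f
    exact DFunLike.congr_fun h f
  have hsurj : ∀ v : Place K F, 0 < v.ord y → ∃ x, pl x = v := by
    intro v hv
    have := isDedekindDomain_BRing y hy
    have := isFractionRing_BRing (K := K) y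
    have hyV : y ∈ v.toValuationSubring := (FFDiff.mem_iff_ord_nonneg v hy0).mpr hv.le
    have hyv : v.adicValuation y < 1 := by
      rw [v.adicValuation_eq_exp_neg_ord hy0, ← exp_zero, exp_lt_exp]
      omega
    have hyP : ∀ x, y ∈ (pl x).toValuationSubring := fun x =>
      (FFDiff.mem_iff_ord_nonneg _ hy0).mpr (hplpos x).le
    have hcover : (center (BRing (K := K) y) v (mem_of_BRing y v hyV) : Set (BRing (K := K) y)) ⊆
        ⋃ x ∈ ((Finset.univ : Finset X) : Set X),
          (center (BRing (K := K) y) (pl x) (mem_of_BRing y (pl x) (hyP x)) :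
            Set (BRing (K := K) y)) := by
      intro b hb
      rw [SetLike.mem_coe, mem_center_iff] at hb
      obtain ⟨x, hx⟩ := exists_map_lt_one y hy Ψ' hinj'
        (by rw [← Nat.card_eq_fintype_card, hcard]) W hWK hWy v hyv b hb
      simp only [Finset.coe_univ, Set.mem_univ, Set.iUnion_true, Set.mem_iUnion, SetLike.mem_coe]
      refine ⟨x, ?_⟩
      rw [mem_center_iff]
      rcases eq_or_ne (b : F) 0 with h0 | h0
      · rw [show algebraMap (BRing (K := K) y) F b = (b : F) from rfl, h0, map_zero]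
        exact zero_lt_one
      · rw [show algebraMap (BRing (K := K) y) F b = (b : F) from rfl,
          Place.adicValuation_eq_exp_neg_ord _ h0, ← exp_zero, exp_lt_exp]
        obtain ⟨m, hm, hmf⟩ := hmult x
        have h1 : W (Ψ x b) < 1 := hx
        rw [hWap _ (hne x _ h0), ← exp_zero, exp_lt_exp, hmf _ h0] at h1
        have h2 : 0 < (pl x).ord (b : F) := (mul_pos_iff_of_pos_left hm).mp (by omega)
        omega
    rw [Ideal.subset_union_prime x0 x0 (fun i _ _ _ => center_isPrime _ _ _)] at hcover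
    obtain ⟨x, -, hx⟩ := hcover
    exact ⟨x, (place_eq_of_center_le _ _ _ _ _ hx).symm⟩
  have hfin : {v : Place K F | 0 < v.ord y}.Finite := by
    refine (Set.finite_range pl).subset fun v hv => ?_
    exact hsurj v hv
  have hfin' : Finite {v : Place K F // 0 < v.ord y} := hfin
  have := Fintype.ofFinite {v : Place K F // 0 < v.ord y}
  have := Fintype.ofFinite (MulAction.orbitRel.Quotient (Subgroup.zpowers π) X)
  -- the map from orbits to places
  have hplz : ∀ (g : Subgroup.zpowers π) (x : X), pl (g • x) = pl x := by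
    rintro ⟨g, hg⟩ x
    obtain ⟨n, rfl⟩ := hg
    show pl ((π ^ n) x) = pl x
    induction n using Int.induction_on with
    | zero => simp
    | succ n ih => rw [add_comm, zpow_one_add, Equiv.Perm.mul_apply, hplπ, ih]
    | pred n ih =>
      rw [← hplπ, ← Equiv.Perm.mul_apply, ← zpow_one_add]
      rw [show (1 : ℤ) + (-(n : ℤ) - 1) = -(n : ℤ) by ring]
      exact ih
  let Φ : MulAction.orbitRel.Quotient (Subgroup.zpowers π) X → {v : Place K F // 0 < v.ord y} :=
    Quotient.lift (fun x => ⟨pl x, hplpos x⟩) (by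
      intro a b hab
      obtain ⟨g, hg⟩ := hab
      apply Subtype.ext
      show pl a = pl b
      rw [← hg]
      exact hplz g b)
  have hΦ : Function.Surjective Φ := by
    rintro ⟨v, hv⟩
    obtain ⟨x, hx⟩ := hsurj v hv
    exact ⟨Quotient.mk'' x, Subtype.ext hx⟩
  have hper : ∀ x : X, 0 < Nat.card (MulAction.orbit (Subgroup.zpowers π) x) ∧
      (π ^ (Nat.card (MulAction.orbit (Subgroup.zpowers π) x))) x = x := by
    intro x
    refine ⟨Nat.card_pos_iff.mpr ⟨⟨⟨x, MulAction.mem_orbit_self x⟩⟩, inferInstance⟩, ?_⟩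
    have := Fintype.ofFinite (MulAction.orbit (Subgroup.zpowers π) x)
    have h1 := MulAction.minimalPeriod_eq_card π x
    rw [← Nat.card_eq_fintype_card] at h1
    have h2 : π ^ (Nat.card (MulAction.orbit (Subgroup.zpowers π) x)) • x = x := by
      rw [MulAction.pow_smul_eq_iff_minimalPeriod_dvd, h1]
    exact h2
  have horb : ∀ q : MulAction.orbitRel.Quotient (Subgroup.zpowers π) X,
      0 < (Nat.card q.orbit : ℤ) ∧ (Φ q).1.ord y ≤ (Nat.card q.orbit : ℤ) := by
    intro q
    induction q using Quotient.inductionOn' with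
    | h x =>
      rw [MulAction.orbitRel.Quotient.orbit_mk]
      have hΦx : (Φ (Quotient.mk'' x)).1 = pl x := rfl
      rw [hΦx]
      obtain ⟨m, hm, hmf⟩ := hmult x
      obtain ⟨hr0, hrx⟩ := hper x
      set r := Nat.card (MulAction.orbit (Subgroup.zpowers π) x) with hr
      obtain ⟨ϖ, hϖ⟩ := IsDiscreteValuationRing.exists_irreducible (pl x).toValuationSubring
      have hϖ0 : (ϖ : F) ≠ 0 := by
        simpa [ne_eq, ZeroMemClass.coe_eq_zero] using hϖ.ne_zero
      have h3 := hdvd x r hr0 hrx (ϖ : F) hϖ0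
      rw [hmf y hy0, hmf _ hϖ0, (pl x).ord_coe_irreducible hϖ, mul_one, mul_comm (r : ℤ)] at h3
      have h4 : (pl x).ord y ∣ (r : ℤ) := (mul_dvd_mul_iff_left hm.ne').mp h3
      exact ⟨by exact_mod_cast hr0, Int.le_of_dvd (by exact_mod_cast hr0) h4⟩
  have hcount := count_bijective Φ hΦ (fun v => v.1.ord y)
    (fun q => (Nat.card q.orbit : ℤ)) (fun q => (horb q).1) (fun q => (horb q).2) (by
      have h1 : ∑ q : MulAction.orbitRel.Quotient (Subgroup.zpowers π) X,
          (Nat.card q.orbit : ℤ) = Nat.card X := by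
        rw [Nat.card_congr (MulAction.selfEquivSigmaOrbits' (Subgroup.zpowers π) X),
          Nat.card_sigma]
        push_cast
        rfl
      have h2 : ∑ v : {v : Place K F // 0 < v.ord y}, v.1.ord y = ∑ v ∈ hfin.toFinset, v.ord y := by
        refine (Finset.sum_subtype (hfin.toFinset) (p := fun v => 0 < v.ord y) ?_
          (fun v => v.ord y)).symm
        intro v
        simp
      rw [h1, h2, hsum hfin, hcard])
  obtain ⟨x, hx⟩ := hsurj v hv
  obtain ⟨hr0, hrx⟩ := hper x
  refine ⟨x, _, hr0, hrx, fun f hf => ?_⟩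
  obtain ⟨m, hm, hmf⟩ := hmult x
  have h5 := hcount.2 (Quotient.mk'' x)
  rw [MulAction.orbitRel.Quotient.orbit_mk] at h5
  have h6 : (pl x).ord y = (Nat.card (MulAction.orbit (Subgroup.zpowers π) x) : ℤ) := h5
  show _ * o (Ψ x f) = o (Ψ x y) * v.ord f
  rw [← h6, ← hx, hmf f hf, hmf y hy0]
  ring

/-- Divisibility of orders from roots of the images. -/
theorem dvd_ord_of_orbitDatum [IsAlgClosed K] [CharZero K] [IsFF K F] {y : F}
    (hy : Transcendental K y) {X : Type*} [Finite X]
    (hcard : Nat.card X = Module.finrank K⟮y⟯ F) {π : Equiv.Perm X} {L : Type*} [Field L]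
    (d : OrbitDatum K y π L) {n : ℕ} {h : F} (h0 : h ≠ 0)
    (hroot : ∀ (x : X) (r : ℕ), 0 < r → (π ^ r) x = x →
      d.o (d.Ψ x y) * (n : ℤ) ∣ r * d.o (d.Ψ x h))
    (v : Place K F) (hv : 0 < v.ord y) : (n : ℤ) ∣ v.ord h := by
  obtain ⟨x, r, hr, hrx, hf⟩ := OrbitDatum_exists hy hcard d v hv
  have h1 := hroot x r hr hrx
  rw [hf h h0] at h1
  exact (mul_dvd_mul_iff_left (d.oy x).ne').mp h1

end Fermat.Agent.GalRep
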