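import Fermat.Agent.GalRep.JZ4_Rel
import Fermat.Agent.HeckePar.Input

/-!
# Hecke operators on functions with character
-/

set_option autoImplicit false

open UpperHalfPlane Function Filter Topology ModularForm CongruenceSubgroup Asymptotics
open Matrix.SpecialLinearGroup
open scoped Manifold MatrixGroups

noncomputable section

namespace Fermat.Agent.GalRep

open Fermat.Agent.X0Emb Fermat.Agent.ModFun AlgebraicCurve ModularCurve Fermat.Agent.HeckePar

local notation "𝕢" => Periodic.qParam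
local notation "K" => AlgebraicClosure ℚ

variable {N : ℕ}

theorem hrep_det_pos {p : ℕ} (x : Option (ZMod p)) : 0 < ((hrep p x).det : ℝ) := by
  cases x with
  | none => exact ModularForm.det_heckeDiagMatrix_pos p
  | some j => exact ModularForm.det_heckeMatrix_pos p _

/-- the imaginary part of `hrep x • τ` is a fixed positive multiple of the one of `τ`. -/
theorem exists_im_hrep {p : ℕ} (hp : p ≠ 0) (x : Option (ZMod p)) :
    ∃ c : ℝ, 0 < c ∧ c ≤ p ∧ ∀ τ : ℍ, (hrep p x • τ).im = c * τ.im := by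
  have hp1 : (1 : ℝ) ≤ p := by exact_mod_cast Nat.one_le_iff_ne_zero.mpr hp
  have hp0 : (0 : ℝ) < p := lt_of_lt_of_le one_pos hp1
  cases x with
  | none =>
    refine ⟨p, hp0, le_rfl, fun τ => ?_⟩
    have h := congrArg Complex.im (ModularForm.coe_heckeDiagMatrix_smul hp τ)
    refine h.trans ?_
    simp
  | some j =>
    refine ⟨(p : ℝ)⁻¹, by positivity, (inv_le_one_of_one_le₀ hp1).trans hp1, fun τ => ?_⟩
    have h := congrArg Complex.im (ModularForm.coe_heckeMatrix_smul hp j.val τ)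
    rw [Complex.div_natCast_im] at h
    have h2 : (hrep p (some j) • τ).im = τ.im / p := by
      refine h.trans ?_
      simp
    rw [h2]
    ring

theorem tendsto_hrep {p : ℕ} (hp : p ≠ 0) (x : Option (ZMod p)) :
    Tendsto (fun τ : ℍ => hrep p x • τ) atImInfty atImInfty := by
  obtain ⟨c, hc, -, him⟩ := exists_im_hrep hp x
  rw [atImInfty, tendsto_comap_iff]
  have h1 : (im ∘ fun τ : ℍ => hrep p x • τ) = fun τ : ℍ => c * τ.im := funext him
  rw [h1]
  exact tendsto_comap.const_mul_atTop hc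

theorem growthInf_hrep {p : ℕ} (hp : p ≠ 0) (x : Option (ZMod p)) {F : ℍ → ℂ} (hF : GrowthInf F) :
    GrowthInf (fun τ => F (hrep p x • τ)) := by
  obtain ⟨m, hm⟩ := hF
  obtain ⟨c, hc, hcp, him⟩ := exists_im_hrep hp x
  refine ⟨m * p, (hm.comp_tendsto (tendsto_hrep hp x)).trans (IsBigO.of_norm_le fun τ => ?_)⟩
  simp only [comp_apply, him]
  rw [Real.norm_of_nonneg (Real.exp_pos _).le]
  refine Real.exp_le_exp.mpr ?_
  push_cast
  rw [mul_assoc]
  refine mul_le_mul_of_nonneg_left ?_ (Nat.cast_nonneg m)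
  exact mul_le_mul_of_nonneg_right hcp τ.im_pos.le

theorem modGrowth_hrep {p : ℕ} (hp : p.Prime) (x : Option (ZMod p)) {F : ℍ → ℂ}
    (hF : ModGrowth F) : ModGrowth (fun τ => F (hrep p x • τ)) := by
  have : Fact p.Prime := ⟨hp⟩
  intro σ
  have hx : ¬ p ∣ 1 := fun h => hp.one_lt.ne' (Nat.dvd_one.mp h)
  have hσ : σ ∈ Gamma0 1 := by
    rw [Gamma0_mem]
    exact Subsingleton.elim _ _
  obtain ⟨y, c, hyc⟩ := exists_act (N := 1) hp ⟨σ, hσ⟩ ⟨x, fun h => absurd h hx⟩
  have h1 : ∀ τ : ℍ, F (hrep p x • (σ • τ)) = F ((c : SL(2, ℤ)) • (hrep p y.1 • τ)) := by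
    intro τ
    have h2 : hrep p x • (σ • τ) = (c : SL(2, ℤ)) • (hrep p y.1 • τ) := by
      have h3 : ∀ (g : SL(2, ℤ)) (z : ℍ), g • z = (mapGL ℝ g) • z := fun g z => rfl
      rw [h3, h3, ← mul_smul, ← mul_smul]
      exact congrArg (· • τ) hyc
    rw [h2]
  have h4 : GrowthInf (fun τ => F (hrep p x • (σ • τ))) := by
    simp only [h1]
    exact growthInf_hrep hp.ne_zero y.1 (F := fun τ => F ((c : SL(2, ℤ)) • τ)) (hF c)
  exact h4

theorem mdiff_hrep {p : ℕ} (x : Option (ZMod p)) {F : ℍ → ℂ} (hF : MDiff F) :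
    MDiff (fun τ => F (hrep p x • τ)) :=
  hF.comp (mdifferentiable_smul (hrep_det_pos x))

/-- The multiplicative Hecke operator on functions with character. -/
theorem HasChar.mulOp [NeZero N] {p : ℕ} [hp : Fact p.Prime] {χ : Gamma0 N →* ℂˣ} {g : ℍ → ℂ}
    (hg : HasChar N χ g) :
    HasChar N ((heckeSys N p).transfer χ) ((heckeSys N p).mulOp g) where
  mdiff := by
    have h : (heckeSys N p).mulOp g = ∏ x : HIdx N p, fun τ => g (hrep p x.1 • τ) := by
      funext τ
      rw [Finset.prod_apply]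
      rfl
    rw [h]
    rw [← mem_Hol]
    exact prod_mem fun x _ => mdiff_hrep x.1 hg.mdiff
  growth := by
    have h : (heckeSys N p).mulOp g = ∏ x : HIdx N p, fun τ => g (hrep p x.1 • τ) := by
      funext τ
      rw [Finset.prod_apply]
      rfl
    rw [h]
    exact ModGrowth.prod _ fun x _ => modGrowth_hrep hp.out x.1 hg.growth
  smul γ τ := (heckeSys N p).mulOp_smul χ (Units.coeHom ℂ) g (fun γ' τ' => hg.smul γ' τ') γ τ

end Fermat.Agent.GalRep
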