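import Fermat.Agent.GalRep.JZ4_Bridge
import Fermat.Agent.EisChar.Descent

/-!
# Existence of algebraic functions with a given character
-/

set_option autoImplicit false

open UpperHalfPlane Function Filter Topology ModularForm CongruenceSubgroup Asymptotics
open Matrix.SpecialLinearGroup
open scoped Manifold MatrixGroups

noncomputable section

namespace Fermat.Agent.GalRep

open Fermat.Agent.X0Emb Fermat.Agent.ModFun AlgebraicCurve ModularCurve

local notation "K" => AlgebraicClosure ℚ
local notation "𝕢" => Periodic.qParam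

variable {N : ℕ}

/-- `1/Δ` has at most exponential growth. -/
theorem growthInf_inv_discriminant : GrowthInf (fun τ => (discriminant τ)⁻¹) := by
  have h1 : Tendsto (fun τ : ℍ => ∏' (n : ℕ), (1 - eta_q n τ) ^ 24) atImInfty (𝓝 1) :=
    tendsto_atImInfty_tprod_one_sub_eta_q_pow
  have h2 : GrowthInf (fun τ : ℍ => (∏' (n : ℕ), (1 - eta_q n τ) ^ 24)⁻¹) := by
    refine GrowthInf.of_bounded ?_
    exact (h1.inv₀ one_ne_zero).isBigO_one ℝ
  have h3 : GrowthInf (fun τ : ℍ => (𝕢 1 (τ : ℂ))⁻¹) := by
    have h4 := LExp_growthInf one_pos (LExp.single 1 (-1) 1)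
    simpa using! h4
  have h5 := h3.mul h2
  convert h5 using 1
  funext τ
  rw [discriminant_eq_q_prod, mul_inv]
  rfl

/-- Quotients by `Δ` of forms of weight `12` with character. -/
theorem hasChar_of_charForm {χ : Gamma0 N →* ℂˣ} {f : ℍ → ℂ}
    (hf : Fermat.Agent.EisChar.CharForm (Gamma0 N) χ 12 f) :
    HasChar N χ (fun τ => f τ / discriminant τ) where
  mdiff := by
    have h1 : MDiff (discriminant : ℍ → ℂ) := Fermat.Agent.JLevelOne.mdiff_discriminant
    have h2 := hf.holo
    rw [UpperHalfPlane.mdifferentiable_iff] at h1 h2 ⊢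
    refine (h2.div h1 fun z hz => discriminant_ne_zero _).congr fun z hz => ?_
    rfl
  growth := by
    intro σ
    have h1 : (fun τ : ℍ => f (σ • τ) / discriminant (σ • τ)) =
        (f ∣[(12 : ℤ)] σ) * (fun τ => (discriminant τ)⁻¹) := by
      funext τ
      rw [Pi.mul_apply, SL_slash_apply, Fermat.Agent.JLevelOne.discriminant_smul]
      have hd : denom σ τ ≠ 0 := denom_ne_zero _ τ
      have h0 := discriminant_ne_zero τ
      field_simp
    have h2 : GrowthInf (fun τ : ℍ => f (σ • τ) / discriminant (σ • τ)) := by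
      rw [h1]
      exact (GrowthInf.of_bounded (hf.bdd σ)).mul growthInf_inv_discriminant
    exact h2
  smul γ τ := by
    have h1 := congrFun (hf.slash γ) τ
    rw [SL_slash_apply, Pi.smul_apply, smul_eq_mul] at h1
    have hd : denom (γ : SL(2, ℤ)) τ ≠ 0 := denom_ne_zero _ τ
    have h0 := discriminant_ne_zero τ
    have h2 : f ((γ : SL(2, ℤ)) • τ) = (χ γ : ℂ) * f τ * denom (γ : SL(2, ℤ)) τ ^ (12 : ℤ) := by
      rw [← h1]
      field_simp
    show f _ / discriminant _ = _
    rw [h2, Fermat.Agent.JLevelOne.discriminant_smul]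
    field_simp

/-- algebraic numbers are in the image of `ι`. -/
theorem exists_of_isAlgebraic (ι : K →+* ℂ) {z : ℂ} (hz : IsAlgebraic ℚ z) : ∃ a : K, ι a = z := by
  letI : Algebra K ℂ := ι.toAlgebra
  haveI : IsScalarTower ℚ K ℂ := IsScalarTower.of_algebraMap_eq fun q => by
    rw [eq_ratCast, eq_ratCast]
    exact (map_ratCast ι q).symm
  have h1 : IsAlgebraic K z := hz.tower_top K
  exact minpoly.mem_range_of_degree_eq_one K z
    (IsAlgClosed.degree_eq_one_of_irreducible K (minpoly.irreducible h1.isIntegral))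

theorem exists_powerSeries_map (ι : K →+* ℂ) {P : PowerSeries ℂ}
    (hP : ∀ m, IsAlgebraic ℚ (P.coeff m)) : ∃ P0 : PowerSeries K, P0.map ι = P := by
  choose a ha using fun m => exists_of_isAlgebraic ι (hP m)
  exact ⟨PowerSeries.mk a, by ext m; simp [ha]⟩

theorem coeffMap_ofPowerSeries' {R S : Type*} [CommRing R] [CommRing S] (φ : R →+* S)
    (P : PowerSeries R) : coeffMap φ (HahnSeries.ofPowerSeries ℤ R P) =
      HahnSeries.ofPowerSeries ℤ S (P.map φ) := by
  ext k
  rw [coeffMap_coeff]
  rcases lt_or_ge k 0 with hk | hk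
  · rw [ofPowerSeries_coeff_of_neg _ hk, ofPowerSeries_coeff_of_neg _ hk, map_zero]
  · obtain ⟨n, rfl⟩ := Int.eq_ofNat_of_zero_le hk
    rw [HahnSeries.ofPowerSeries_apply_coeff, HahnSeries.ofPowerSeries_apply_coeff,
      PowerSeries.coeff_map]

/-- the Laurent series of `Δ` over `ℚ̄`. -/
def DK : LaurentSeries K := HahnSeries.single 1 1 *
  HahnSeries.ofPowerSeries ℤ K (ModularCurve.dedekindEtaUnit.map (Int.castRingHom K))

theorem coeffMap_DK (ι : K →+* ℂ) : coeffMap ι DK =
    HahnSeries.single 1 1 * toLC ModularCurve.dedekindEtaUnit := by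
  rw [DK, map_mul, coeffMap_single, map_one, coeffMap_ofPowerSeries', toLC, RingHom.comp_apply]
  congr 2
  ext m
  simp

theorem lexp_discriminant' (ι : K →+* ℂ) : LExp 1 discriminant (coeffMap ι DK) := by
  rw [coeffMap_DK]
  exact lexp_discriminant

/-- Algebraicity of the expansion of `f / Δ`. -/
theorem exists_lexp_div (ι : K →+* ℂ) {χ : Gamma0 N →* ℂˣ} {f : ℍ → ℂ}
    (hf : Fermat.Agent.EisChar.CharForm (Gamma0 N) χ 12 f) (hT : χ (TG N) = 1)
    (halg : ∀ m, IsAlgebraic ℚ ((qExpansion 1 f).coeff m)) :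
    ∃ G0 : LaurentSeries K, LExp 1 (fun τ => f τ / discriminant τ) (coeffMap ι G0) := by
  have hg := hasChar_of_charForm hf
  obtain ⟨G, hG⟩ := hg.exists_lexp (fun τ => by rw [← TG_smul N τ, hg.smul, hT]; simp)
  have h1 := hG.mul (lexp_discriminant' ι)
  have h2 : (fun τ => f τ / discriminant τ) * discriminant = f := by
    funext τ
    exact div_mul_cancel₀ _ (discriminant_ne_zero τ)
  rw [h2] at h1
  obtain ⟨P0, hP0⟩ := exists_powerSeries_map ι halg
  have hfT : ∀ τ : ℍ, f ((1 : ℝ) +ᵥ τ) = f τ := by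
    intro τ
    have h3 := hg.smul (TG N) τ
    rw [hT, Units.val_one, one_mul, TG_smul] at h3
    have h4 : discriminant ((1 : ℝ) +ᵥ τ) = discriminant τ := by
      rw [← TG_smul N τ, Fermat.Agent.JLevelOne.discriminant_smul]
      have : denom ((TG N : Gamma0 N) : SL(2, ℤ)) τ = 1 := by
        simp [TG, denom, ModularGroup.T]
      rw [this]
      simp
    rw [h4] at h3
    exact (div_left_inj' (discriminant_ne_zero τ)).mp h3
  have hper : Function.Periodic (f ∘ ofComplex) (1 : ℝ) := by
    intro w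
    by_cases hw : 0 < w.im
    · have hw' : 0 < (w + (1 : ℝ)).im := by simpa using hw
      simp only [comp_apply, ofComplex_apply_of_im_pos hw', ofComplex_apply_of_im_pos hw]
      have h1 : (⟨w + (1 : ℝ), hw'⟩ : ℍ) = (1 : ℝ) +ᵥ (⟨w, hw⟩ : ℍ) := by
        ext1
        simp [add_comm]
      rw [h1, hfT]
    · have hw' : ¬ 0 < (w + (1 : ℝ)).im := by simpa using hw
      rw [not_lt] at hw hw'
      simp only [comp_apply, ofComplex_apply_of_im_nonpos hw', ofComplex_apply_of_im_nonpos hw]
  have hbdd : IsBoundedAtImInfty f := by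
    have := hf.bdd 1
    rwa [SlashAction.slash_one] at this
  have h5 : LExp 1 f (HahnSeries.ofPowerSeries ℤ ℂ (qExpansion 1 f)) := by
    refine LExp.of_hasSum fun τ => ?_
    have := UpperHalfPlane.hasSum_qExpansion (h := 1) one_pos (by simpa using hper) hf.holo hbdd τ
    simpa using this
  rw [← hP0, ← coeffMap_ofPowerSeries'] at h5
  have h6 := h1.unique one_pos h5
  have h7 : coeffMap ι DK ≠ 0 := by
    intro h0
    have h8 := lexp_discriminant' ι
    rw [h0] at h8
    have h9 := h8.funext (LExp.zero 1)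
    exact discriminant_ne_zero UpperHalfPlane.I (congrFun h9 _)
  refine ⟨HahnSeries.ofPowerSeries ℤ K P0 / DK, ?_⟩
  have h8 : G = coeffMap ι (HahnSeries.ofPowerSeries ℤ K P0 / DK) := by
    rw [map_div₀, ← h6, mul_div_cancel_right₀ _ h7]
  rw [← h8]
  exact hG

end Fermat.Agent.GalRep
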