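import Fermat.Agent.GalRep.JZ2_Orbit
import Fermat.Agent.GalRep.JZ7_Char
import Fermat.Agent.X0Emb.EmbData
import Fermat.Agent.S24.Final
import Fermat.Agent.TEll.Inputs

/-!
# Divisibility of the orders of `g ^ n`
-/

set_option autoImplicit false

open UpperHalfPlane Function Filter Topology ModularForm CongruenceSubgroup
open scoped Manifold MatrixGroups IntermediateField

noncomputable section

namespace Fermat.Agent.GalRep

open Fermat.Agent.X0Emb Fermat.Agent.X0Deg Fermat.Agent.ModFun Fermat.Agent.S24aux AlgebraicCurve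
open ModularCurve ModularCurve.Period Fermat.Agent.FF

local notation "K" => AlgebraicClosure ℚ
local notation "𝕢" => Periodic.qParam

variable {N : ℕ}

/-- Characters of `Γ₀(N)` trivial on parabolic and on torsion elements. -/
structure ParChar (N : ℕ) (χ : Gamma0 N →* ℂˣ) : Prop where
  par : ∀ γ : Gamma0 N, ((γ : SL(2, ℤ)) : Matrix (Fin 2) (Fin 2) ℤ).trace ^ 2 = 4 → χ γ = 1
  fin : ∀ (γ : Gamma0 N) (m : ℕ), m ≠ 0 → γ ^ m = 1 → χ γ = 1

theorem parChar_charOf (n : ℕ) {φ : Additive (Gamma0 N) →+ ℤ}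
    (hφ : IsParabolicHom (Gamma0 N) φ) : ParChar N (charOf n φ) where
  par γ hγ := charOf_parabolic n hφ γ hγ
  fin γ m hm hγ := charOf_of_pow n φ hm (by rw [hγ]; simp)

section

variable {χ : Gamma0 N →* ℂˣ} {g : Hol}

/-- invariance under conjugates. -/
theorem smul_smul_of_conj (hg : HasChar N χ g) {σ t : SL(2, ℤ)}
    (ht : σ⁻¹ * t * σ ∈ Gamma0 N) (hχ : χ ⟨σ⁻¹ * t * σ, ht⟩ = 1) :
    t • (σ • g) = σ • g := by
  have h1 : t * σ = σ * (σ⁻¹ * t * σ) := by group
  rw [smul_smul, h1, ← smul_smul]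
  congr 1
  ext τ
  rw [Hol.smul_apply]
  have h2 := hg.smul (⟨σ⁻¹ * t * σ, ht⟩ : Gamma0 N)⁻¹ τ
  rw [map_inv, hχ, inv_one, Units.val_one, one_mul] at h2
  exact h2

theorem mk_eq_iff {σ t : SL(2, ℤ)} :
    t • (QuotientGroup.mk σ : XX N) = QuotientGroup.mk σ ↔ σ⁻¹ * t * σ ∈ Gamma0 N := by
  have h1 : t • (QuotientGroup.mk σ : XX N) = QuotientGroup.mk (t * σ) := rfl
  rw [h1, eq_comm, QuotientGroup.eq, mul_assoc]

variable [NeZero N]

/-- the image of a holomorphic modular function under the embeddings. -/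
theorem embM_eq {h : modularFunctionFieldBar N} {F : Hol}
    (hF : LExp 1 F (coeffMap iota (h : LaurentSeries K))) (σ : SL(2, ℤ)) :
    (embData N).embM (QuotientGroup.mk σ) h = algebraMap Hol MerH (σ • F) := by
  obtain ⟨a, b, hb, hab⟩ := (embData N).frac h
  have h1 : F * ev N b = ev N a := by
    refine lexp_hol_unique (hF.mul (lexp_ev b)) ?_
    rw [← map_mul]
    have h2 := lexp_ev a
    rw [← hab] at h2
    exact h2
  have h3 : (embData N).embM (QuotientGroup.mk σ) (b : modularFunctionFieldBar N) =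
      algebraMap Hol MerH (σ • ev N b) := by
    rw [EmbData.embM_coe]
    exact congrArg _ (embA_mk σ b)
  have h4 : (embData N).embM (QuotientGroup.mk σ) (a : modularFunctionFieldBar N) =
      algebraMap Hol MerH (σ • ev N a) := by
    rw [EmbData.embM_coe]
    exact congrArg _ (embA_mk σ a)
  have h5 := congrArg ((embData N).embM (QuotientGroup.mk σ)) hab
  rw [map_mul, h3, h4, ← h1, smul_mul', map_mul] at h5
  refine mul_right_cancel₀ ?_ h5
  refine aM_ne_zero (smul_ne_zero_hol σ ?_)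
  intro h0
  have h6 : ev N b = ev N (0 : AA N) := h0.trans (map_zero _).symm
  exact hb (ev_injective N h6)

/-- the expansion of a holomorphic modular function at the cusps. -/
theorem embInf_eq {h : modularFunctionFieldBar N} {F : Hol}
    (hF : LExp 1 F (coeffMap iota (h : LaurentSeries K))) (σ : SL(2, ℤ)) {G : LaurentSeries ℂ}
    (hG : LExp N (σ • F : Hol) G) :
    (embData N).embInf (QuotientGroup.mk σ) h = G := by
  obtain ⟨a, b, hb, hab⟩ := (embData N).frac h
  have h1 : F * ev N b = ev N a := by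
    refine lexp_hol_unique (hF.mul (lexp_ev b)) ?_
    rw [← map_mul]
    have h2 := lexp_ev a
    rw [← hab] at h2
    exact h2
  have h3 : LExp N (σ • ev N b : Hol) ((embData N).embInf (QuotientGroup.mk σ)
      (b : modularFunctionFieldBar N)) := by
    have := (embData N).embInf_lexp (QuotientGroup.mk σ) b
    rw [← embA_mk]
    exact this
  have h4 : LExp N (σ • ev N a : Hol) ((embData N).embInf (QuotientGroup.mk σ)
      (a : modularFunctionFieldBar N)) := by
    have := (embData N).embInf_lexp (QuotientGroup.mk σ) a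
    rw [← embA_mk]
    exact this
  have h5 := congrArg ((embData N).embInf (QuotientGroup.mk σ)) hab
  rw [map_mul] at h5
  have h6 : LExp N (σ • ev N a : Hol) (G * (embData N).embInf (QuotientGroup.mk σ)
      (b : modularFunctionFieldBar N)) := by
    rw [← h1, smul_mul']
    exact hG.mul h3
  have h7 := h6.unique (natCast_pos_real N) h4
  rw [← h5] at h7
  refine (mul_right_cancel₀ ?_ h7).symm
  refine embInf_ne_zero _ _ fun h0 => hb (Subtype.ext h0)

theorem finite_card : Nat.card (XX N) = Module.finrank K⟮(embData N).jF⟯ (modularFunctionFieldBar N) := by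
  have := Fintype.ofFinite (SL(2, ℤ) ⧸ CongruenceSubgroup.Gamma0 N)
  exact (embData N).finrank_eq.symm

/-- The divisibility at a finite point `j = a`. -/
theorem dvd_ord_datum (hg : HasChar N χ g) {n : ℕ} {h : modularFunctionFieldBar N} (h0 : h ≠ 0)
    (hgn : LExp 1 ((g : ℍ → ℂ) ^ n) (coeffMap iota (h : LaurentSeries K)))
    (τ0 : ℍ) (t : SL(2, ℤ)) (ht : t • τ0 = τ0) (a : K) (m : ℕ) (hm0 : 0 < m)
    (hm : ordH τ0 (Fermat.Agent.X0Deg.jH - constHol (iota a)) = m)
    (hdvd : ∀ (f : MerH) (r : ℕ), f ≠ 0 → t ^ r • f = f → (m : ℤ) ∣ r * ordAt τ0 f)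
    (hχ : ∀ (σ : SL(2, ℤ)) (r : ℕ) (hr : σ⁻¹ * t ^ r * σ ∈ Gamma0 N),
      χ ⟨σ⁻¹ * t ^ r * σ, hr⟩ = 1)
    (v : Place K (modularFunctionFieldBar N))
    (hv : 0 < v.ord ((embData N).jF - algebraMap K (modularFunctionFieldBar N) a)) :
    (n : ℤ) ∣ v.ord h := by
  have hcard : Nat.card (XX N) = Module.finrank
      K⟮(embData N).jF - algebraMap K (modularFunctionFieldBar N) a⟯ (modularFunctionFieldBar N) := by
    rw [FFFund.finrank_of_eq (FFFund.adjoin_sub_algebraMap (embData N).jF a), finite_card]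
  refine dvd_ord_of_orbitDatum (FFFund.transcendental_sub (embData N).transcendental_jF a) hcard
    (datum (embData N) τ0 t ht a m hm0 hm hdvd) h0 ?_ v hv
  intro x r hr hx
  obtain ⟨σ, rfl⟩ := QuotientGroup.mk_surjective x
  rw [toPerm_pow, mk_eq_iff] at hx
  have hinv := smul_smul_of_conj hg hx (hχ σ r hx)
  have h1 : (embData N).embM (QuotientGroup.mk σ) h = (algebraMap Hol MerH (σ • g)) ^ n := by
    rw [embM_eq (F := g ^ n) hgn σ, smul_pow', map_pow]
  have hne : (embData N).embM (QuotientGroup.mk σ) h ≠ 0 := embM_ne_zero _ _ h0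
  have h2 : ordAt τ0 ((embData N).embM (QuotientGroup.mk σ) h) =
      n * ordAt τ0 (algebraMap Hol MerH (σ • g)) := by
    rcases Nat.eq_zero_or_pos n with rfl | hn
    · rw [h1, pow_zero]
      simp [ordAt]
    · have hne' : algebraMap Hol MerH (σ • g) ≠ 0 := by
        intro h3
        rw [h1, h3, zero_pow hn.ne'] at hne
        exact hne rfl
      rw [h1]
      clear h1 hne hgn hn
      induction n with
      | zero => simp [ordAt]
      | succ n ih =>
        rw [pow_succ, ordAt_mul _ _ _ (pow_ne_zero _ hne') hne', ih]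
        push_cast
        ring
  have h3 : ordAt τ0 ((embData N).embM (QuotientGroup.mk σ)
      ((embData N).jF - algebraMap K (modularFunctionFieldBar N) a)) = m := by
    have h1 : Fermat.Agent.X0Deg.jH - constHol (iota a) ≠ 0 := by
      intro h
      rw [h, ordH_zero] at hm
      exact ENat.top_ne_natCast m hm
    refine (congrArg (ordAt τ0) (embM_jF_sub (embData N) (QuotientGroup.mk σ) a)).trans ?_
    refine (ordAt_algebraMap τ0 h1).trans ?_
    rw [hm, ENat.toNat_natCast]
  show ordAt τ0 ((embData N).embM (QuotientGroup.mk σ)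
      ((embData N).jF - algebraMap K (modularFunctionFieldBar N) a)) * (n : ℤ) ∣
    r * ordAt τ0 ((embData N).embM (QuotientGroup.mk σ) h)
  rw [h3, h2]
  rcases Nat.eq_zero_or_pos n with rfl | hn
  · simp
  have hne' : algebraMap Hol MerH (σ • g) ≠ 0 := by
    intro h3
    rw [h1, h3, zero_pow hn.ne'] at hne
    exact hne rfl
  have h6 := hdvd (algebraMap Hol MerH (σ • g)) r hne' (by rw [smul_algebraMap_merH, hinv])
  have h7 : (r : ℤ) * (n * ordAt τ0 (algebraMap Hol MerH (σ • g))) =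
      (r * ordAt τ0 (algebraMap Hol MerH (σ • g))) * n := by ring
  rw [h7]
  exact mul_dvd_mul_right h6 _

/-! ### infinity -/

theorem conj_T_pow_mem (σ : SL(2, ℤ)) : σ⁻¹ * ModularGroup.T ^ N * σ ∈ Gamma0 N := by
  have h1 : σ⁻¹ * ModularGroup.T ^ N * σ ∈ Gamma N := by
    have h2 : ModularGroup.T ^ N ∈ Gamma N := by
      rw [Gamma_mem]
      have h3 : ((ModularGroup.T ^ N : SL(2, ℤ)) : Matrix (Fin 2) (Fin 2) ℤ) = !![1, (N : ℤ); 0, 1] := by
        have := ModularGroup.coe_T_zpow (N : ℤ)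
        rw [zpow_natCast] at this
        exact this
      rw [h3]
      simp
    have h4 := (Gamma_normal N).conj_mem _ h2 σ⁻¹
    rwa [inv_inv] at h4
  rw [Gamma_mem] at h1
  rw [Gamma0_mem]
  exact h1.2.2.1

theorem trace_conj_T_pow (σ : SL(2, ℤ)) (r : ℕ) :
    ((σ⁻¹ * ModularGroup.T ^ r * σ : SL(2, ℤ)) : Matrix (Fin 2) (Fin 2) ℤ).trace ^ 2 = 4 := by
  rw [Matrix.SpecialLinearGroup.coe_mul, Matrix.SpecialLinearGroup.coe_mul, mul_assoc,
    Matrix.trace_mul_comm, mul_assoc, ← Matrix.SpecialLinearGroup.coe_mul, mul_inv_cancel,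
    Matrix.SpecialLinearGroup.coe_one, mul_one]
  have := ModularGroup.coe_T_zpow (r : ℤ)
  rw [zpow_natCast] at this
  rw [this, Matrix.trace_fin_two]
  simp

theorem lexp_T_pow {f : Hol} {G : LaurentSeries ℂ} (hf : LExp N f G) (r : ℕ) :
    LExp N (ModularGroup.T ^ r • f : Hol) (twist ((zetaU 1 N)⁻¹ ^ r) G) := by
  induction r with
  | zero => simpa [Fermat.Agent.X0Emb.twist_one] using hf
  | succ r ih =>
    have h1 := EmbData.LExp.T_smul ih
    rw [smul_smul, ← pow_succ'] at h1
    convert h1 using 1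
    ext n
    simp only [twist_coeff]
    rw [← mul_assoc, ← Units.val_mul, ← mul_zpow, ← pow_succ']

theorem dvd_order_of_T_pow {f : Hol} {G : LaurentSeries ℂ} (hf : LExp N f G) (hG : G ≠ 0) {r : ℕ}
    (hr : ModularGroup.T ^ r • f = f) : (N : ℤ) ∣ r * G.order := by
  have h0 := lexp_T_pow hf r
  rw [hr] at h0
  have h1 := hf.unique (natCast_pos_real N) h0
  have h2 := congrArg (fun z : LaurentSeries ℂ => z.coeff G.order) h1
  simp only [twist_coeff] at h2
  have h3 : G.coeff G.order ≠ 0 := cone hG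
  have h4 : ((((zetaU 1 N)⁻¹ ^ r) ^ G.order : ℂˣ) : ℂ) = 1 := by
    apply mul_right_cancel₀ h3
    rw [one_mul]; exact h2.symm
  have h5 : (zetaU 1 N) ^ ((r : ℤ) * G.order) = 1 := by
    have h6 : ((zetaU 1 N)⁻¹ ^ r) ^ G.order = 1 := Units.ext h4
    rw [← zpow_natCast, ← zpow_mul, inv_zpow, inv_eq_one] at h6
    exact h6
  have h6 : IsPrimitiveRoot (zetaU 1 N) N := by
    rw [← IsPrimitiveRoot.coe_units_iff]
    have := Complex.isPrimitiveRoot_exp N (NeZero.ne N)
    simpa [zetaU] using this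
  exact (h6.zpow_eq_one_iff_dvd _).mp h5

/-- expansions of `g` at all the cusps. -/
theorem HasChar.exists_lexp_smul (hg : HasChar N χ g) (hχ : ParChar N χ) (σ : SL(2, ℤ)) :
    ∃ G : LaurentSeries ℂ, LExp N (σ • g : Hol) G := by
  have hinv : ModularGroup.T ^ N • (σ • g) = σ • g :=
    smul_smul_of_conj hg (conj_T_pow_mem σ) (hχ.par _ (trace_conj_T_pow σ N))
  obtain ⟨m, hm⟩ := hg.growth σ⁻¹
  refine GalRep.exists_lexp (natCast_pos_real N) ?_ (Hol.mdiff _) hm
  have hT : ∀ τ : ℍ, (σ • g) ((N : ℝ) +ᵥ τ) = (σ • g) τ := by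
    intro τ
    have h1 := congrArg (fun u : Hol => u (ModularGroup.T ^ N • τ)) hinv
    simp only [Hol.smul_apply] at h1
    rw [inv_smul_smul] at h1
    have h2 := UpperHalfPlane.modular_T_zpow_smul τ N
    rw [zpow_natCast] at h2
    rw [h2] at h1
    simp only [Hol.smul_apply]
    rw [h1]
    simp
  intro w
  by_cases hw : 0 < w.im
  · have hw' : 0 < (w + ((N : ℝ) : ℂ)).im := by simpa using hw
    simp only [comp_apply, ofComplex_apply_of_im_pos hw', ofComplex_apply_of_im_pos hw]
    have h1 : (⟨w + ((N : ℝ) : ℂ), hw'⟩ : ℍ) = (N : ℝ) +ᵥ (⟨w, hw⟩ : ℍ) := by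
      ext1
      simp [add_comm]
    rw [h1, hT]
  · have hw' : ¬ 0 < (w + ((N : ℝ) : ℂ)).im := by simpa using hw
    rw [not_lt] at hw hw'
    simp only [comp_apply, ofComplex_apply_of_im_nonpos hw', ofComplex_apply_of_im_nonpos hw]

/-- The divisibility at infinity. -/
theorem dvd_ord_inf (hg : HasChar N χ g) (hχ : ParChar N χ) {n : ℕ}
    {h : modularFunctionFieldBar N} (h0 : h ≠ 0)
    (hgn : LExp 1 ((g : ℍ → ℂ) ^ n) (coeffMap iota (h : LaurentSeries K)))
    (v : Place K (modularFunctionFieldBar N)) (hv : 0 < v.ord (embData N).jF⁻¹) :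
    (n : ℤ) ∣ v.ord h := by
  have hcard : Nat.card (XX N) = Module.finrank
      K⟮(embData N).jF⁻¹⟯ (modularFunctionFieldBar N) := by
    rw [FFFund.finrank_of_eq (FFFund.mem_or_inv_mem_adjoin (embData N).jF), finite_card]
  refine dvd_ord_of_orbitDatum (FFFund.transcendental_inv (embData N).transcendental_jF) hcard
    (datumInf (embData N)) h0 ?_ v hv
  intro x r hr hx
  obtain ⟨σ, rfl⟩ := QuotientGroup.mk_surjective x
  rw [toPerm_pow, mk_eq_iff] at hx
  have hinv := smul_smul_of_conj hg hx (hχ.par _ (trace_conj_T_pow σ r))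
  obtain ⟨G, hG⟩ := hg.exists_lexp_smul hχ σ
  have h1 : (embData N).embInf (QuotientGroup.mk σ) h = G ^ n := by
    refine embInf_eq (F := g ^ n) hgn σ ?_
    rw [smul_pow']
    exact hG.pow n
  have hne : (embData N).embInf (QuotientGroup.mk σ) h ≠ 0 := embInf_ne_zero _ _ h0
  show ((embData N).embInf (QuotientGroup.mk σ) (embData N).jF⁻¹).order * (n : ℤ) ∣
    r * ((embData N).embInf (QuotientGroup.mk σ) h).order
  rw [order_embInf_inv]
  rcases Nat.eq_zero_or_pos n with rfl | hn
  · rw [h1]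
    simp
  have hG0 : G ≠ 0 := by
    rintro rfl
    rw [h1, zero_pow hn.ne'] at hne
    exact hne rfl
  have h2 : (G ^ n).order = n * G.order := by
    clear h1 hne hgn hn hv
    induction n with
    | zero => simp
    | succ n ih =>
      rw [pow_succ, HahnSeries.order_mul (pow_ne_zero _ hG0) hG0, ih]
      push_cast
      ring
  rw [h1, h2]
  have h6 := dvd_order_of_T_pow hG hG0 hinv
  have h7 : (r : ℤ) * (n * G.order) = (r * G.order) * n := by ring
  rw [h7]
  exact mul_dvd_mul_right h6 _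

/-- **Divisibility of the orders.** -/
theorem dvd_ord_of_hasChar (hg : HasChar N χ g) (hχ : ParChar N χ) {n : ℕ}
    {h : modularFunctionFieldBar N} (h0 : h ≠ 0)
    (hgn : LExp 1 ((g : ℍ → ℂ) ^ n) (coeffMap iota (h : LaurentSeries K)))
    (v : Place K (modularFunctionFieldBar N)) : (n : ℤ) ∣ v.ord h := by
  have hpow : ∀ (t : SL(2, ℤ)) (k : ℕ) (hk : k ≠ 0) (ht : t ^ k = 1) (σ : SL(2, ℤ)) (r : ℕ)
      (hr : σ⁻¹ * t ^ r * σ ∈ Gamma0 N), χ ⟨σ⁻¹ * t ^ r * σ, hr⟩ = 1 := by
    intro t k hk ht σ r hr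
    refine hχ.fin _ k hk ?_
    apply Subtype.ext
    have h1 : (σ⁻¹ * t ^ r * σ) ^ k = σ⁻¹ * (t ^ r) ^ k * σ := by
      have := (conj_pow (i := k) (a := σ⁻¹) (b := t ^ r))
      rwa [inv_inv] at this
    show (σ⁻¹ * t ^ r * σ) ^ k = 1
    rw [h1, ← pow_mul, mul_comm r k, pow_mul, ht, one_pow, mul_one, inv_mul_cancel]
  rcases le_or_gt 0 (v.ord (embData N).jF) with hj | hj
  · have hmem : (embData N).jF ∈ v.toValuationSubring :=
      (Fermat.Agent.FFDiff.mem_iff_ord_nonneg v (jF_ne_zero (embData N))).mpr hj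
    have hfd : FiniteDimensional K⟮(embData N).jF⟯ (modularFunctionFieldBar N) :=
      Fermat.Agent.TEll.finiteDimensional_jF0 N
    obtain ⟨a, ha⟩ := Fermat.Agent.FFHur.ord_eq_zero_iff_of_residue v
      (FFFund.residue_surjective_of_place _ (embData N).transcendental_jF v) hmem
    have ha : 0 < v.ord ((embData N).jF - algebraMap K (modularFunctionFieldBar N) a) := by
      refine ha.resolve_left fun h1 => ?_
      refine (embData N).transcendental_jF ?_
      rw [sub_eq_zero.mp h1]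
      exact isAlgebraic_algebraMap a
    by_cases ha0 : a = 0
    · subst ha0
      exact dvd_ord_datum hg h0 hgn _ _ Fermat.Agent.JLevelOne.ST_smul_ρ 0 3 (by norm_num) (by
        rw [ordH_jH_sub, map_zero]
        simpa using! Fermat.Agent.JLevelOne.analyticOrderAt_jFun_ρ) (fun f r hf hr =>
        dvd_mul_ordAt Nat.prime_three (fun b => by rw [ST_pow_three, neg_one_smul_hol])
          (fun h hh hinv => dvd_three hh hinv) hf hr) (hpow _ 6 (by norm_num) (by decide)) v ha
    · by_cases ha1 : a = 1728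
      · subst ha1
        exact dvd_ord_datum hg h0 hgn UpperHalfPlane.I _ Fermat.Agent.JLevelOne.S_smul_I 1728 2 (by norm_num) (by
          rw [ordH_jH_sub, map_ofNat]
          simpa using! Fermat.Agent.JLevelOne.analyticOrderAt_jFun_sub_1728_I) (fun f r hf hr =>
          dvd_mul_ordAt Nat.prime_two (fun b => by rw [S_pow_two, neg_one_smul_hol])
            (fun h hh hinv => dvd_two hh hinv) hf hr) (hpow _ 4 (by norm_num) (by decide)) v ha
      · obtain ⟨τ0, hτ0⟩ := Fermat.Agent.JLevelOne.jFun_surjective (iota a)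
        have h4 : E₄ τ0 ≠ 0 := by
          rw [Ne, ← Fermat.Agent.JLevelOne.jFun_eq_zero_iff, hτ0]
          exact (map_ne_zero _).mpr ha0
        have h6 : E₆ τ0 ≠ 0 := by
          rw [Ne, ← Fermat.Agent.JLevelOne.jFun_eq_1728_iff, hτ0, ← map_ofNat iota]
          exact fun h => ha1 (iota.injective h)
        exact dvd_ord_datum hg h0 hgn τ0 1 (one_smul _ _) a 1 one_pos (by
          rw [ordH_jH_sub, ← hτ0]
          exact Fermat.Agent.JLevelOne.analyticOrderAt_jFun_sub_of_ne h4 h6) (fun f r _ _ => by simp)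
          (hpow _ 1 (by norm_num) (by simp)) v ha
  · refine dvd_ord_inf hg hχ h0 hgn v ?_
    rw [v.ord_inv]
    omega

end

end Fermat.Agent.GalRep
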