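import Fermat.Agent.GalRep.Input
import Fermat.Agent.GalRep.PowTrace
import Fermat.Agent.GalRep.Cyclo
import Fermat.Agent.GalRep.Burnside
import Fermat.Agent.Frob.Exists
import Mathlib.RingTheory.RootsOfUnity.EnoughRootsOfUnity
import Mathlib.FieldTheory.IntermediateField.Adjoin.Algebra

/-!
# S31 from the abstract Eichler--Shimura input

Reduction of the unramifiedness statement S31 to `ESInput` and the Frobenius density theorem.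
-/

set_option autoImplicit false

noncomputable section

open CuspForm ModularCurve Polynomial

namespace Fermat.Agent.GalRep

/-! ### Auxiliary facts on traces -/

section Trace

variable {T : Type*} [CommRing T] {V : Type*} [AddCommGroup V] [Module T V] [Module.Free T V]
  [Module.Finite T V]

lemma trace_mem_of_forall_mem (I : Ideal T) (f : Module.End T V)
    (h : ∀ v, f v ∈ I • (⊤ : Submodule T V)) : LinearMap.trace T V f ∈ I := by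
  classical
  set b := Module.Free.chooseBasis T V with hb
  rw [LinearMap.trace_eq_matrix_trace T b, Matrix.trace]
  refine Ideal.sum_mem _ fun i _ => ?_
  rw [Matrix.diag_apply, LinearMap.toMatrix_apply]
  have key : ∀ w ∈ I • (⊤ : Submodule T V), b.repr w i ∈ I := by
    intro w hw
    refine Submodule.smul_induction_on hw ?_ ?_
    · intro a ha v _
      rw [map_smul, Finsupp.smul_apply, smul_eq_mul]
      exact Ideal.mul_mem_right _ _ ha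
    · intro x y hx hy
      rw [map_add, Finsupp.add_apply]
      exact Ideal.add_mem _ hx hy
  exact key _ (h _)

end Trace

section AdicTrace

variable {T : Type} [CommRing T] [IsLocalRing T]

lemma trace_sub_mem (ρ : GaloisRepAdic T) {n : ℕ} {L : IntermediateField ℚ (AlgebraicClosure ℚ)}
    (hL : ∀ σ : GQ, (∀ x ∈ L, σ x = x) →
      ∀ v : ρ.V, ρ.ρ σ v - v ∈ (IsLocalRing.maximalIdeal T ^ n) • (⊤ : Submodule T ρ.V))
    {σ σ' : GQ} (h : ∀ x ∈ L, σ x = σ' x) :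
    LinearMap.trace T ρ.V (ρ.ρ σ) - LinearMap.trace T ρ.V (ρ.ρ σ') ∈
      IsLocalRing.maximalIdeal T ^ n := by
  have h1 : ∀ x ∈ L, (σ'⁻¹ * σ) x = x := by
    intro x hx
    rw [AlgEquiv.mul_apply, h x hx, ← AlgEquiv.mul_apply, inv_mul_cancel, AlgEquiv.one_apply]
  rw [← map_sub]
  refine trace_mem_of_forall_mem _ _ fun v => ?_
  have h2 := hL _ h1 v
  have h3 : (ρ.ρ σ - ρ.ρ σ') v = ρ.ρ σ' (ρ.ρ (σ'⁻¹ * σ) v - v) := by
    rw [map_sub, LinearMap.sub_apply, ← Module.End.mul_apply, ← map_mul, mul_inv_cancel_left]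
  rw [h3]
  have h4 : ∀ w ∈ (IsLocalRing.maximalIdeal T ^ n) • (⊤ : Submodule T ρ.V),
      ρ.ρ σ' w ∈ (IsLocalRing.maximalIdeal T ^ n) • (⊤ : Submodule T ρ.V) := by
    intro w hw
    refine Submodule.smul_induction_on hw ?_ ?_
    · intro a ha v _
      rw [map_smul]
      exact Submodule.smul_mem_smul ha trivial
    · intro x y hx hy
      rw [map_add]
      exact Submodule.add_mem _ hx hy
  exact h4 _ h2

end AdicTrace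

/-! ### The torsion module -/

section Torsion

variable (J : Type*) [AddCommGroup J] [Module HeckeAlg J] [DistribMulAction GQ J]
  [SMulCommClass GQ HeckeAlg J] (p m : ℕ)

/-- The `p^m`-torsion of `J` as a Hecke-submodule. -/
def torsSub : Submodule HeckeAlg J where
  carrier := {x | p ^ m • x = 0}
  add_mem' := by
    intro x y hx hy
    simp only [Set.mem_setOf_eq] at hx hy ⊢
    rw [smul_add, hx, hy, add_zero]
  zero_mem' := by simp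
  smul_mem' := by
    intro c x hx
    simp only [Set.mem_setOf_eq] at hx ⊢
    rw [smul_comm, hx, smul_zero]

lemma mem_torsSub {x : J} : x ∈ torsSub J p m ↔ p ^ m • x = 0 := Iff.rfl

/-- The Galois action on `J[p^m]`. -/
def actTors : GQ →* Module.End HeckeAlg (torsSub J p m) where
  toFun g := (DistribSMul.toLinearMap HeckeAlg J g).restrict (p := torsSub J p m)
    (q := torsSub J p m) (fun x hx => by
      rw [mem_torsSub] at hx ⊢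
      change p ^ m • (g • x) = 0
      rw [smul_comm, hx, smul_zero])
  map_one' := by
    ext x
    exact one_smul GQ (x : J)
  map_mul' g h := by
    ext x
    exact mul_smul g h (x : J)

@[simp] lemma coe_actTors_apply (g : GQ) (x : torsSub J p m) :
    ((actTors J p m g x : torsSub J p m) : J) = g • (x : J) := rfl

end Torsion

/-! ### The main congruence -/

section Main

variable {N p : ℕ} [NeZero N] {S : Finset ℕ}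
  {J : Type*} [AddCommGroup J] [Module HeckeAlg J] [DistribMulAction GQ J]
  [SMulCommClass GQ HeckeAlg J]

/-- the trace polynomial at a prime `ℓ ∉ S`. -/
def tracePoly (S : Finset ℕ) (ℓ : ℕ) (hℓ : ℓ.Prime) (hℓS : ℓ ∉ S) (k : ℕ) :
    HeckeAlgS (↑S : Set ℕ) :=
  tk (MvPolynomial.X ⟨⟨ℓ, hℓ⟩, hℓS⟩) (ℓ : HeckeAlgS (↑S : Set ℕ)) k

lemma inclS_tracePoly (ℓ : ℕ) (hℓ : ℓ.Prime) (hℓS : ℓ ∉ S) (k : ℕ) :
    inclS (↑S : Set ℕ) (tracePoly S ℓ hℓ hℓS k) = tk (heckeGen ⟨ℓ, hℓ⟩) (ℓ : HeckeAlg) k := by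
  have h := map_tk (inclS (↑S : Set ℕ)).toRingHom
    (MvPolynomial.X ⟨⟨ℓ, hℓ⟩, hℓS⟩) (ℓ : HeckeAlgS (↑S : Set ℕ)) k
  refine h.trans ?_
  congr 1
  · exact MvPolynomial.rename_X _ _
  · exact map_natCast _ _

lemma evS_tracePoly (ℓ : ℕ) (hℓ : ℓ.Prime) (hℓS : ℓ ∉ S) (hℓN : ¬ ℓ ∣ N) (k : ℕ) :
    evS N (↑S : Set ℕ) (tracePoly S ℓ hℓ hℓS k) =
      tk (heckeAlgebra.T (N := N) (k := 2) hℓ hℓN hℓS) (ℓ : heckeAlgebra N 2 (↑S : Set ℕ)) k := by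
  have h := map_tk (evS N (↑S : Set ℕ)).toRingHom
    (MvPolynomial.X ⟨⟨ℓ, hℓ⟩, hℓS⟩) (ℓ : HeckeAlgS (↑S : Set ℕ)) k
  refine h.trans ?_
  congr 1
  · exact evS_X_of_not_dvd N _ ⟨⟨ℓ, hℓ⟩, hℓS⟩ hℓN
  · exact map_natCast _ _

/-- On `J[p^m]`, the element `φ^k` (`φ` a Frobenius) satisfies the quadratic relation. -/
lemma actTors_quadratic (hfrob : FrobeniusQuadratic (K := ℚ) (L := AlgebraicClosure ℚ) N p J)
    (m : ℕ) {ℓ : ℕ} (hℓ : ℓ.Prime) (hℓNp : ¬ ℓ ∣ N * p)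
    {A : ValuationSubring (AlgebraicClosure ℚ)} (hA : A.LiesOverPrime ℓ) {φ : GQ}
    (hφ : A.IsFrobeniusAt φ ℓ) (k : ℕ) :
    actTors J p m (φ ^ k) * actTors J p m (φ ^ k) =
      tk (heckeGen ⟨ℓ, hℓ⟩) (ℓ : HeckeAlg) k • actTors J p m (φ ^ k) -
        algebraMap HeckeAlg _ ((ℓ : HeckeAlg) ^ k) := by
  rw [map_pow]
  refine pow_quadratic (E := Module.End HeckeAlg (torsSub J p m)) _ _ _ ?_ k
  ext x
  have h := hfrob ℓ hℓ hℓNp A hA φ hφ (x : J) ⟨m, x.2⟩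
  have h2 : φ • φ • (x : J) = heckeGen ⟨ℓ, hℓ⟩ • (φ • (x : J)) - ℓ • (x : J) := by
    rw [← sub_eq_zero, ← h]; abel
  change φ • φ • (x : J) = heckeGen ⟨ℓ, hℓ⟩ • (φ • (x : J)) - ((ℓ : HeckeAlg) • (x : J))
  rw [h2, Nat.cast_smul_eq_nsmul]

/-- Two Galois elements agreeing on a finite level through which `J[p^m]` factors act equally. -/
lemma actTors_eq_of_agree {m : ℕ} {L : IntermediateField ℚ (AlgebraicClosure ℚ)}
    (hL : ∀ σ : GQ, (∀ x ∈ L, σ x = x) → ∀ x : J, p ^ m • x = 0 → σ • x = x)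
    {σ σ' : GQ} (h : ∀ x ∈ L, σ x = σ' x) : actTors J p m σ = actTors J p m σ' := by
  have h1 : ∀ x ∈ L, (σ'⁻¹ * σ) x = x := by
    intro x hx
    rw [AlgEquiv.mul_apply, h x hx, ← AlgEquiv.mul_apply, inv_mul_cancel, AlgEquiv.one_apply]
  ext x
  rw [coe_actTors_apply, coe_actTors_apply]
  have h2 := hL _ h1 (x : J) x.2
  rw [mul_smul, inv_smul_eq_iff] at h2
  exact h2

variable (p) in
/-- The cyclotomic part: if `g` and `g τ` (with `τ` inertia at `q ≠ p`) agree on `ζ_{p^m}` with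
powers of Frobenius elements, the corresponding prime powers are congruent modulo `p^m`. -/
lemma cyclotomic_congr (hp : p.Prime) (m : ℕ) {ζ : AlgebraicClosure ℚ}
    (hζ : IsPrimitiveRoot ζ (p ^ m)) {g τ : GQ} {q : ℕ} (hq : q.Prime) (hqp : q ≠ p)
    {A : ValuationSubring (AlgebraicClosure ℚ)} (hA : A.LiesOverPrime q)
    (hτ : τ ∈ A.inertiaSubgroupIn ℚ)
    {ℓ₁ ℓ₂ : ℕ} (hℓ₁ : ℓ₁.Prime) (hℓ₂ : ℓ₂.Prime) (hℓ₁p : ℓ₁ ≠ p) (hℓ₂p : ℓ₂ ≠ p)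
    {A₁ A₂ : ValuationSubring (AlgebraicClosure ℚ)} (hA₁ : A₁.LiesOverPrime ℓ₁)
    (hA₂ : A₂.LiesOverPrime ℓ₂) {φ₁ φ₂ : GQ} (hφ₁ : A₁.IsFrobeniusAt φ₁ ℓ₁)
    (hφ₂ : A₂.IsFrobeniusAt φ₂ ℓ₂) {k₁ k₂ : ℕ} (h₁ : (φ₁ ^ k₁) ζ = g ζ)
    (h₂ : (φ₂ ^ k₂) ζ = (g * τ) ζ) :
    ((ℓ₁ ^ k₁ : ℕ) : ZMod (p ^ m)) = ((ℓ₂ ^ k₂ : ℕ) : ZMod (p ^ m)) := by
  have hpm0 : p ^ m ≠ 0 := pow_ne_zero _ hp.ne_zero
  have hcop : ∀ {ℓ : ℕ}, ℓ.Prime → ℓ ≠ p → Nat.Coprime ℓ (p ^ m) := fun hℓ hne =>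
    ((Nat.coprime_primes hℓ hp).mpr hne).pow_right m
  have hζ1 : ζ ^ (p ^ m) = 1 := hζ.pow_eq_one
  have hfrob : ∀ {ℓ : ℕ} (_ : ℓ.Prime) (_ : ℓ ≠ p) {B : ValuationSubring (AlgebraicClosure ℚ)}
      (_ : B.LiesOverPrime ℓ) {φ : GQ} (_ : B.IsFrobeniusAt φ ℓ) (k : ℕ),
      (φ ^ k) ζ = ζ ^ (ℓ ^ k) := by
    intro ℓ hℓ hne B hB φ hφ k
    induction k with
    | zero => simp
    | succ k ih =>
      rw [pow_succ', AlgEquiv.mul_apply, ih, map_pow,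
        frobenius_rootOfUnity hB (hcop hℓ hne) hpm0 hφ hζ1, ← pow_mul, pow_succ', ]
  have hτζ : τ ζ = ζ := inertia_fix_rootOfUnity hA (hcop hq hqp) hpm0 hτ hζ1
  rw [hfrob hℓ₁ hℓ₁p hA₁ hφ₁] at h₁
  rw [hfrob hℓ₂ hℓ₂p hA₂ hφ₂, AlgEquiv.mul_apply, hτζ, ← h₁] at h₂
  have hmod : ∀ c : ℕ, ζ ^ c = ζ ^ (c % p ^ m) := by
    intro c
    conv_lhs => rw [← Nat.mod_add_div c (p ^ m)]
    rw [pow_add, pow_mul, hζ1, one_pow, mul_one]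
  rw [hmod (ℓ₂ ^ k₂), hmod (ℓ₁ ^ k₁)] at h₂
  have hpos : 0 < p ^ m := Nat.pos_of_ne_zero hpm0
  have h3 := hζ.pow_inj (Nat.mod_lt _ hpos) (Nat.mod_lt _ hpos) h₂
  exact (ZMod.natCast_eq_natCast_iff' _ _ _).mpr h3.symm

/-- Integers congruent modulo `p^m` act equally on `J[p^m]`. -/
lemma algebraMap_eq_of_congr (m : ℕ) {a b : ℕ} (h : (a : ZMod (p ^ m)) = (b : ZMod (p ^ m))) :
    algebraMap HeckeAlg (Module.End HeckeAlg (torsSub J p m)) (a : HeckeAlg) =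
      algebraMap HeckeAlg (Module.End HeckeAlg (torsSub J p m)) (b : HeckeAlg) := by
  ext x
  change (a : HeckeAlg) • (x : J) = (b : HeckeAlg) • (x : J)
  rw [Nat.cast_smul_eq_nsmul, Nat.cast_smul_eq_nsmul]
  have hx : p ^ m • (x : J) = 0 := x.2
  have h1 : a % (p ^ m) = b % (p ^ m) := (ZMod.natCast_eq_natCast_iff' a b (p ^ m)).mp h
  have h2 : ∀ c : ℕ, c • (x : J) = (c % (p ^ m)) • (x : J) := by
    intro c
    conv_lhs => rw [← Nat.mod_add_div c (p ^ m)]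
    rw [add_smul, mul_comm (p ^ m), mul_smul, hx, smul_zero, add_zero]
  rw [h2 a, h2 b, h1]

/-- **Key congruence**: the trace polynomials at two primes whose Frobenius powers agree on a large
enough level with `g` and `g τ` (`τ` inertia at `q ∤ N p`) are congruent modulo `p^n`. -/
theorem tracePoly_congr (hJ : ESInput N p (↑S : Set ℕ) J) (hp : p.Prime) (hpS : p ∈ S)
    (hNS : ∀ q : ℕ, q.Prime → q ∣ N → q ∈ S) (n : ℕ) :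
    ∃ L : IntermediateField ℚ (AlgebraicClosure ℚ), FiniteDimensional ℚ L ∧
      ∀ {g τ : GQ} {q : ℕ} (_ : q.Prime) (_ : q ∉ S)
      {A : ValuationSubring (AlgebraicClosure ℚ)} (_ : A.LiesOverPrime q)
      (_ : τ ∈ A.inertiaSubgroupIn ℚ)
      {ℓ₁ ℓ₂ : ℕ} (hℓ₁ : ℓ₁.Prime) (hℓ₂ : ℓ₂.Prime) (hℓ₁S : ℓ₁ ∉ S) (hℓ₂S : ℓ₂ ∉ S)
      {A₁ A₂ : ValuationSubring (AlgebraicClosure ℚ)} (_ : A₁.LiesOverPrime ℓ₁)
      (_ : A₂.LiesOverPrime ℓ₂) {φ₁ φ₂ : GQ} (_ : A₁.IsFrobeniusAt φ₁ ℓ₁)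
      (_ : A₂.IsFrobeniusAt φ₂ ℓ₂) {k₁ k₂ : ℕ} (_ : ∀ x ∈ L, (φ₁ ^ k₁) x = g x)
      (_ : ∀ x ∈ L, (φ₂ ^ k₂) x = (g * τ) x),
      evS N (↑S : Set ℕ) (tracePoly S ℓ₁ hℓ₁ hℓ₁S k₁) -
        evS N (↑S : Set ℕ) (tracePoly S ℓ₂ hℓ₂ hℓ₂S k₂) ∈
          Ideal.span {((p : heckeAlgebra N 2 (↑S : Set ℕ))) ^ n} := by
  obtain ⟨m, hm⟩ := hJ.faithful n
  obtain ⟨L₂, hL₂fin, hL₂⟩ := hJ.finiteLevel m
  have hpm0 : p ^ m ≠ 0 := pow_ne_zero _ hp.ne_zero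
  haveI : NeZero (p ^ m) := ⟨hpm0⟩
  obtain ⟨ζ, hζ⟩ := HasEnoughRootsOfUnity.exists_primitiveRoot (AlgebraicClosure ℚ) (p ^ m)
  set L₃ : IntermediateField ℚ (AlgebraicClosure ℚ) := IntermediateField.adjoin ℚ {ζ} with hL₃
  haveI hL₃fin : FiniteDimensional ℚ L₃ :=
    IntermediateField.adjoin.finiteDimensional ((Algebra.IsAlgebraic.isAlgebraic ζ).isIntegral)
  refine ⟨L₂ ⊔ L₃, inferInstance, ?_⟩
  intro g τ q hq hqS A hA hτ ℓ₁ ℓ₂ hℓ₁ hℓ₂ hℓ₁S hℓ₂S A₁ A₂ hA₁ hA₂ φ₁ φ₂ hφ₁ hφ₂ k₁ k₂ h₁ h₂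
  have hnd : ∀ {ℓ : ℕ}, ℓ.Prime → ℓ ∉ S → ¬ ℓ ∣ N * p := by
    intro ℓ hℓ hℓS hdvd
    rcases (Nat.Prime.dvd_mul hℓ).mp hdvd with h | h
    · exact hℓS (hNS ℓ hℓ h)
    · exact hℓS (((Nat.prime_dvd_prime_iff_eq hℓ hp).mp h) ▸ hpS)
  have hne : ∀ {ℓ : ℕ}, ℓ ∉ S → ℓ ≠ p := fun h h' => h (h' ▸ hpS)
  have hζL : ζ ∈ L₂ ⊔ L₃ :=
    (le_sup_right : L₃ ≤ L₂ ⊔ L₃) (IntermediateField.mem_adjoin_simple_self ℚ ζ)
  have hcyc := cyclotomic_congr p hp m hζ hq (hne hqS) hA hτ hℓ₁ hℓ₂ (hne hℓ₁S) (hne hℓ₂S) hA₁ hA₂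
    hφ₁ hφ₂ (h₁ ζ hζL) (h₂ ζ hζL)
  have hg₁ : actTors J p m (φ₁ ^ k₁) = actTors J p m g :=
    actTors_eq_of_agree hL₂ fun x hx => h₁ x ((le_sup_left : L₂ ≤ L₂ ⊔ L₃) hx)
  have hg₂ : actTors J p m (φ₂ ^ k₂) = actTors J p m g := by
    rw [actTors_eq_of_agree hL₂ fun x hx => h₂ x ((le_sup_left : L₂ ≤ L₂ ⊔ L₃) hx), map_mul]
    have : actTors J p m τ = 1 := by
      ext x
      exact hJ.unramified q hq (hnd hq hqS) A hA τ hτ (x : J) ⟨m, x.2⟩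
    rw [this, mul_one]
  have e₁ := actTors_quadratic (N := N) (J := J) hJ.frobenius m hℓ₁ (hnd hℓ₁ hℓ₁S) hA₁ hφ₁ k₁
  have e₂ := actTors_quadratic (N := N) (J := J) hJ.frobenius m hℓ₂ (hnd hℓ₂ hℓ₂S) hA₂ hφ₂ k₂
  rw [hg₁] at e₁
  rw [hg₂] at e₂
  have halg : algebraMap HeckeAlg (Module.End HeckeAlg (torsSub J p m)) ((ℓ₁ : HeckeAlg) ^ k₁) =
      algebraMap HeckeAlg (Module.End HeckeAlg (torsSub J p m)) ((ℓ₂ : HeckeAlg) ^ k₂) := by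
    have h := algebraMap_eq_of_congr (J := J) (p := p) m hcyc
    rwa [Nat.cast_pow, Nat.cast_pow] at h
  rw [← map_sub]
  refine hm _ fun x hx => ?_
  rw [map_sub, inclS_tracePoly, inclS_tracePoly]
  set t₁ := tk (heckeGen ⟨ℓ₁, hℓ₁⟩) (ℓ₁ : HeckeAlg) k₁ with ht₁
  set t₂ := tk (heckeGen ⟨ℓ₂, hℓ₂⟩) (ℓ₂ : HeckeAlg) k₂ with ht₂
  have e₃ : t₁ • actTors J p m g = t₂ • actTors J p m g := by
    have : t₁ • actTors J p m g -
        algebraMap HeckeAlg (Module.End HeckeAlg (torsSub J p m)) ((ℓ₁ : HeckeAlg) ^ k₁) =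
        t₂ • actTors J p m g -
        algebraMap HeckeAlg (Module.End HeckeAlg (torsSub J p m)) ((ℓ₂ : HeckeAlg) ^ k₂) := by
      rw [← e₁, ← e₂]
    rw [halg] at this
    exact sub_left_injective this
  have hx' : p ^ m • (g⁻¹ • x) = 0 := by rw [smul_comm, hx, smul_zero]
  have e₄ := congrArg (fun f : Module.End HeckeAlg (torsSub J p m) =>
    ((f (⟨g⁻¹ • x, hx'⟩ : torsSub J p m) : torsSub J p m) : J)) e₃
  have e₅ : t₁ • (g • (g⁻¹ • x)) = t₂ • (g • (g⁻¹ • x)) := e₄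
  rw [smul_inv_smul] at e₅
  rw [sub_smul, e₅, sub_self]

end Main

/-! ### S31 -/

section S31

variable {p : ℕ} {N : ℕ} [NeZero N] {S : Finset ℕ}
  {𝒪 : Type} [CommRing 𝒪] [IsDomain 𝒪] [IsDiscreteValuationRing 𝒪]
  [IsAdicComplete (IsLocalRing.maximalIdeal 𝒪) 𝒪]
  {θ : CuspForm.heckeAlgebra N 2 (↑S : Set ℕ) →+* IsLocalRing.ResidueField 𝒪}
  {T : Type} [CommRing T] [IsLocalRing T] [IsNoetherianRing T]
  [IsAdicComplete (IsLocalRing.maximalIdeal T) T] [Algebra 𝒪 T] [IsLocalHom (algebraMap 𝒪 T)]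
  [Module.Finite 𝒪 T] [Module.Free 𝒪 T]

/-- **S31 from the Eichler--Shimura input and the Frobenius density theorem.** -/
theorem isUnramifiedAt_of_ESInput (hdens : FrobeniusDensity)
    {J : Type*} [AddCommGroup J] [Module HeckeAlg J] [DistribMulAction GQ J]
    [SMulCommClass GQ HeckeAlg J] (hJ : ESInput N p (↑S : Set ℕ) J) (hp : p.Prime)
    (hp𝒪 : (p : 𝒪) ∈ IsLocalRing.maximalIdeal 𝒪) (hpS : p ∈ S)
    (hNS : ∀ q : ℕ, q.Prime → q ∣ N → q ∈ S)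
    (H : CuspForm.HeckeGaloisRepDatum N (↑S : Set ℕ) 𝒪 θ T)
    (q : ℕ) (hq : q.Prime) (hqS : q ∉ S) :
    H.ρ.IsUnramifiedAt q := by
  intro A hA τ hτ
  refine eq_one_of_trace_mul H.ρ H.residual_absIrr τ fun g => ?_
  rw [← sub_eq_zero]
  have hpT : (p : T) ∈ IsLocalRing.maximalIdeal T := by
    have h := map_nonunit (algebraMap 𝒪 T) (p : 𝒪) hp𝒪
    rwa [map_natCast] at h
  have hbot : ∀ x : T, (∀ n : ℕ, x ∈ IsLocalRing.maximalIdeal T ^ n) → x = 0 := by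
    intro x hx
    have h := Ideal.iInf_pow_eq_bot_of_isLocalRing (IsLocalRing.maximalIdeal T)
      (Ideal.IsPrime.ne_top inferInstance)
    have : x ∈ ⨅ n : ℕ, IsLocalRing.maximalIdeal T ^ n := by
      rw [Submodule.mem_iInf]; exact hx
    rw [h] at this
    exact this
  refine hbot _ fun n => ?_
  obtain ⟨L₁, hL₁fin, hL₁⟩ := H.ρ.isAdicContinuous n
  obtain ⟨L₂, hL₂fin, hL₂⟩ := tracePoly_congr hJ hp hpS hNS n
  obtain ⟨ℓ₁, hℓ₁, hℓ₁S, A₁, hA₁, φ₁, hφ₁, k₁, h₁⟩ := hdens (L₁ ⊔ L₂) inferInstance g S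
  obtain ⟨ℓ₂, hℓ₂, hℓ₂S, A₂, hA₂, φ₂, hφ₂, k₂, h₂⟩ := hdens (L₁ ⊔ L₂) inferInstance (g * τ) S
  have hmem := hL₂ hq hqS hA hτ hℓ₁ hℓ₂ hℓ₁S hℓ₂S hA₁ hA₂ hφ₁ hφ₂
    (fun x hx => h₁ x ((le_sup_right : L₂ ≤ L₁ ⊔ L₂) hx))
    (fun x hx => h₂ x ((le_sup_right : L₂ ≤ L₁ ⊔ L₂) hx))
  have htr : ∀ {ℓ : ℕ} (hℓ : ℓ.Prime) (hℓS : ℓ ∉ S) {B : ValuationSubring (AlgebraicClosure ℚ)}
      (_ : B.LiesOverPrime ℓ) {φ : GQ} (_ : B.IsFrobeniusAt φ ℓ) (k : ℕ),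
      LinearMap.trace T H.ρ.V (H.ρ.ρ (φ ^ k)) =
        H.π (evS N (↑S : Set ℕ) (tracePoly S ℓ hℓ hℓS k)) := by
    intro ℓ hℓ hℓS B hB φ hφ k
    have hℓN : ¬ ℓ ∣ N := fun h => hℓS (hNS ℓ hℓ h)
    rw [evS_tracePoly ℓ hℓ hℓS hℓN, map_tk, map_natCast, map_pow]
    exact trace_pow_of_charpoly H.ρ.finrank_eq _ _ _ (H.charpoly_frob ℓ hℓ hℓN hℓS B hB φ hφ) k
  have d₁ := trace_sub_mem H.ρ hL₁ (σ := φ₁ ^ k₁) (σ' := g)
    fun x hx => h₁ x ((le_sup_left : L₁ ≤ L₁ ⊔ L₂) hx)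
  have d₂ := trace_sub_mem H.ρ hL₁ (σ := φ₂ ^ k₂) (σ' := g * τ)
    fun x hx => h₂ x ((le_sup_left : L₁ ≤ L₁ ⊔ L₂) hx)
  rw [htr hℓ₁ hℓ₁S hA₁ hφ₁] at d₁
  rw [htr hℓ₂ hℓ₂S hA₂ hφ₂] at d₂
  have d₃ : H.π (evS N (↑S : Set ℕ) (tracePoly S ℓ₁ hℓ₁ hℓ₁S k₁)) -
      H.π (evS N (↑S : Set ℕ) (tracePoly S ℓ₂ hℓ₂ hℓ₂S k₂)) ∈ IsLocalRing.maximalIdeal T ^ n := by
    rw [← map_sub]
    obtain ⟨c, hc⟩ := Ideal.mem_span_singleton'.mp hmem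
    rw [← hc, map_mul, map_pow, map_natCast]
    exact Ideal.mul_mem_left _ _ (Ideal.pow_mem_pow hpT n)
  have : LinearMap.trace T H.ρ.V (H.ρ.ρ (g * τ)) - LinearMap.trace T H.ρ.V (H.ρ.ρ g) =
      (H.π (evS N (↑S : Set ℕ) (tracePoly S ℓ₁ hℓ₁ hℓ₁S k₁)) - LinearMap.trace T H.ρ.V (H.ρ.ρ g)) -
      (H.π (evS N (↑S : Set ℕ) (tracePoly S ℓ₂ hℓ₂ hℓ₂S k₂)) -
        LinearMap.trace T H.ρ.V (H.ρ.ρ (g * τ))) -
      (H.π (evS N (↑S : Set ℕ) (tracePoly S ℓ₁ hℓ₁ hℓ₁S k₁)) -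
        H.π (evS N (↑S : Set ℕ) (tracePoly S ℓ₂ hℓ₂ hℓ₂S k₂))) := by ring
  rw [this]
  exact Ideal.sub_mem _ (Ideal.sub_mem _ d₁ d₂) d₃

end S31

end Fermat.Agent.GalRep

end
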